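import Fermat.Agent.CFT.Local.Compact

/-!
# The index of `p`-th powers for finite extensions of `ℚ_q`
-/

namespace Fermat.Agent.CFTLocal

open IsLocalRing Polynomial
open scoped NormedField Valued

variable (q : ℕ) [Fact q.Prime] (l : Type*) [Field l] [Algebra ℚ_[q] l] [FiniteDimensional ℚ_[q] l]

/-- the structure of `ℤ_q`-algebra -/
noncomputable abbrev algZ : Algebra ℤ_[q] l :=
  ((algebraMap ℚ_[q] l).comp (algebraMap ℤ_[q] ℚ_[q])).toAlgebra

theorem isIntegral_iff_spectralNorm_le_one (x : l) :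
    letI := algZ q l
    IsIntegral ℤ_[q] x ↔ spectralNorm ℚ_[q] l x ≤ 1 := by
  letI := algZ q l
  haveI : IsScalarTower ℤ_[q] ℚ_[q] l := IsScalarTower.of_algebraMap_eq (fun _ => rfl)
  have hx : IsIntegral ℚ_[q] x := Algebra.IsIntegral.isIntegral x
  rw [spectralNorm, spectralValue_le_one_iff (minpoly.monic hx)]
  constructor
  · intro h n
    rw [minpoly.isIntegrallyClosed_eq_field_fractions' ℚ_[q] h, coeff_map]
    exact PadicInt.norm_le_one _
  · intro h
    -- lift the minimal polynomial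
    have hl : minpoly ℚ_[q] x ∈ Polynomial.lifts (algebraMap ℤ_[q] ℚ_[q]) := by
      rw [Polynomial.lifts_iff_coeff_lifts]
      intro n
      exact ⟨⟨_, h n⟩, rfl⟩
    obtain ⟨P, hP1, hP2, hP3⟩ :=
      Polynomial.lifts_and_degree_eq_and_monic hl (minpoly.monic hx)
    refine ⟨P, hP3, ?_⟩
    have : aeval x P = aeval x (P.map (algebraMap ℤ_[q] ℚ_[q])) := by
      rw [aeval_map_algebraMap]
    rw [← aeval_def, this, hP1, minpoly.aeval]

/-- `|O/qO| = q^[l:ℚ_q]` for the integral closure of `ℤ_q` in `l`. -/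
theorem card_integralClosure_quot :
    letI := algZ q l
    Nat.card (integralClosure ℤ_[q] l ⧸ Ideal.span {(q : integralClosure ℤ_[q] l)})
      = q ^ Module.finrank ℚ_[q] l := by
  letI := algZ q l
  haveI : IsScalarTower ℤ_[q] ℚ_[q] l := IsScalarTower.of_algebraMap_eq (fun _ => rfl)
  haveI : Module.Finite ℤ_[q] (integralClosure ℤ_[q] l) :=
    IsIntegralClosure.finite ℤ_[q] ℚ_[q] l (integralClosure ℤ_[q] l)
  haveI : IsFractionRing (integralClosure ℤ_[q] l) l :=
    IsIntegralClosure.isFractionRing_of_finite_extension ℤ_[q] ℚ_[q] l (integralClosure ℤ_[q] l)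
  have e : Ideal.map (algebraMap ℤ_[q] (integralClosure ℤ_[q] l)) (maximalIdeal ℤ_[q])
      = Ideal.span {(q : integralClosure ℤ_[q] l)} := by
    rw [PadicInt.maximalIdeal_eq_span_p, Ideal.map_span, Set.image_singleton, map_natCast]
  have h := Ideal.finrank_quotient_map (K := ℚ_[q]) (L := l) (S := integralClosure ℤ_[q] l)
    (maximalIdeal ℤ_[q])
  letI : Field (ℤ_[q] ⧸ maximalIdeal ℤ_[q]) := Ideal.Quotient.field _
  have hcard : Nat.card (ℤ_[q] ⧸ maximalIdeal ℤ_[q]) = q := by
    have : Nat.card (ℤ_[q] ⧸ maximalIdeal ℤ_[q]) = Nat.card (ZMod q) :=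
      Nat.card_congr (PadicInt.residueField (p := q)).toEquiv
    rw [this, Nat.card_zmod]
  rw [← e, Module.natCard_eq_pow_finrank (K := ℤ_[q] ⧸ maximalIdeal ℤ_[q]), h, hcard]

theorem isUltrametricDist_spectralNorm :
    letI := spectralNorm.nontriviallyNormedField ℚ_[q] l
    IsUltrametricDist l := by
  letI := spectralNorm.nontriviallyNormedField ℚ_[q] l
  exact IsUltrametricDist.isUltrametricDist_of_forall_norm_add_le_max_norm
    (isNonarchimedean_spectralNorm (K := ℚ_[q]) (L := l))

theorem properSpace_spectralNorm :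
    letI := spectralNorm.nontriviallyNormedField ℚ_[q] l
    ProperSpace l := by
  letI := spectralNorm.nontriviallyNormedField ℚ_[q] l
  letI : NormedSpace ℚ_[q] l := spectralNorm.normedSpace ℚ_[q] l
  exact FiniteDimensional.proper ℚ_[q] l

/-- `[lˣ : lˣ^p] = p · p^[l:ℚ_p] · |μ_p(l)|` for a finite extension `l` of `ℚ_q` with `q = p`,
and without the factor `p^[l:ℚ_p]` if `q ≠ p`. -/
theorem index_pow_finite (p : ℕ) (hp : p.Prime) :
    (powMonoidHom p : lˣ →* lˣ).range.index
      = p * ((if p = q then p ^ Module.finrank ℚ_[q] l else 1)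
          * Nat.card (powMonoidHom p : lˣ →* lˣ).ker) := by
  haveI : CharZero l := charZero_of_injective_algebraMap (algebraMap ℚ_[q] l).injective
  letI := spectralNorm.nontriviallyNormedField ℚ_[q] l
  haveI := isUltrametricDist_spectralNorm q l
  haveI := properSpace_spectralNorm q l
  rw [index_pow_locallyCompact l p (by exact_mod_cast hp.ne_zero)]
  congr 2
  split_ifs with h
  · subst h
    rw [← card_integralClosure_quot p l]
    letI := algZ p l
    have e : ∀ x : l, x ∈ (integralClosure ℤ_[p] l) ↔ x ∈ 𝒪[l] := by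
      intro x
      rw [mem_integralClosure_iff, isIntegral_iff_spectralNorm_le_one, Valued.integer.mem_iff]
      rfl
    let f : 𝒪[l] ≃+* integralClosure ℤ_[p] l :=
      { toFun := fun x => ⟨x.1, (e x.1).mpr x.2⟩
        invFun := fun x => ⟨x.1, (e x.1).mp x.2⟩
        left_inv := fun x => rfl
        right_inv := fun x => rfl
        map_mul' := fun x y => rfl
        map_add' := fun x y => rfl }
    refine Nat.card_congr (Ideal.quotientEquiv _ _ f ?_).toEquiv
    rw [Ideal.map_span, Set.image_singleton]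
    congr 2
  · have hn : ‖(p : l)‖ = 1 := by
      rw [← map_natCast (algebraMap ℚ_[q] l) p]
      have : ‖(algebraMap ℚ_[q] l) (p : ℚ_[q])‖ = ‖(p : ℚ_[q])‖ :=
        spectralNorm_extends (K := ℚ_[q]) (L := l) _
      rw [this, Padic.norm_natCast_eq_one_iff]
      rw [Nat.coprime_primes Fact.out hp]
      exact fun h' => h h'.symm
    have hu : IsUnit ((p : 𝒪[l])) := by
      rw [Valued.integer.isUnit_iff_norm_eq_one]
      exact hn
    rw [Ideal.span_singleton_eq_top.mpr hu]
    have : Subsingleton (𝒪[l] ⧸ (⊤ : Ideal 𝒪[l])) := inferInstance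
    exact Nat.card_of_subsingleton (0 : 𝒪[l] ⧸ (⊤ : Ideal 𝒪[l]))

end Fermat.Agent.CFTLocal
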