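import Fermat.Agent.CFT.Chevalley
import Fermat.Agent.CFT.Local.QpIndex

/-!
# The norm index of a cyclic extension of degree `p` of local fields
-/

namespace Fermat.Agent.CFTLocal

open Fermat.Agent.CFT.Chevalley

section General

variable (k l : Type) [Field k] [Field l] [Algebra k l] [FiniteDimensional k l] [IsGalois k l]

/-- the action of an automorphism on the multiplicative group, additively written -/
def autEnd (σ : l ≃ₐ[k] l) : AddMonoid.End (Additive lˣ) :=
  MonoidHom.toAdditive (Units.map (σ : l →* l))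

omit [FiniteDimensional k l] [IsGalois k l] in
theorem autEnd_pow_apply (σ : l ≃ₐ[k] l) (i : ℕ) (x : lˣ) :
    ((Additive.toMul ((autEnd k l σ ^ i) (Additive.ofMul x)) : lˣ) : l) = (σ ^ i) (x : l) := by
  induction i generalizing x with
  | zero => rfl
  | succ i ih =>
    rw [pow_succ, pow_succ]
    change ((Additive.toMul ((autEnd k l σ ^ i)
      (Additive.ofMul (Units.map (σ : l →* l) x))) : lˣ) : l) = (σ ^ i) (σ x)
    rw [ih]
    rfl

/-- the inclusion `kˣ → lˣ` additively written -/
def inclAdd : Additive kˣ →+ Additive lˣ :=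
  MonoidHom.toAdditive (Units.map (algebraMap k l : k →* l))

omit [FiniteDimensional k l] [IsGalois k l] in
theorem inclAdd_injective : Function.Injective (inclAdd k l) := by
  intro x y h
  have h' : (Units.map (algebraMap k l : k →* l)) (Additive.toMul x)
      = (Units.map (algebraMap k l : k →* l)) (Additive.toMul y) := h
  have := congrArg (Units.val) h'
  simp only [Units.coe_map, MonoidHom.coe_coe] at this
  exact congrArg Additive.ofMul (Units.ext ((algebraMap k l).injective this))

/-- the norm `lˣ → kˣ` -/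
noncomputable def normUnits : lˣ →* kˣ := Units.map (Algebra.norm k : l →* k)

variable {k l} in
theorem range_inclAdd (σ : l ≃ₐ[k] l) (hσ : ∀ τ : l ≃ₐ[k] l, τ ∈ Subgroup.zpowers σ) :
    (inclAdd k l).range = eker (1 - autEnd k l σ) := by
  ext x
  rw [mem_eker]
  constructor
  · rintro ⟨y, rfl⟩
    change inclAdd k l y - autEnd k l σ (inclAdd k l y) = 0
    rw [sub_eq_zero]
    change Additive.ofMul _ = Additive.ofMul _
    congr 1
    apply Units.ext
    change algebraMap k l _ = σ (algebraMap k l _)
    rw [AlgEquiv.commutes]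
  · intro h
    change x - autEnd k l σ x = 0 at h
    rw [sub_eq_zero] at h
    have hx : σ ((Additive.toMul x : lˣ) : l) = ((Additive.toMul x : lˣ) : l) := by
      have := congrArg (fun z : Additive lˣ => ((Additive.toMul z : lˣ) : l)) h
      exact this.symm
    have hall : ∀ τ : l ≃ₐ[k] l, τ ((Additive.toMul x : lˣ) : l) = ((Additive.toMul x : lˣ) : l) := by
      intro τ
      have hmem : σ ∈ MulAction.stabilizer (l ≃ₐ[k] l) ((Additive.toMul x : lˣ) : l) := hx
      have := (Subgroup.zpowers_le.mpr hmem) (hσ τ)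
      exact this
    obtain ⟨a, ha⟩ := (IsGalois.mem_range_algebraMap_iff_fixed (F := k)
      ((Additive.toMul x : lˣ) : l)).mpr hall
    have ha0 : a ≠ 0 := by
      rintro rfl
      rw [map_zero] at ha
      exact (Additive.toMul x : lˣ).ne_zero ha.symm
    refine ⟨Additive.ofMul (Units.mk0 a ha0), ?_⟩
    change Additive.ofMul _ = Additive.ofMul (Additive.toMul x)
    congr 1
    apply Units.ext
    exact ha

variable {k l} in
theorem norm_autEnd (p : ℕ) (σ : l ≃ₐ[k] l)
    (hσ : ∀ τ : l ≃ₐ[k] l, τ ∈ Subgroup.zpowers σ) (hcard : Nat.card (l ≃ₐ[k] l) = p)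
    (x : lˣ) :
    norm p (autEnd k l σ) (Additive.ofMul x) = inclAdd k l (Additive.ofMul (normUnits k l x)) := by
  classical
  have e1 : norm p (autEnd k l σ) (Additive.ofMul x)
      = ∑ i ∈ Finset.range p, (autEnd k l σ ^ i) (Additive.ofMul x) :=
    AddMonoidHom.finsetSum_apply _ _ _
  rw [e1]
  have ho : orderOf σ = p := by
    rw [← hcard]
    exact orderOf_eq_card_of_forall_mem_zpowers hσ
  have e2 : Additive.toMul (∑ i ∈ Finset.range p, (autEnd k l σ ^ i) (Additive.ofMul x))
      = ∏ i ∈ Finset.range p, Additive.toMul ((autEnd k l σ ^ i) (Additive.ofMul x)) :=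
    toMul_sum _ _
  apply Additive.toMul.injective
  rw [e2]
  apply Units.ext
  change ((∏ i ∈ Finset.range p, Additive.toMul ((autEnd k l σ ^ i) (Additive.ofMul x)) : lˣ) : l)
    = algebraMap k l (Algebra.norm k (x : l))
  rw [Algebra.norm_eq_prod_automorphisms, Units.coe_prod]
  simp_rw [autEnd_pow_apply]
  -- reindex
  refine Finset.prod_bij (fun i _ => σ ^ i) (fun _ _ => Finset.mem_univ _) ?_ ?_ (fun _ _ => rfl)
  · intro i hi j hj h
    rw [Finset.mem_range, ← ho] at hi hj
    exact pow_injOn_Iio_orderOf hi hj h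
  · intro τ _
    have hτ := hσ τ
    have hfin : IsOfFinOrder σ := isOfFinOrder_of_finite σ
    rw [← hfin.mem_powers_iff_mem_zpowers, hfin.mem_powers_iff_mem_range_orderOf, ho] at hτ
    obtain ⟨i, hi, rfl⟩ := Finset.mem_image.mp hτ
    exact ⟨i, hi, rfl⟩

/-- **Chevalley's formula** for the norm index of a cyclic extension of prime degree. -/
theorem norm_index_formula (p : ℕ) (hp : p.Prime) (hd : Module.finrank k l = p)
    (hidx : (powMonoidHom p : lˣ →* lˣ).range.index ≠ 0) :
    (normUnits k l).range.index ^ (p - 1) * (Nat.card (powMonoidHom p : kˣ →* kˣ).ker) ^ p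
        * (powMonoidHom p : lˣ →* lˣ).range.index
      = ((powMonoidHom p : kˣ →* kˣ).range.index) ^ p
        * Nat.card (powMonoidHom p : lˣ →* lˣ).ker := by
  classical
  haveI : Fact p.Prime := ⟨hp⟩
  have hcard : Nat.card (l ≃ₐ[k] l) = p := by
    rw [IsGalois.card_aut_eq_finrank, hd]
  haveI hcyc : IsCyclic (l ≃ₐ[k] l) := isCyclic_of_prime_card hcard
  obtain ⟨σ, hσ⟩ := hcyc.exists_generator
  have hσp : (autEnd k l σ) ^ p = 1 := by
    have h1 : σ ^ p = 1 := by rw [← hcard]; exact pow_card_eq_one'
    apply AddMonoidHom.ext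
    intro x
    apply Additive.toMul.injective
    apply Units.ext
    exact (autEnd_pow_apply k l σ p (Additive.toMul x)).trans (by rw [h1]; rfl)
  set S := autEnd k l σ with hS
  -- translation of the four quantities
  have t1 : (erange (p : AddMonoid.End (Additive lˣ))).index
      = (powMonoidHom p : lˣ →* lˣ).range.index := by
    rw [← Subgroup.index_toAddSubgroup]
    congr 1
  have t2 : Nat.card (eker (p : AddMonoid.End (Additive lˣ)))
      = Nat.card (powMonoidHom p : lˣ →* lˣ).ker := by
    refine Nat.card_congr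
      { toFun := fun x => ⟨Additive.toMul x.1, ?_⟩
        invFun := fun x => ⟨Additive.ofMul x.1, ?_⟩
        left_inv := fun x => rfl
        right_inv := fun x => rfl }
    · have := x.2
      rw [mem_eker, AddMonoid.End.natCast_apply] at this
      exact this
    · have := x.2
      rw [mem_eker, AddMonoid.End.natCast_apply]
      exact this
  have t3 : Nat.card ↥(eker (1 - S) ⊓ eker (p : AddMonoid.End (Additive lˣ)))
      = Nat.card (powMonoidHom p : kˣ →* kˣ).ker := by
    rw [← range_inclAdd σ hσ]
    refine (Nat.card_congr (Equiv.ofBijective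
      (fun x : (powMonoidHom p : kˣ →* kˣ).ker =>
        (⟨inclAdd k l (Additive.ofMul x.1), ⟨_, rfl⟩, by
          have hx := x.2
          rw [MonoidHom.mem_ker, powMonoidHom_apply] at hx
          refine (AddMonoid.End.natCast_apply _ _).trans ?_
          rw [← map_nsmul, ← ofMul_pow, hx]
          exact map_zero _⟩ :
          ↥((inclAdd k l).range ⊓ eker (p : AddMonoid.End (Additive lˣ))))) ⟨?_, ?_⟩)).symm
    · intro x y hxy
      apply Subtype.ext
      have := congrArg Subtype.val hxy
      exact Additive.ofMul.injective (inclAdd_injective k l this)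
    · rintro ⟨_, ⟨y, rfl⟩, hy⟩
      refine ⟨⟨Additive.toMul y, ?_⟩, rfl⟩
      have hy' : p • (inclAdd k l y) = 0 := (AddMonoid.End.natCast_apply _ _).symm.trans hy
      rw [MonoidHom.mem_ker, powMonoidHom_apply]
      have : p • y = 0 := inclAdd_injective k l (by rw [map_nsmul, hy', map_zero])
      exact this
  have t4 : ((eker (1 - S)).map (p : AddMonoid.End (Additive lˣ))).relIndex (eker (1 - S))
      = (powMonoidHom p : kˣ →* kˣ).range.index := by
    rw [← range_inclAdd σ hσ]
    have hr : (inclAdd k l).range.map (p : AddMonoid.End (Additive lˣ))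
        = ((powMonoidHom p : kˣ →* kˣ).range.toAddSubgroup).map (inclAdd k l) := by
      ext x
      constructor
      · rintro ⟨_, ⟨y, rfl⟩, rfl⟩
        refine ⟨p • y, ⟨Additive.toMul y, rfl⟩, ?_⟩
        rw [map_nsmul]
        exact (AddMonoid.End.natCast_apply _ _).symm
      · rintro ⟨_, ⟨y, rfl⟩, rfl⟩
        refine ⟨inclAdd k l (Additive.ofMul y), ⟨_, rfl⟩, ?_⟩
        refine (AddMonoid.End.natCast_apply _ _).trans ?_
        rw [← map_nsmul]
        rfl
    rw [hr, AddMonoidHom.range_eq_map,
      AddSubgroup.relIndex_map_map_of_injective _ _ (inclAdd_injective k l),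
      AddSubgroup.relIndex_top_right, Subgroup.index_toAddSubgroup]
  have t5 : h0 p S = (normUnits k l).range.index := by
    rw [h0, ← range_inclAdd σ hσ, ← AddSubgroup.index_comap, ← Subgroup.index_toAddSubgroup]
    congr 1
    ext x
    constructor
    · rintro ⟨y, hy⟩
      refine ⟨Additive.toMul y, ?_⟩
      have := norm_autEnd p σ hσ hcard (Additive.toMul y)
      rw [← hS] at this
      have h2 : inclAdd k l (Additive.ofMul (normUnits k l (Additive.toMul y))) = inclAdd k l x := by
        rw [← this]
        exact hy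
      exact inclAdd_injective k l h2
    · rintro ⟨y, rfl⟩
      refine ⟨Additive.ofMul y, ?_⟩
      exact norm_autEnd p σ hσ hcard y
  have t6 : h1 p S = 1 := by
    rw [h1, AddSubgroup.relIndex_eq_one]
    intro x hx
    rw [mem_eker] at hx
    have hx' : norm p S (Additive.ofMul (Additive.toMul x)) = 0 := hx
    rw [hS, norm_autEnd p σ hσ hcard (Additive.toMul x)] at hx'
    have h3 : normUnits k l (Additive.toMul x) = 1 := by
      have : Additive.ofMul (normUnits k l (Additive.toMul x)) = 0 :=
        inclAdd_injective k l (by rw [hx', map_zero])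
      exact this
    have h4 : Algebra.norm k ((Additive.toMul x : lˣ) : l) = 1 := congrArg Units.val h3
    obtain ⟨y, hy⟩ := groupCohomology.exists_div_of_norm_eq_one hσ h4
    refine ⟨Additive.ofMul y, ?_⟩
    change Additive.ofMul y - autEnd k l σ (Additive.ofMul y) = x
    apply Additive.toMul.injective
    apply Units.ext
    rw [← hy, toMul_sub, Units.val_div_eq_div_val]
    rfl
  have hker : Nat.card (eker (p : AddMonoid.End (Additive lˣ))) ≠ 0 := by
    rw [t2]
    haveI : NeZero p := ⟨hp.ne_zero⟩
    haveI : Finite (powMonoidHom p : lˣ →* lˣ).ker := inferInstanceAs (Finite (rootsOfUnity p l))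
    exact Nat.card_pos.ne'
  have hidx' : (erange (p : AddMonoid.End (Additive lˣ))).index ≠ 0 := by
    rw [t1]
    exact hidx
  have key := (chevalley p hp S hσp hker hidx').1
  rw [t1, t2, t3, t4, t5, t6, one_pow, one_mul] at key
  exact key

end General

section Local

/-- `[kˣ : N lˣ] = p` for a cyclic extension `l/k` of prime degree `p` of finite extensions
of `ℚ_q`. -/
theorem norm_index_local (q : ℕ) [Fact q.Prime] (k l : Type) [Field k] [Algebra ℚ_[q] k] [Field l]
    [Algebra ℚ_[q] l] [Algebra k l] [IsScalarTower ℚ_[q] k l] [FiniteDimensional ℚ_[q] l]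
    [IsGalois k l] (p : ℕ) (hp : p.Prime) (hd : Module.finrank k l = p) :
    (normUnits k l).range.index = p := by
  haveI : FiniteDimensional ℚ_[q] k := FiniteDimensional.left ℚ_[q] k l
  haveI : FiniteDimensional k l := FiniteDimensional.right ℚ_[q] k l
  have hk := index_pow_finite q k p hp
  have hl := index_pow_finite q l p hp
  haveI : NeZero p := ⟨hp.ne_zero⟩
  haveI : Finite (powMonoidHom p : lˣ →* lˣ).ker := inferInstanceAs (Finite (rootsOfUnity p l))
  haveI : Finite (powMonoidHom p : kˣ →* kˣ).ker := inferInstanceAs (Finite (rootsOfUnity p k))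
  have hml : Nat.card (powMonoidHom p : lˣ →* lˣ).ker ≠ 0 := Nat.card_pos.ne'
  have hmk : Nat.card (powMonoidHom p : kˣ →* kˣ).ker ≠ 0 := Nat.card_pos.ne'
  have hc : (if p = q then p ^ Module.finrank ℚ_[q] l else 1)
      = (if p = q then p ^ Module.finrank ℚ_[q] k else 1) ^ p := by
    split_ifs
    · rw [← Module.finrank_mul_finrank ℚ_[q] k l, hd, pow_mul]
    · rw [one_pow]
  have hck : (if p = q then p ^ Module.finrank ℚ_[q] k else 1) ≠ 0 := by
    split_ifs
    · exact pow_ne_zero _ hp.ne_zero
    · exact one_ne_zero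
  rw [hc] at hl
  have hidx : (powMonoidHom p : lˣ →* lˣ).range.index ≠ 0 := by
    rw [hl]
    exact mul_ne_zero hp.ne_zero (mul_ne_zero (pow_ne_zero _ hck) hml)
  have key := norm_index_formula k l p hp hd hidx
  rw [hk, hl] at key
  generalize (if p = q then p ^ Module.finrank ℚ_[q] k else 1) = c at *
  generalize Nat.card (powMonoidHom p : lˣ →* lˣ).ker = ml at *
  generalize Nat.card (powMonoidHom p : kˣ →* kˣ).ker = mk at *
  generalize (normUnits k l).range.index = n at *
  obtain ⟨r, rfl⟩ : ∃ r, p = r + 1 := ⟨p - 1, by have := hp.pos; omega⟩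
  have hr : r ≠ 0 := by have := hp.two_le; omega
  simp only [Nat.add_sub_cancel] at key
  have : n ^ r * ((mk ^ (r + 1) * c ^ (r + 1) * ml) * (r + 1))
      = (r + 1) ^ r * ((mk ^ (r + 1) * c ^ (r + 1) * ml) * (r + 1)) := by
    calc n ^ r * ((mk ^ (r + 1) * c ^ (r + 1) * ml) * (r + 1))
        = n ^ r * mk ^ (r + 1) * ((r + 1) * (c ^ (r + 1) * ml)) := by ring
      _ = ((r + 1) * (c * mk)) ^ (r + 1) * ml := key
      _ = _ := by rw [mul_pow, mul_pow]; ring
  have h2 := Nat.eq_of_mul_eq_mul_right (Nat.pos_of_ne_zero (by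
    have : r + 1 ≠ 0 := by omega
    exact mul_ne_zero (mul_ne_zero (mul_ne_zero (pow_ne_zero _ hmk) (pow_ne_zero _ hck)) hml) this)) this
  exact Nat.pow_left_injective hr h2

end Local

end Fermat.Agent.CFTLocal
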