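import Fermat.Agent.CFT.Local.UnitsIndex

/-!
# The index of `p`-th powers in the multiplicative group of a fraction field of a complete DVR
-/

namespace Fermat.Agent.CFTLocal

open IsLocalRing

/-- If `A → ℤ` is surjective with kernel `B`, then `[A : A^p] = p [B : B^p]`. -/
theorem index_pow_of_surjective_int {A : Type*} [CommGroup A] (φ : A →* Multiplicative ℤ)
    (hφ : Function.Surjective φ) (p : ℕ) (hp : p ≠ 0) :
    (powMonoidHom p : A →* A).range.index
      = p * (powMonoidHom p : φ.ker →* φ.ker).range.index := by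
  classical
  -- `A^p ≤ A^p ⊔ B ≤ A`
  have h1 : ((powMonoidHom p : A →* A).range ⊔ φ.ker).index = p := by
    have e : (powMonoidHom p : A →* A).range ⊔ φ.ker
        = ((powMonoidHom p : Multiplicative ℤ →* Multiplicative ℤ).range).comap φ := by
      have : (powMonoidHom p : Multiplicative ℤ →* Multiplicative ℤ).range
          = ((powMonoidHom p : A →* A).range).map φ := by
        ext x
        constructor
        · rintro ⟨y, rfl⟩
          obtain ⟨a, rfl⟩ := hφ y
          exact ⟨a ^ p, ⟨a, rfl⟩, by simp⟩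
        · rintro ⟨_, ⟨a, rfl⟩, rfl⟩
          exact ⟨φ a, by simp⟩
      rw [this, Subgroup.comap_map_eq]
    rw [e, Subgroup.index_comap_of_surjective _ hφ]
    have : (powMonoidHom p : Multiplicative ℤ →* Multiplicative ℤ).range
        = AddSubgroup.toSubgroup (AddSubgroup.zmultiples (p : ℤ)) := by
      ext x
      constructor
      · rintro ⟨y, rfl⟩
        refine ⟨Multiplicative.toAdd y, ?_⟩
        change Multiplicative.toAdd y • (p : ℤ) = Multiplicative.toAdd (y ^ p)
        rw [toAdd_pow]
        simp [mul_comm]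
      · rintro ⟨n, hn⟩
        refine ⟨Multiplicative.ofAdd n, ?_⟩
        apply Multiplicative.toAdd.injective
        change Multiplicative.toAdd (Multiplicative.ofAdd n ^ p) = _
        rw [toAdd_pow, toAdd_ofAdd, ← hn]
        simp [mul_comm]
    rw [this, AddSubgroup.index_toSubgroup, Int.index_zmultiples]
    simp
  rw [← Subgroup.relIndex_mul_index (le_sup_left :
    (powMonoidHom p : A →* A).range ≤ (powMonoidHom p : A →* A).range ⊔ φ.ker), h1,
    Subgroup.relIndex_sup_left, mul_comm]
  congr 1
  rw [Subgroup.relIndex]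
  congr 1
  ext x
  rw [Subgroup.mem_subgroupOf]
  constructor
  · rintro ⟨a, ha⟩
    have ha' : a ∈ φ.ker := by
      have : φ a ^ p = 1 := by
        rw [← map_pow]
        change φ ((powMonoidHom p) a) = 1
        rw [ha]
        exact x.2
      rw [MonoidHom.mem_ker]
      exact (pow_eq_one_iff_left hp).mp this
    exact ⟨⟨a, ha'⟩, Subtype.ext ha⟩
  · rintro ⟨a, ha⟩
    exact ⟨a, by rw [← ha]; rfl⟩

variable {O K : Type*} [CommRing O] [IsDomain O] [IsDiscreteValuationRing O] [Field K]
  [Algebra O K] [IsFractionRing O K]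

/-- the decomposition of the multiplicative group of a discretely valued field -/
noncomputable def unitsHom (ϖ : O) (hϖ : Irreducible ϖ) : Oˣ × Multiplicative ℤ →* Kˣ :=
  MonoidHom.coprod (Units.map (algebraMap O K).toMonoidHom)
    (zpowersHom Kˣ (Units.mk0 (algebraMap O K ϖ)
      ((map_ne_zero_iff _ (IsFractionRing.injective O K)).mpr hϖ.ne_zero)))

theorem unitsHom_bijective (ϖ : O) (hϖ : Irreducible ϖ) :
    Function.Bijective (unitsHom (K := K) ϖ hϖ) := by
  classical
  set u : Kˣ := Units.mk0 (algebraMap O K ϖ)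
      ((map_ne_zero_iff _ (IsFractionRing.injective O K)).mpr hϖ.ne_zero) with hu
  have happ : ∀ x : Oˣ × Multiplicative ℤ, unitsHom (K := K) ϖ hϖ x
      = Units.map (algebraMap O K).toMonoidHom x.1 * u ^ (Multiplicative.toAdd x.2) := by
    intro x
    simp [unitsHom, hu]
  have hnat : ∀ x : O, x ≠ 0 → ∃ (n : ℕ) (v : Oˣ), x = v * ϖ ^ n := fun x hx =>
    IsDiscreteValuationRing.eq_unit_mul_pow_irreducible hx hϖ
  constructor
  · rw [injective_iff_map_eq_one]
    rintro ⟨v, n⟩ h
    rw [happ] at h
    simp only at h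
    -- the exponent is zero
    have key : ∀ (m : ℕ) (w : Oˣ), algebraMap O K w * (algebraMap O K ϖ) ^ m = 1 → m = 0 := by
      intro m w hw
      by_contra hm
      rw [← map_pow, ← map_mul, ← map_one (algebraMap O K)] at hw
      have := IsFractionRing.injective O K hw
      have h2 : IsUnit (ϖ ^ m) := by
        rw [isUnit_iff_exists_inv']
        exact ⟨_, this⟩
      exact hϖ.not_isUnit ((isUnit_pow_iff hm).mp h2)
    have hn : Multiplicative.toAdd n = 0 := by
      rcases Int.eq_nat_or_neg (Multiplicative.toAdd n) with ⟨m, hm | hm⟩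
      · rw [hm] at h ⊢
        have h' := congrArg (Units.val) h
        have := key m v (by simpa [hu] using h')
        simp [this]
      · rw [hm] at h ⊢
        have h' : Units.map (algebraMap O K).toMonoidHom v⁻¹ * u ^ m = 1 := by
          have h3 := congrArg (fun z => z⁻¹) h
          simp only [mul_inv, inv_one, zpow_neg, inv_inv, zpow_natCast, ← map_inv] at h3
          exact h3
        have := key m (v⁻¹) (by simpa [hu] using congrArg Units.val h')
        simp [this]
    have hn' : n = 1 := Multiplicative.toAdd.injective hn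
    subst hn'
    have hv : v = 1 := by
      have h' := congrArg Units.val h
      have : algebraMap O K v = algebraMap O K 1 := by simpa using h'
      exact Units.ext (IsFractionRing.injective O K this)
    simp [hv]
  · intro x
    obtain ⟨a, b, hb, hab⟩ := IsFractionRing.div_surjective (A := O) (x : K)
    have hb0 : b ≠ 0 := nonZeroDivisors.ne_zero hb
    have ha0 : a ≠ 0 := by
      rintro rfl
      rw [map_zero, zero_div] at hab
      exact x.ne_zero hab.symm
    obtain ⟨n, v, rfl⟩ := hnat a ha0
    obtain ⟨m, w, rfl⟩ := hnat b hb0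
    refine ⟨(v * w⁻¹, Multiplicative.ofAdd ((n : ℤ) - m)), ?_⟩
    rw [happ]
    apply Units.ext
    rw [← hab]
    have hw0 : algebraMap O K w ≠ 0 :=
      (map_ne_zero_iff _ (IsFractionRing.injective O K)).mpr w.ne_zero
    have hϖ0 : algebraMap O K ϖ ≠ 0 :=
      (map_ne_zero_iff _ (IsFractionRing.injective O K)).mpr hϖ.ne_zero
    simp only [map_mul, map_inv, Units.val_mul, toAdd_ofAdd, Units.coe_map, hu]
    have e1 : ((Units.mk0 (algebraMap O K ϖ) hϖ0 ^ ((n : ℤ) - m) : Kˣ) : K)
        = (algebraMap O K ϖ) ^ n / (algebraMap O K ϖ) ^ m := by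
      rw [zpow_sub]
      simp [div_eq_mul_inv]
    rw [e1]
    have e2 : (((Units.map (algebraMap O K).toMonoidHom) w)⁻¹ : Kˣ) = ((algebraMap O K w)⁻¹ : K) := by
      simp
    rw [e2]
    simp only [map_pow]
    simp only [RingHom.toMonoidHom_eq_coe, MonoidHom.coe_coe]
    field_simp

/-- the multiplicative group of a discretely valued field is `Oˣ × ℤ` -/
noncomputable def unitsEquiv (ϖ : O) (hϖ : Irreducible ϖ) : Oˣ × Multiplicative ℤ ≃* Kˣ :=
  MulEquiv.ofBijective (unitsHom (K := K) ϖ hϖ) (unitsHom_bijective ϖ hϖ)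

/-- the normalised (multiplicatively written) valuation on `Kˣ` -/
noncomputable def ordHom (ϖ : O) (hϖ : Irreducible ϖ) : Kˣ →* Multiplicative ℤ :=
  (MonoidHom.snd _ _).comp (unitsEquiv (K := K) ϖ hϖ).symm.toMonoidHom

theorem ordHom_surjective (ϖ : O) (hϖ : Irreducible ϖ) :
    Function.Surjective (ordHom (K := K) ϖ hϖ) := by
  intro n
  refine ⟨unitsEquiv (K := K) ϖ hϖ (1, n), ?_⟩
  simp [ordHom]

theorem mem_ker_ordHom (ϖ : O) (hϖ : Irreducible ϖ) (x : Kˣ) :
    x ∈ (ordHom (K := K) ϖ hϖ).ker ↔ ∃ u : Oˣ, algebraMap O K u = x := by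
  constructor
  · intro h
    obtain ⟨⟨v, n⟩, rfl⟩ := (unitsEquiv (K := K) ϖ hϖ).surjective x
    have hn : n = 1 := by
      rw [MonoidHom.mem_ker] at h
      simpa [ordHom, -MonoidHom.mem_ker] using h
    subst hn
    refine ⟨v, ?_⟩
    simp [unitsEquiv, unitsHom]
  · rintro ⟨u, hu⟩
    have : x = unitsEquiv (K := K) ϖ hϖ (u, 1) := by
      apply Units.ext
      rw [← hu]
      simp [unitsEquiv, unitsHom]
    rw [this, MonoidHom.mem_ker]
    simp [ordHom]

/-- `Oˣ` is the kernel of the valuation. -/
noncomputable def kerOrdEquiv (ϖ : O) (hϖ : Irreducible ϖ) :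
    Oˣ ≃* (ordHom (K := K) ϖ hϖ).ker :=
  MulEquiv.ofBijective
    ((Units.map (algebraMap O K).toMonoidHom).codRestrict (ordHom (K := K) ϖ hϖ).ker
      (fun u => (mem_ker_ordHom ϖ hϖ _).mpr ⟨u, rfl⟩)) (by
    constructor
    · intro a b hab
      apply Units.ext
      apply IsFractionRing.injective O K
      have := congrArg (fun z : (ordHom (K := K) ϖ hϖ).ker => ((z : Kˣ) : K)) hab
      simpa using this
    · rintro ⟨x, hx⟩
      obtain ⟨u, hu⟩ := (mem_ker_ordHom ϖ hϖ x).mp hx
      exact ⟨u, Subtype.ext (Units.ext hu)⟩)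

theorem index_range_pow_congr {A B : Type*} [CommGroup A] [CommGroup B] (e : A ≃* B) (p : ℕ) :
    (powMonoidHom p : A →* A).range.index = (powMonoidHom p : B →* B).range.index := by
  have : (powMonoidHom p : A →* A).range
      = ((powMonoidHom p : B →* B).range).comap e.toMonoidHom := by
    ext x
    constructor
    · rintro ⟨y, rfl⟩
      exact ⟨e y, by simp⟩
    · rintro ⟨y, hy⟩
      refine ⟨e.symm y, ?_⟩
      apply e.injective
      simpa using hy
  rw [this, Subgroup.index_comap_of_surjective _ e.surjective]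

theorem card_ker_pow_congr {A B : Type*} [CommGroup A] [CommGroup B] (e : A ≃* B) (p : ℕ) :
    Nat.card (powMonoidHom p : A →* A).ker = Nat.card (powMonoidHom p : B →* B).ker := by
  have : (powMonoidHom p : A →* A).ker
      = ((powMonoidHom p : B →* B).ker).comap e.toMonoidHom := by
    ext x
    simp only [MonoidHom.mem_ker, Subgroup.mem_comap, powMonoidHom_apply, MulEquiv.toMonoidHom_eq_coe,
      MonoidHom.coe_coe]
    rw [← map_pow, EmbeddingLike.map_eq_one_iff]
  rw [this]
  refine Nat.card_congr ?_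
  exact {
    toFun := fun x => ⟨e x.1, x.2⟩
    invFun := fun y => ⟨e.symm y.1, by
      rw [Subgroup.mem_comap]
      simp⟩
    left_inv := fun x => by ext; simp
    right_inv := fun y => by ext; simp }

variable (O K) in
/-- For the fraction field `K` of a complete DVR `O` with finite residue field and `p ≠ 0` in `O`,
`[Kˣ : Kˣ^p] = p · |O/pO| · |μ_p(K)|`. -/
theorem index_pow_field [IsAdicComplete (maximalIdeal O) O] [Finite (ResidueField O)]
    (p : ℕ) (hp : (p : O) ≠ 0) (hp' : p ≠ 0) :
    (powMonoidHom p : Kˣ →* Kˣ).range.index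
      = p * (Nat.card (O ⧸ Ideal.span {(p : O)}) * Nat.card (powMonoidHom p : Kˣ →* Kˣ).ker) := by
  classical
  obtain ⟨ϖ, hϖ⟩ := IsDiscreteValuationRing.exists_irreducible O
  rw [index_pow_of_surjective_int (ordHom (K := K) ϖ hϖ) (ordHom_surjective ϖ hϖ) p hp',
    ← index_range_pow_congr (kerOrdEquiv (K := K) ϖ hϖ) p, index_pow_units p hp hp']
  congr 2
  -- the torsion
  refine Nat.card_congr (Equiv.ofBijective
    (fun x => (⟨Units.map (algebraMap O K).toMonoidHom x.1, by
      have := x.2
      rw [MonoidHom.mem_ker, powMonoidHom_apply] at this ⊢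
      rw [← map_pow, this, map_one]⟩ : (powMonoidHom p : Kˣ →* Kˣ).ker)) ⟨?_, ?_⟩)
  · intro a b hab
    apply Subtype.ext
    apply Units.ext
    apply IsFractionRing.injective O K
    have := congrArg (fun z : (powMonoidHom p : Kˣ →* Kˣ).ker => ((z : Kˣ) : K)) hab
    simpa using this
  · rintro ⟨x, hx⟩
    have hx' : x ∈ (ordHom (K := K) ϖ hϖ).ker := by
      rw [MonoidHom.mem_ker, powMonoidHom_apply] at hx
      have : (ordHom (K := K) ϖ hϖ) x ^ p = 1 := by rw [← map_pow, hx, map_one]
      exact (pow_eq_one_iff_left hp').mp this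
    obtain ⟨u, hu⟩ := (mem_ker_ordHom ϖ hϖ x).mp hx'
    refine ⟨⟨u, ?_⟩, Subtype.ext (Units.ext hu)⟩
    rw [MonoidHom.mem_ker, powMonoidHom_apply] at hx ⊢
    apply Units.ext
    apply IsFractionRing.injective O K
    rw [Units.val_pow_eq_pow_val, map_pow, hu, ← Units.val_pow_eq_pow_val, hx]
    simp

end Fermat.Agent.CFTLocal
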