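import Fermat.Agent.CFT.Local.GalNorm

/-!
# `H¹(G_l, ℤ/p)` and `H²(G_l, ℤ/p)` for a finite extension `l` of `ℚ_q` containing `μ_p`
-/

set_option autoImplicit false
set_option linter.unusedSectionVars false

namespace Fermat.Agent.CFTLocal

open Fermat.Agent.PT Fermat.Agent.CFT.Kum Fermat.Agent.CFT.Bridge

section StepA

variable {p : ℕ} [Fact p.Prime] (k Ω : Type) [Field k] [Field Ω]
  [Algebra k Ω] [IsGalois k Ω] [IsAlgClosed Ω]

/-- the index of `p`-multiples in the invariants -/
lemma index_invariants_eq :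
    (nsmulAddMonoidHom p : ↥(unitsRep (Ω ≃ₐ[k] Ω) Ω).invariants →+ _).range.index
      = (powMonoidHom p : kˣ →* kˣ).range.index := by
  have e : (powMonoidHom p : kˣ →* kˣ).range.toAddSubgroup
      = ((nsmulAddMonoidHom p : ↥(unitsRep (Ω ≃ₐ[k] Ω) Ω).invariants →+ _).range).comap
        (invGal (k := k) (Ω := Ω)).toAddMonoidHom := by
    ext a
    constructor
    · rintro ⟨y, hy⟩
      refine ⟨invGal (Additive.ofMul y), ?_⟩
      refine (map_nsmul (invGal (k := k) (Ω := Ω)) p (Additive.ofMul y)).symm.trans ?_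
      exact congrArg (invGal (k := k) (Ω := Ω)) (congrArg Additive.ofMul hy)
    · rintro ⟨b, hb⟩
      refine ⟨((invGal (k := k) (Ω := Ω)).symm b).toMul, ?_⟩
      apply Additive.ofMul.injective
      apply (invGal (k := k) (Ω := Ω)).injective
      refine Eq.trans ?_ hb
      refine (map_nsmul (invGal (k := k) (Ω := Ω)) p _).trans ?_
      change p • (invGal (k := k) (Ω := Ω)) ((invGal (k := k) (Ω := Ω)).symm b) = _
      rw [(invGal (k := k) (Ω := Ω)).apply_symm_apply]
      rfl
  rw [← Subgroup.index_toAddSubgroup, e]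
  exact (AddSubgroup.index_comap_of_surjective _ (invGal (k := k) (Ω := Ω)).surjective).symm

lemma card_ker_pow {ζ : k} (hζ : IsPrimitiveRoot ζ p) :
    Nat.card (powMonoidHom p : kˣ →* kˣ).ker = p := by
  haveI : NeZero p := ⟨(Fact.out : p.Prime).ne_zero⟩
  have h1 : Nat.card (rootsOfUnity p k) = p := hζ.card_rootsOfUnity
  exact h1

theorem normData_gal (q : ℕ) [Fact q.Prime] [Algebra ℚ_[q] k] [Algebra ℚ_[q] Ω]
    [IsScalarTower ℚ_[q] k Ω] [FiniteDimensional ℚ_[q] k] {ζ : k} (hζ : IsPrimitiveRoot ζ p) :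
    NormData p (galLevels k Ω) (unitsRep (Ω ≃ₐ[k] Ω) Ω) where
  idx := by
    intro χ hχ s hs
    rw [index_nrm_gal χ hχ hs]
    haveI := fixedField_finite_of_mem hχ
    haveI := isGalois_fixedField_ker χ hχ
    haveI : FiniteDimensional ℚ_[q] (IntermediateField.fixedField χ.ker) :=
      FiniteDimensional.trans ℚ_[q] k _
    exact norm_index_local q k (IntermediateField.fixedField χ.ker) p Fact.out
      (finrank_fixedField_ker χ hχ hs)
  big := by
    rw [index_invariants_eq, index_pow_finite q k p Fact.out, card_ker_pow k hζ]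
    have hp : p.Prime := Fact.out
    have hc : 0 < (if p = q then p ^ Module.finrank ℚ_[q] k else 1) := by
      split_ifs
      · exact pow_pos hp.pos _
      · exact one_pos
    constructor
    · exact mul_ne_zero hp.ne_zero (mul_ne_zero hc.ne' hp.ne_zero)
    · calc p < p * p := by nlinarith [hp.two_le]
        _ ≤ p * ((if p = q then p ^ Module.finrank ℚ_[q] k else 1) * p) := by
          apply Nat.mul_le_mul_left
          exact Nat.le_mul_of_pos_left p hc

end StepA

section StepB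

variable {p : ℕ} [Fact p.Prime] {q : ℕ} [Fact q.Prime]

/-- Norm data for the absolute Galois group of a finite extension `l` of `ℚ_q`, as subgroup of the
absolute Galois group of `ℚ_q`. -/
theorem normData_fixingSubgroup (l : IntermediateField ℚ_[q] (PadicAlgCl q))
    [FiniteDimensional ℚ_[q] l] {ζ : l} (hζ : IsPrimitiveRoot ζ p) :
    NormData p ((galLevels ℚ_[q] (PadicAlgCl q)).restrict l.fixingSubgroup)
      (unitsRep l.fixingSubgroup (PadicAlgCl q)) := by
  refine NormData.of_equiv (IntermediateField.fixingSubgroupEquiv l) ?_ ?_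
    (normData_gal l (PadicAlgCl q) q hζ)
  · rintro V ⟨W, ⟨E, hE, hEW⟩, hWV⟩
    -- the compositum of `E` and `l`, as an extension of `l`
    haveI : FiniteDimensional ℚ_[q] E := hE
    haveI : FiniteDimensional ℚ_[q] ↥(l ⊔ E) := IntermediateField.finiteDimensional_sup l E
    have hle : l ≤ l ⊔ E := le_sup_left
    haveI : FiniteDimensional l (IntermediateField.extendScalars hle) := by
      haveI : FiniteDimensional ℚ_[q] (IntermediateField.extendScalars hle) :=
        inferInstanceAs (FiniteDimensional ℚ_[q] ↥(l ⊔ E))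
      exact FiniteDimensional.right ℚ_[q] l _
    refine ⟨IntermediateField.extendScalars hle, inferInstance, ?_⟩
    intro g hg
    refine ⟨(IntermediateField.fixingSubgroupEquiv l).symm g, hWV (hEW ?_), by simp⟩
    rw [IntermediateField.mem_fixingSubgroup_iff] at hg ⊢
    intro x hx
    exact hg x (show x ∈ l ⊔ E from (le_sup_right : E ≤ l ⊔ E) hx)
  · intro g m
    rfl

/-- Norm data for all level subgroups fixing `ζ`. -/
theorem normData_level (W : Subgroup (PadicAlgCl q ≃ₐ[ℚ_[q]] PadicAlgCl q))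
    (hW : W ∈ galLevels ℚ_[q] (PadicAlgCl q)) {ζ : PadicAlgCl q} (hζ : IsPrimitiveRoot ζ p)
    (hWζ : ∀ g ∈ W, g ζ = ζ) :
    NormData p ((galLevels ℚ_[q] (PadicAlgCl q)).restrict W) (unitsRep W (PadicAlgCl q)) := by
  have hfix := fixingSubgroup_fixedField_of_mem hW
  haveI := fixedField_finite_of_mem hW
  have hmem : ζ ∈ IntermediateField.fixedField W := fun g => hWζ g g.2
  have hζ' : IsPrimitiveRoot (⟨ζ, hmem⟩ : IntermediateField.fixedField W) p :=
    IsPrimitiveRoot.of_map_of_injective (f := (IntermediateField.fixedField W).val) hζ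
      (IntermediateField.fixedField W).val.injective
  have := normData_fixingSubgroup (IntermediateField.fixedField W) hζ'
  rw [hfix] at this
  exact this

theorem normAll_fixingSubgroup (l : IntermediateField ℚ_[q] (PadicAlgCl q))
    [FiniteDimensional ℚ_[q] l] {ζ : PadicAlgCl q} (hζ : IsPrimitiveRoot ζ p) (hζl : ζ ∈ l) :
    NormAll p ((galLevels ℚ_[q] (PadicAlgCl q)).restrict l.fixingSubgroup)
      (unitsRep l.fixingSubgroup (PadicAlgCl q)) := by
  intro V hV
  have hV' := map_mem_of_mem_restrict (fixingSubgroup_mem_galLevels l) hV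
  refine NormData.of_equiv
    (V.equivMapOfInjective l.fixingSubgroup.subtype l.fixingSubgroup.subtype_injective) ?_ ?_
    (normData_level _ hV' hζ ?_)
  · rintro W ⟨W', ⟨W'', hW'', h2⟩, h1⟩
    refine ⟨W'', hW'', ?_⟩
    intro g hg
    obtain ⟨v, hv⟩ := (V.equivMapOfInjective l.fixingSubgroup.subtype
      l.fixingSubgroup.subtype_injective).surjective g
    refine ⟨v, h1 (h2 ?_), hv⟩
    rw [← hv] at hg
    exact hg
  · intro g m
    rfl
  · rintro g ⟨v, _, rfl⟩
    exact (IntermediateField.mem_fixingSubgroup_iff l _).mp v.2 ζ hζl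

/-- The Kummer data for `l ∋ ζ_p`. -/
theorem kummerData_fixingSubgroup (l : IntermediateField ℚ_[q] (PadicAlgCl q))
    {ζ : PadicAlgCl q} (hζ : IsPrimitiveRoot ζ p) (hζl : ζ ∈ l) :
    KummerData p ((galLevels ℚ_[q] (PadicAlgCl q)).restrict l.fixingSubgroup)
      (unitsRep l.fixingSubgroup (PadicAlgCl q))
      (Additive.ofMul (kumSetOf (Fact.out : p.Prime).pos l.fixingSubgroup hζ
        (fun g hg => (IntermediateField.mem_fixingSubgroup_iff l g).mp hg ζ hζl)).ζ) :=
  kummerData_of_kumSet _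

/-- **Local class field theory mod `p`**: `H²(G_l, ℤ/p)` is one-dimensional for `l ∋ ζ_p`. -/
theorem finrank_H2_local (hp2 : p ≠ 2) (l : IntermediateField ℚ_[q] (PadicAlgCl q))
    [FiniteDimensional ℚ_[q] l] {ζ : PadicAlgCl q} (hζ : IsPrimitiveRoot ζ p) (hζl : ζ ∈ l)
    (ρ₀ : Representation (ZMod p) l.fixingSubgroup (ZMod p)) (h₀ : ∀ g x, ρ₀ g x = x) :
    Module.finrank (ZMod p)
      (H2 ((galLevels ℚ_[q] (PadicAlgCl q)).restrict l.fixingSubgroup) ρ₀) = 1 :=
  (kummerData_fixingSubgroup l hζ hζl).finrank_H2 h₀ (normAll_fixingSubgroup l hζ hζl) hp2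

theorem card_H2_local (hp2 : p ≠ 2) (l : IntermediateField ℚ_[q] (PadicAlgCl q))
    [FiniteDimensional ℚ_[q] l] {ζ : PadicAlgCl q} (hζ : IsPrimitiveRoot ζ p) (hζl : ζ ∈ l)
    (ρ₀ : Representation (ZMod p) l.fixingSubgroup (ZMod p)) (h₀ : ∀ g x, ρ₀ g x = x) :
    Nat.card (H2 ((galLevels ℚ_[q] (PadicAlgCl q)).restrict l.fixingSubgroup) ρ₀) = p :=
  (kummerData_fixingSubgroup l hζ hζl).card_H2 h₀ (normAll_fixingSubgroup l hζ hζl) hp2

/-- identification of the invariants of `l.fixingSubgroup` and of `Gal(Ω/l)` -/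
noncomputable def invFix (l : IntermediateField ℚ_[q] (PadicAlgCl q)) :
    ↥(unitsRep l.fixingSubgroup (PadicAlgCl q)).invariants ≃+
      ↥(unitsRep (PadicAlgCl q ≃ₐ[l] PadicAlgCl q) (PadicAlgCl q)).invariants :=
  invEquiv (IntermediateField.fixingSubgroupEquiv l) (fun _ _ => rfl)

/-- `|H¹(G_l, ℤ/p)| = |lˣ/p|` for `l ∋ ζ_p`. -/
theorem card_H1_local (l : IntermediateField ℚ_[q] (PadicAlgCl q))
    [FiniteDimensional ℚ_[q] l] {ζ : PadicAlgCl q} (hζ : IsPrimitiveRoot ζ p) (hζl : ζ ∈ l)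
    (ρ₀ : Representation (ZMod p) l.fixingSubgroup (ZMod p)) (h₀ : ∀ g x, ρ₀ g x = x) :
    Nat.card (H1 ((galLevels ℚ_[q] (PadicAlgCl q)).restrict l.fixingSubgroup) ρ₀)
      = p * ((if p = q then p ^ Module.finrank ℚ_[q] l else 1) * p) := by
  have hζ' : IsPrimitiveRoot (⟨ζ, hζl⟩ : l) p :=
    IsPrimitiveRoot.of_map_of_injective (f := l.val) hζ l.val.injective
  rw [(kummerData_fixingSubgroup l hζ hζl).card_H1 h₀]
  have h1 := index_pow_finite q l p Fact.out
  rw [card_ker_pow l hζ', ← index_invariants_eq l (PadicAlgCl q)] at h1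
  rw [← h1]
  have e : (nsmulAddMonoidHom p : ↥(unitsRep l.fixingSubgroup (PadicAlgCl q)).invariants →+ _).range
      = ((nsmulAddMonoidHom p : ↥(unitsRep (PadicAlgCl q ≃ₐ[l] PadicAlgCl q)
        (PadicAlgCl q)).invariants →+ _).range).comap (invFix l).toAddMonoidHom := by
    ext a
    constructor
    · rintro ⟨b, rfl⟩
      exact ⟨invFix l b, (map_nsmul (invFix l) p b).symm⟩
    · rintro ⟨b, hb⟩
      refine ⟨(invFix l).symm b, ?_⟩
      apply (invFix l).injective
      refine (map_nsmul (invFix l) p _).trans ?_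
      rw [(invFix l).apply_symm_apply]
      exact hb
  rw [e]
  exact AddSubgroup.index_comap_of_surjective _ (invFix l).surjective

/-- `dim H¹(G_l, ℤ/p) = 2 + [l : ℚ_p]` if `q = p` and `= 2` otherwise, for `l ∋ ζ_p`. -/
theorem finrank_H1_local (l : IntermediateField ℚ_[q] (PadicAlgCl q))
    [FiniteDimensional ℚ_[q] l] {ζ : PadicAlgCl q} (hζ : IsPrimitiveRoot ζ p) (hζl : ζ ∈ l)
    (ρ₀ : Representation (ZMod p) l.fixingSubgroup (ZMod p)) (h₀ : ∀ g x, ρ₀ g x = x) :
    Module.finrank (ZMod p) (H1 ((galLevels ℚ_[q] (PadicAlgCl q)).restrict l.fixingSubgroup) ρ₀)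
      = 2 + (if p = q then Module.finrank ℚ_[q] l else 0) := by
  have hp : p.Prime := Fact.out
  have hc := card_H1_local l hζ hζl ρ₀ h₀
  have hc' : p * ((if p = q then p ^ Module.finrank ℚ_[q] l else 1) * p)
      = p ^ (2 + (if p = q then Module.finrank ℚ_[q] l else 0)) := by
    split_ifs
    · rw [pow_add]; ring
    · ring
  rw [hc'] at hc
  haveI : Finite (H1 ((galLevels ℚ_[q] (PadicAlgCl q)).restrict l.fixingSubgroup) ρ₀) :=
    Nat.finite_of_card_ne_zero (by rw [hc]; exact pow_ne_zero _ hp.ne_zero)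
  haveI : Module.Finite (ZMod p)
    (H1 ((galLevels ℚ_[q] (PadicAlgCl q)).restrict l.fixingSubgroup) ρ₀) := Module.Finite.of_finite
  have h1 := Module.natCard_eq_pow_finrank (K := ZMod p)
    (V := H1 ((galLevels ℚ_[q] (PadicAlgCl q)).restrict l.fixingSubgroup) ρ₀)
  rw [hc, Nat.card_zmod] at h1
  exact (Nat.pow_right_injective hp.two_le h1).symm

end StepB

end Fermat.Agent.CFTLocal
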