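import Fermat.Agent.CFT.Local.Omega
import Fermat.Agent.PT.Frozen

/-!
# The local inputs for the frozen local groups `primeLocalGaloisGroup v`
-/

set_option autoImplicit false

namespace Fermat.Agent.CFTLocal

open Fermat.Agent.PT Fermat.Agent.PT.Frozen Fermat.Agent.CFT.Kum Fermat.Agent.CFT.Bridge
  ExtCitation

variable {p : ℕ} [hp : Fact p.Prime]

section Fact

variable {q : ℕ} [Fact q.Prime]

lemma rLevels_localGaloisToGlobal : rLevels (localGaloisToGlobal q) = locLevels q :=
  comap_localGaloisToGlobal_galLevels q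

/-- the local cyclotomic character -/
noncomputable abbrev omegaLoc (p q : ℕ) [Fact p.Prime] [Fact q.Prime] :
    (PadicAlgCl q ≃ₐ[ℚ_[q]] PadicAlgCl q) →* (ZMod p)ˣ :=
  (cycloChar p).comp (localGaloisToGlobal q)

lemma omegaLoc_spec {ζ : AlgebraicClosure ℚ} (hζ : IsPrimitiveRoot ζ p)
    (g : PadicAlgCl q ≃ₐ[ℚ_[q]] PadicAlgCl q) :
    g (padicEmbedding q ζ) = (padicEmbedding q ζ) ^ (omegaLoc p q g : ZMod p).val := by
  rw [← padicEmbedding_localGaloisToGlobal, cycloChar_spec _ hζ.pow_eq_one, map_pow]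
  rfl

omit hp in
lemma prim_padicEmbedding {ζ : AlgebraicClosure ℚ} (hζ : IsPrimitiveRoot ζ p) :
    IsPrimitiveRoot (padicEmbedding q ζ) p :=
  hζ.map_of_injective (padicEmbedding q).toRingHom.injective

end Fact

/-- right exactness of the local `H²` -/
theorem rightExact_rLevels (hp2 : p ≠ 2) (v : Nat.Primes) :
    PlaceData.RightExact (ZMod p) (rLevels (primeLocalToGlobal v)) := by
  haveI : Fact (v : ℕ).Prime := ⟨v.2⟩
  have h := rightExact_local (p := p) (q := (v : ℕ)) hp2
  rw [← rLevels_localGaloisToGlobal] at h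
  exact h

/-- small level subgroups have at most one-dimensional `H²` -/
theorem loc_dim_rLevels (hp2 : p ≠ 2) (v : Nat.Primes) :
    ∃ W₀ ∈ rLevels (primeLocalToGlobal v), ∀ W ∈ rLevels (primeLocalToGlobal v), W ≤ W₀ →
    FiniteDimensional (ZMod p)
      (H2 ((rLevels (primeLocalToGlobal v)).restrict W) (trivRep (ZMod p) ↥W)) ∧
    Module.finrank (ZMod p)
      (H2 ((rLevels (primeLocalToGlobal v)).restrict W) (trivRep (ZMod p) ↥W)) ≤ 1 := by
  haveI : Fact (v : ℕ).Prime := ⟨v.2⟩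
  have h := loc_dim_local (p := p) (q := (v : ℕ)) hp2
  rw [← rLevels_localGaloisToGlobal] at h
  exact h

/-- `H²(ℚ_v, μ_p)` is one-dimensional. -/
theorem finrank_H2_rLevels (hp2 : p ≠ 2) (v : Nat.Primes) :
    Module.finrank (ZMod p) (PT.H2 (rLevels (primeLocalToGlobal v))
      ((chiRep (cycloChar p)).comp (primeLocalToGlobal v))) = 1 := by
  haveI : Fact (v : ℕ).Prime := ⟨v.2⟩
  obtain ⟨ζ, hζ⟩ := exists_primitive p
  have h := finrank_H2_omega (q := (v : ℕ)) (prim_padicEmbedding hζ) (omegaLoc_spec hζ) hp2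
  rw [← rLevels_localGaloisToGlobal] at h
  exact h

end Fermat.Agent.CFTLocal
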