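import Fermat.Agent.CFT.Local.FieldIndex

/-!
# The ring of integers of a locally compact ultrametric field
-/

namespace Fermat.Agent.CFTLocal

open IsLocalRing
open scoped NormedField Valued

variable (K : Type*) [NontriviallyNormedField K] [IsUltrametricDist K] [ProperSpace K]

instance compactSpace_integers : CompactSpace 𝒪[K] := by
  have : ((𝒪[K] : Subring K) : Set K) = Metric.closedBall 0 1 := by
    ext x
    simp only [SetLike.mem_coe, Valued.integer.mem_iff, mem_closedBall_zero_iff]
  have h : IsCompact ((𝒪[K] : Subring K) : Set K) := by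
    rw [this]
    exact isCompact_closedBall 0 1
  exact isCompact_iff_compactSpace.mp h

instance isNontrivial_valuation : (Valued.v (R := K) (Γ₀ := NNReal)).IsNontrivial := by
  obtain ⟨x, hx0, hx1⟩ := NormedField.exists_norm_lt_one K
  refine ⟨⟨x, ?_, ?_⟩⟩
  · simpa using hx0
  · rw [NormedField.v_eq_valuation]
    intro h
    have : ‖x‖ = 1 := by
      have := congrArg (fun z : NNReal => (z : ℝ)) h
      simpa using this
    linarith

instance isDVR_integers : IsDiscreteValuationRing 𝒪[K] :=
  Valued.integer.isDiscreteValuationRing_of_compactSpace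

theorem isOpen_maximalIdeal : IsOpen ((maximalIdeal 𝒪[K] : Ideal 𝒪[K]) : Set 𝒪[K]) := by
  have : ((maximalIdeal 𝒪[K] : Ideal 𝒪[K]) : Set 𝒪[K]) = Metric.ball 0 1 := by
    ext x
    rw [mem_ball_zero_iff]
    change x ∈ maximalIdeal 𝒪[K] ↔ _
    rw [mem_maximalIdeal, mem_nonunits_iff, Valued.integer.isUnit_iff_norm_eq_one]
    have h1 := Valued.integer.norm_le_one x
    exact ⟨fun h => lt_of_le_of_ne h1 h, fun h => h.ne⟩
  rw [this]
  exact Metric.isOpen_ball

instance finite_residueField_integers : Finite (ResidueField 𝒪[K]) := by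
  have : Finite (𝒪[K] ⧸ (maximalIdeal 𝒪[K]).toAddSubgroup) :=
    AddSubgroup.quotient_finite_of_isOpen _ (isOpen_maximalIdeal K)
  exact this

open scoped Pointwise in
instance isAdicComplete_integers : IsAdicComplete (maximalIdeal 𝒪[K]) 𝒪[K] where
  prec' f hf := by
    let S n : Set 𝒪[K] := f n +ᵥ (((maximalIdeal 𝒪[K]) ^ n : Ideal 𝒪[K]) : Set 𝒪[K])
    have hS n : S (n + 1) ⊆ S n := by
      apply (Set.vadd_set_subset_vadd_set_iff.mpr (Ideal.pow_le_pow_right n.le_succ)).trans
      simpa [S] using (hf n.le_succ).symm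
    have h n : IsClosed (S n) := (IsNoetherianRing.isClosed_ideal ((maximalIdeal 𝒪[K]) ^ n)).vadd (f n)
    obtain ⟨L, hL⟩ := (h 0).isCompact.nonempty_iInter_of_sequence_nonempty_isCompact_isClosed S hS
      (by simp [S]) h
    refine ⟨L, fun n ↦ ?_⟩
    obtain ⟨y, hy, rfl⟩ := Set.mem_iInter.mp hL n
    simpa [SModEq.sub_mem] using hy

instance isFractionRing_integers : IsFractionRing 𝒪[K] K :=
  inferInstance

/-- `[Kˣ : Kˣ^p] = p · |O/pO| · |μ_p(K)|` for a locally compact ultrametric field `K`. -/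
theorem index_pow_locallyCompact (p : ℕ) (hp : (p : K) ≠ 0) :
    (powMonoidHom p : Kˣ →* Kˣ).range.index
      = p * (Nat.card (𝒪[K] ⧸ Ideal.span {(p : 𝒪[K])})
          * Nat.card (powMonoidHom p : Kˣ →* Kˣ).ker) := by
  refine index_pow_field 𝒪[K] K p ?_ ?_
  · intro h
    apply hp
    have := congrArg (fun z : 𝒪[K] => (z : K)) h
    simpa using this
  · rintro rfl
    simp at hp

end Fermat.Agent.CFTLocal
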