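import Mathlib

/-!
# Contractions on adically complete rings and the equation `a + π * R(a) = c`
-/

open IsLocalRing Polynomial

namespace Fermat.Agent.CFTLocal

/-- A contracting self-map of an adically complete ring has a fixed point. -/
theorem exists_fixedPoint {R : Type*} [CommRing R] (I : Ideal R) [IsAdicComplete I R] (g : R → R)
    (hg : ∀ (n : ℕ) (x y : R), x - y ∈ I ^ n → g x - g y ∈ I ^ (n + 1)) : ∃ x, g x = x := by
  let a : ℕ → R := fun n => g^[n] 0
  have ha : ∀ n, a (n + 1) - a n ∈ I ^ n := by
    intro n
    induction n with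
    | zero => simp
    | succ n ih =>
      have := hg n _ _ ih
      simpa [a, Function.iterate_succ_apply'] using this
  have ha' : ∀ {m n : ℕ}, m ≤ n → a n - a m ∈ I ^ m := by
    intro m n hmn
    induction n, hmn using Nat.le_induction with
    | base => simp
    | succ n hmn ih =>
      have := (I ^ m).add_mem (Ideal.pow_le_pow_right hmn (ha n)) ih
      simpa using this
  obtain ⟨L, hL⟩ := IsPrecomplete.prec (inferInstance : IsPrecomplete I R) (f := a) (by
    intro m n hmn
    rw [SModEq.sub_mem]
    have := ha' hmn
    have h2 : a m - a n ∈ I ^ m := by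
      rw [← neg_sub]; exact (I ^ m).neg_mem this
    simpa using h2)
  refine ⟨L, ?_⟩
  have key : ∀ n, g L - L ∈ I ^ n := by
    intro n
    have h1 : a n - L ∈ I ^ n := by
      have := hL n
      rw [SModEq.sub_mem] at this
      simpa using this
    have h2 : a (n + 1) - L ∈ I ^ (n + 1) := by
      have := hL (n + 1)
      rw [SModEq.sub_mem] at this
      simpa using this
    have h3 := hg n _ _ h1
    have h4 : g (a n) = a (n + 1) := by simp [a, Function.iterate_succ_apply']
    have h5 : g L - L = - (g (a n) - g L) + (a (n + 1) - L) := by rw [h4]; ring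
    rw [h5]
    exact (I ^ n).add_mem ((I ^ n).neg_mem (Ideal.pow_le_pow_right n.le_succ h3))
      (Ideal.pow_le_pow_right n.le_succ h2)
  have := IsHausdorff.haus (inferInstance : IsHausdorff I R) (g L - L) (by
    intro n
    rw [SModEq.sub_mem]
    simpa using key n)
  exact sub_eq_zero.mp this

/-- In an adically complete ring, `a + t * Q(a) = c` (with `t ∈ I`) is solvable in `a`. -/
theorem exists_root_add_mul_eval {R : Type*} [CommRing R] (I : Ideal R) [IsAdicComplete I R]
    (t : R) (ht : t ∈ I) (Q : R[X]) (c : R) : ∃ a, a + t * Q.eval a = c := by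
  obtain ⟨x, hx⟩ := exists_fixedPoint I (fun a => c - t * Q.eval a) (by
    intro n x y hxy
    have h1 : (c - t * Q.eval x) - (c - t * Q.eval y) = - (t * (Q.eval x - Q.eval y)) := by ring
    rw [h1]
    apply Ideal.neg_mem_iff _ |>.2
    obtain ⟨d, hd⟩ := Polynomial.sub_dvd_eval_sub x y Q
    rw [hd, pow_succ']
    exact Ideal.mul_mem_mul ht (Ideal.mul_mem_right _ _ hxy))
  exact ⟨x, by linear_combination - hx⟩

end Fermat.Agent.CFTLocal
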