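import Mathlib

/-!
# Alternating forms all of whose partial maps have rank at most one
-/

set_option autoImplicit false

namespace Fermat.Agent.CFTLocal

/-- A group is not the union of two proper subgroups. -/
theorem exists_notMem_of_ne_top {V : Type*} [AddCommGroup V] {A B : AddSubgroup V}
    (hA : A ≠ ⊤) (hB : B ≠ ⊤) : ∃ c, c ∉ A ∧ c ∉ B := by
  classical
  obtain ⟨a, ha⟩ : ∃ a, a ∉ A := by
    by_contra h
    push Not at h
    exact hA (eq_top_iff.mpr fun x _ => h x)
  obtain ⟨b, hb⟩ : ∃ b, b ∉ B := by
    by_contra h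
    push Not at h
    exact hB (eq_top_iff.mpr fun x _ => h x)
  by_cases haB : a ∈ B
  · by_cases hbA : b ∈ A
    · refine ⟨a + b, fun h => ha ?_, fun h => hb ?_⟩
      · have := A.sub_mem h hbA
        simpa using this
      · have := B.sub_mem h haB
        simpa using this
    · exact ⟨b, hbA, hb⟩
  · exact ⟨a, ha, haB⟩

section Form

variable {V H : Type*} [AddCommGroup V] [AddCommGroup H] (p : ℕ) [Fact p.Prime]
  (B : V →+ V →+ H)

theorem card_range_of_index (f : V →+ H) (hf : f.ker.index = p) : Nat.card f.range = p := by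
  rw [← hf, AddSubgroup.index_ker]

theorem range_eq_of_common {R S : AddSubgroup H} (hR : Nat.card R = p) (hS : Nat.card S = p)
    {x : H} (hx : x ≠ 0) (hxR : x ∈ R) (hxS : x ∈ S) : R = S := by
  have key : ∀ {T : AddSubgroup H}, Nat.card T = p → x ∈ T → T = AddSubgroup.zmultiples x := by
    intro T hT hxT
    haveI : Finite T := Nat.finite_of_card_ne_zero (by rw [hT]; exact (Fact.out : p.Prime).ne_zero)
    have hle : AddSubgroup.zmultiples x ≤ T := by
      rw [AddSubgroup.zmultiples_le]
      exact hxT
    have hdvd : Nat.card (AddSubgroup.zmultiples x) ∣ p := hT ▸ AddSubgroup.card_dvd_of_le hle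
    have hne : Nat.card (AddSubgroup.zmultiples x) ≠ 1 := by
      intro h
      rw [AddSubgroup.card_eq_one] at h
      rw [AddSubgroup.zmultiples_eq_bot] at h
      exact hx h
    have hcard : Nat.card (AddSubgroup.zmultiples x) = p :=
      ((Nat.dvd_prime Fact.out).mp hdvd).resolve_left hne
    exact (AddSubgroup.eq_of_le_of_card_ge hle (by rw [hT, hcard])).symm
  rw [key hR hxR, key hS hxS]

/-- For an alternating form all of whose partial maps have kernel of index `1` or `p`, all nonzero
partial maps have the same image, of order `p`. -/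
theorem range_eq_range (hskew : ∀ a b, B a b = - B b a)
    (hidx : ∀ b, B b ≠ 0 → (B b).ker.index = p) (b b' : V) (hb : B b ≠ 0) (hb' : B b' ≠ 0) :
    (B b).range = (B b').range := by
  have h1 : (B b).ker ≠ ⊤ := by
    intro h
    apply hb
    ext x
    have : x ∈ (B b).ker := by rw [h]; trivial
    exact this
  have h2 : (B b').ker ≠ ⊤ := by
    intro h
    apply hb'
    ext x
    have : x ∈ (B b').ker := by rw [h]; trivial
    exact this
  obtain ⟨c, hc, hc'⟩ := exists_notMem_of_ne_top h1 h2
  rw [AddMonoidHom.mem_ker] at hc hc'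
  have hcne : B c ≠ 0 := by
    intro h
    apply hc
    rw [hskew, h]
    simp
  have e1 : (B b).range = (B c).range :=
    range_eq_of_common p (card_range_of_index p _ (hidx b hb)) (card_range_of_index p _ (hidx c hcne))
      hc ⟨c, rfl⟩ ⟨-b, by rw [map_neg, hskew c b, neg_neg]⟩
  have e2 : (B b').range = (B c).range :=
    range_eq_of_common p (card_range_of_index p _ (hidx b' hb'))
      (card_range_of_index p _ (hidx c hcne)) hc' ⟨c, rfl⟩
      ⟨-b', by rw [map_neg, hskew c b', neg_neg]⟩
  rw [e1, e2]

end Form

end Fermat.Agent.CFTLocal
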