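import Fermat.Agent.CFT.Local.Main

/-!
# `H¹(G, ℤ/p)` and `H²(G, ℤ/p)` for a Kummer formation
-/

set_option autoImplicit false
set_option linter.unusedSectionVars false

namespace Fermat.Agent.CFTLocal

open Fermat.Agent.PT

variable {p : ℕ} [Fact p.Prime] {M : Type*} [AddCommGroup M] {ζ : M}
variable {G : Type*} [Group G] {𝓛 : LevelSys G} {ρ : Representation ℤ G M}
variable {ρ₀ : Representation (ZMod p) G (ZMod p)}

namespace KummerData

variable (h : KummerData p 𝓛 ρ ζ) (h₀ : ∀ g x, ρ₀ g x = x)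

include h h₀

/-- `ZMod p`-valued cocycles as `M[p]`-valued cocycles. -/
noncomputable def ztZ2 : ↥(Z2 𝓛 ρ₀) →+ ↥(Z2 𝓛 ρ) where
  toFun c := ⟨fun q => zt h.zeta (c.1 q), c.2.1.comp _, fun g g' j => by
    rw [← map_add, c.2.2 g g' j, map_add, h₀, h.map_zt]⟩
  map_zero' := by
    apply Subtype.ext
    funext q
    exact map_zero _
  map_add' c c' := by
    apply Subtype.ext
    funext q
    exact map_add _ _ _

@[simp] lemma ztZ2_apply (c : ↥(Z2 𝓛 ρ₀)) (q : G × G) :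
    (h.ztZ2 h₀ c : G × G → M) q = zt h.zeta (c.1 q) := rfl

lemma ztZ2_eq_zero_iff (c : ↥(Z2 𝓛 ρ₀)) :
    H2mk 𝓛 ρ (h.ztZ2 h₀ c) = 0 ↔ H2mk 𝓛 ρ₀ c = 0 := by
  rw [H2mk_eq_zero, H2mk_eq_zero]
  constructor
  · rintro ⟨f, hf, hc⟩
    -- `p f` is a cocycle
    obtain ⟨m, hm⟩ := h.hilb ⊤ 𝓛.top_mem (fun g => p • f g) ((hf.comp (p • ·)).restrict ⊤) (by
      intro u v
      have h1 := hc u v
      have h2 : p • (h.ztZ2 h₀ c : G × G → M) (u, v) = 0 := by
        rw [ztZ2_apply, ← map_nsmul]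
        simp
      rw [h1, smul_add, smul_sub, ← map_nsmul] at h2
      change p • f (u * v) = ρ u (p • f v) + p • f u
      have h3 : ρ u (p • f v) + p • f u - p • f (u * v) = 0 := by
        rw [← h2]; abel
      exact (sub_eq_zero.mp h3).symm)
    obtain ⟨m', rfl⟩ := h.div m
    have hpf : ∀ g, p • (f g - (ρ g m' - m')) = 0 := by
      intro g
      have h4 := hm ⟨g, trivial⟩
      simp only at h4
      rw [smul_sub, h4, smul_sub, map_nsmul, sub_self]
    refine ⟨fun g => h.lg (f g - (ρ g m' - m')), ?_, fun g g' => ?_⟩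
    · exact (((hf.prodMk (LC1.d01 h.disc m')).comp (fun q => q.1 - q.2))).comp h.lg
    · apply h.zt_inj
      rw [map_add, map_sub, h₀, h.zt_lg (hpf _), h.zt_lg (hpf _), h.zt_lg (hpf _)]
      have h5 := hc g g'
      rw [ztZ2_apply] at h5
      rw [h5]
      -- `ρ g` acts trivially on the torsion element
      have h6 : ρ g (f g' - (ρ g' m' - m')) = f g' - (ρ g' m' - m') := by
        rw [← h.zt_lg (hpf g'), h.map_zt]
      rw [← h6]
      simp only [map_sub, map_mul, Module.End.mul_apply]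
      abel
  · rintro ⟨e, he, hc⟩
    refine ⟨fun g => zt h.zeta (e g), he.comp _, fun g g' => ?_⟩
    rw [ztZ2_apply, hc, map_add, map_sub, h₀, h.map_zt]

lemma exists_ztZ2 (α : H2 𝓛 ρ) (hα : p • α = 0) : ∃ c, H2mk 𝓛 ρ (h.ztZ2 h₀ c) = α := by
  obtain ⟨c, rfl⟩ := H2mk_surjective α
  rw [← map_nsmul, H2mk_eq_zero] at hα
  obtain ⟨f, hf, hc⟩ := hα
  -- a set theoretic `p`-division
  choose dv hdv using h.div
  set c' : ↥(Z2 𝓛 ρ) := c - ⟨d12 ρ (fun g => dv (f g)), d12_mem_Z2 h.disc (hf.comp dv)⟩ with hc'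
  have hpc : ∀ q, p • c'.1 q = 0 := by
    rintro ⟨g, g'⟩
    have h1 : p • c.1 (g, g') = ρ g (f g') - f (g * g') + f g := hc g g'
    change p • (c.1 (g, g') - d12 ρ (fun g => dv (f g)) (g, g')) = 0
    rw [smul_sub, h1, d12_apply, smul_add, smul_sub, ← map_nsmul, hdv, hdv, hdv, sub_self]
  have hmem : (fun q => h.lg (c'.1 q)) ∈ Z2 𝓛 ρ₀ := by
    refine ⟨c'.2.1.comp _, fun g g' j => ?_⟩
    apply h.zt_inj
    have h2 := c'.2.2 g g' j
    rw [map_add, map_add, h₀, h.zt_lg (hpc _), h.zt_lg (hpc _), h.zt_lg (hpc _), h.zt_lg (hpc _), h2]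
    congr 1
    rw [← h.zt_lg (hpc (g', j)), h.map_zt]
  refine ⟨⟨fun q => h.lg (c'.1 q), hmem⟩, ?_⟩
  have h3 : h.ztZ2 h₀ ⟨fun q => h.lg (c'.1 q), hmem⟩ = c' := by
    apply Subtype.ext
    funext q
    exact h.zt_lg (hpc q)
  rw [h3, hc', map_sub, sub_eq_self, H2mk_eq_zero]
  exact ⟨_, hf.comp dv, fun g g' => rfl⟩

lemma card_H2_eq_torsion :
    Nat.card (H2 𝓛 ρ₀) = Nat.card {α : H2 𝓛 ρ // p • α = 0} := by
  classical
  have hsurj : Function.Surjective (H2mk 𝓛 ρ₀) := H2mk_surjective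
  have hinv : ∀ x, H2mk 𝓛 ρ₀ (Function.surjInv hsurj x) = x := Function.surjInv_eq hsurj
  refine Nat.card_congr (Equiv.ofBijective
    (fun x => (⟨H2mk 𝓛 ρ (h.ztZ2 h₀ (Function.surjInv hsurj x)), ?_⟩ :
      {α : H2 𝓛 ρ // p • α = 0})) ⟨?_, ?_⟩)
  · rw [← map_nsmul, ← map_nsmul]
    have : p • Function.surjInv hsurj x = 0 := by
      apply Subtype.ext
      funext q
      change p • (Function.surjInv hsurj x).1 q = 0
      simp
    rw [this, map_zero, map_zero]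
  · intro x y hxy
    have h1 := congrArg Subtype.val hxy
    simp only at h1
    rw [← sub_eq_zero, ← map_sub, ← map_sub, h.ztZ2_eq_zero_iff h₀, map_sub,
      hinv, hinv, sub_eq_zero] at h1
    exact h1
  · rintro ⟨α, hα⟩
    obtain ⟨c, hc⟩ := h.exists_ztZ2 h₀ α hα
    refine ⟨H2mk 𝓛 ρ₀ c, Subtype.ext ?_⟩
    simp only
    rw [← hc, ← sub_eq_zero, ← map_sub, ← map_sub, h.ztZ2_eq_zero_iff h₀, map_sub,
      hinv, sub_self]

/-- `H²(G, ℤ/p)` has order `p`. -/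
theorem card_H2 (hN : NormAll p 𝓛 ρ) (hp2 : p ≠ 2) : Nat.card (H2 𝓛 ρ₀) = p := by
  rw [h.card_H2_eq_torsion h₀]
  refine Eq.trans ?_ (h.card_line hN.self hp2)
  exact Nat.card_congr (Equiv.subtypeEquivRight fun α => h.torsion_iff hN hp2 α)

theorem finrank_H2 (hN : NormAll p 𝓛 ρ) (hp2 : p ≠ 2) :
    Module.finrank (ZMod p) (H2 𝓛 ρ₀) = 1 := by
  have hc := h.card_H2 h₀ hN hp2
  haveI : Finite (H2 𝓛 ρ₀) :=
    Nat.finite_of_card_ne_zero (by rw [hc]; exact (Fact.out : p.Prime).ne_zero)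
  haveI : Module.Finite (ZMod p) (H2 𝓛 ρ₀) := Module.Finite.of_finite
  have h1 := Module.natCard_eq_pow_finrank (K := ZMod p) (V := H2 𝓛 ρ₀)
  rw [hc, Nat.card_zmod] at h1
  have h2 : p ^ 1 = p ^ Module.finrank (ZMod p) (H2 𝓛 ρ₀) := by rw [pow_one]; exact h1
  exact (Nat.pow_right_injective (Fact.out : p.Prime).two_le h2).symm

/-- The Kummer cocycle. -/
noncomputable def kcZ1 (b : ↥ρ.invariants) : ↥(Z1 𝓛 ρ₀) :=
  ⟨fun g => Multiplicative.toAdd (h.kc b g),
    ⟨(h.kc b).ker, h.kc_ker_mem b, fun g s hs => by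
      rw [MonoidHom.mem_ker] at hs
      beta_reduce
      rw [map_mul, hs, mul_one]⟩, fun g g' => by
      beta_reduce
      rw [map_mul, toAdd_mul, h₀, add_comm]⟩

lemma kcZ1_apply (b : ↥ρ.invariants) (g : G) :
    (h.kcZ1 h₀ b : G → ZMod p) g = Multiplicative.toAdd (h.kc b g) := rfl

/-- The Kummer map `M^G → H¹(G, ℤ/p)`. -/
noncomputable def kappa : ↥ρ.invariants →+ H1 𝓛 ρ₀ where
  toFun b := H1mk 𝓛 ρ₀ (h.kcZ1 h₀ b)
  map_zero' := by
    have : h.kcZ1 h₀ 0 = 0 := by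
      apply Subtype.ext
      funext g
      have h0 : h.kc 0 = 1 := (h.kc_eq_one_iff 0).mpr ⟨0, by simp⟩
      rw [kcZ1_apply, h0]
      rfl
    rw [this, map_zero]
  map_add' b b' := by
    rw [← map_add]
    congr 1
    apply Subtype.ext
    funext g
    rw [kcZ1_apply, h.kc_add]
    rfl

lemma kappa_apply (b : ↥ρ.invariants) : h.kappa h₀ b = H1mk 𝓛 ρ₀ (h.kcZ1 h₀ b) := rfl

lemma kappa_surjective : Function.Surjective (h.kappa h₀) := by
  intro x
  obtain ⟨c, rfl⟩ := H1mk_surjective x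
  have hc := c.2.2
  obtain ⟨b, hb⟩ := h.exists_kc_eq
    { toFun := fun g => Multiplicative.ofAdd (c.1 g)
      map_one' := by
        have := hc 1 1
        rw [h₀, one_mul] at this
        have h2 : c.1 1 = 0 := by simpa using this
        rw [h2]
        rfl
      map_mul' := fun g g' => by
        rw [hc g g', h₀, add_comm]
        rfl } (by
    obtain ⟨U, hU, hs⟩ := c.2.1
    refine LevelSys.mono hU fun u hu => ?_
    rw [MonoidHom.mem_ker]
    have h1 := hs 1 u hu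
    rw [one_mul] at h1
    have := hc 1 1
    rw [h₀, one_mul] at this
    have h2 : c.1 1 = 0 := by simpa using this
    change Multiplicative.ofAdd (c.1 u) = 1
    rw [h1, h2]
    rfl)
  refine ⟨b, ?_⟩
  rw [kappa_apply]
  congr 1
  apply Subtype.ext
  funext g
  rw [kcZ1_apply, hb]
  rfl

lemma kappa_ker : (h.kappa h₀).ker
    = (nsmulAddMonoidHom p : ↥ρ.invariants →+ ↥ρ.invariants).range := by
  ext b
  rw [AddMonoidHom.mem_ker, kappa_apply, H1mk_eq_zero]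
  constructor
  · rintro ⟨m, hm⟩
    have h1 : h.kc b = 1 := by
      ext g
      have := hm g
      rw [h₀, sub_self] at this
      exact this
    obtain ⟨β, hβ⟩ := (h.kc_eq_one_iff b).mp h1
    exact ⟨β, hβ⟩
  · rintro ⟨β, hβ⟩
    have h1 : h.kc b = 1 := (h.kc_eq_one_iff b).mpr ⟨β, hβ⟩
    refine ⟨0, fun g => ?_⟩
    rw [kcZ1_apply, h1, h₀, sub_self]
    rfl

/-- `|H¹(G, ℤ/p)| = [M^G : p M^G]`. -/
theorem card_H1 : Nat.card (H1 𝓛 ρ₀)
    = (nsmulAddMonoidHom p : ↥ρ.invariants →+ ↥ρ.invariants).range.index := by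
  rw [← h.kappa_ker h₀, AddSubgroup.index_ker, AddMonoidHom.range_eq_top.mpr (h.kappa_surjective h₀),
    AddSubgroup.card_top]

end KummerData

end Fermat.Agent.CFTLocal
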