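import Fermat.Agent.CFT.Bridge.Levels
import Fermat.Agent.CFT.Local.Triv
import Fermat.Agent.CFT.Local.NormIndex

/-!
# Norm subgroups in Galois terms
-/

set_option autoImplicit false
set_option linter.unusedSectionVars false

namespace Fermat.Agent.CFTLocal

open Fermat.Agent.PT Fermat.Agent.CFT.Kum Fermat.Agent.CFT.Bridge

section KumSet

variable {p : ℕ} [Fact p.Prime] {G : Type*} [Group G] {𝓛 : LevelSys G} {Ω : Type*} [Field Ω]
  [MulSemiringAction G Ω]

/-- A `KumSet` gives Kummer data on `Ωˣ`. -/
theorem kummerData_of_kumSet (K : KumSet 𝓛 Ω p) :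
    KummerData p 𝓛 (unitsRep G Ω) (Additive.ofMul K.ζ) where
  disc := K.level.discrete
  div := fun m => by
    obtain ⟨y, hy⟩ := K.exists_root m.toMul
    exact ⟨Additive.ofMul y, congrArg Additive.ofMul hy⟩
  tors := fun m hm => by
    have h1 : m.toMul ^ p = 1 := hm
    obtain ⟨i, hi⟩ := K.exists_zp h1
    exact ⟨i.val, congrArg Additive.ofMul hi⟩
  zeta := by
    have := K.prim.pow_eq_one
    exact congrArg Additive.ofMul this
  zeta_ne := by
    intro h0
    have h1 : K.ζ = 1 := h0
    exact K.prim.ne_one (Fact.out : p.Prime).one_lt h1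
  fix := fun g => congrArg Additive.ofMul (K.fixed g)
  hilb := fun U _ => h1van_units K.level U

end KumSet

section Gal

variable {p : ℕ} [Fact p.Prime] {k Ω : Type} [Field k] [Field Ω] [Algebra k Ω] [IsGalois k Ω]
  [IsAlgClosed Ω]

/-- invariants of the Galois group on `Ωˣ` -/
noncomputable def invGal : Additive kˣ ≃+ ↥(unitsRep (Ω ≃ₐ[k] Ω) Ω).invariants :=
  AddEquiv.ofBijective
    ({ toFun := fun x => ⟨Additive.ofMul (Units.map (algebraMap k Ω : k →* Ω) x.toMul), fun g => by
        apply Additive.toMul.injective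
        apply Units.ext
        exact g.commutes _⟩
       map_zero' := by
        apply Subtype.ext
        apply Additive.toMul.injective
        exact map_one (Units.map (algebraMap k Ω : k →* Ω))
       map_add' := fun x y => by
        apply Subtype.ext
        apply Additive.toMul.injective
        exact map_mul (Units.map (algebraMap k Ω : k →* Ω)) x.toMul y.toMul } : Additive kˣ →+ ↥(unitsRep (Ω ≃ₐ[k] Ω) Ω).invariants) (by
    constructor
    · intro x y hxy
      have h1 := congrArg (fun z : ↥(unitsRep (Ω ≃ₐ[k] Ω) Ω).invariants => ((z.1.toMul : Ωˣ) : Ω)) hxy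
      apply Additive.toMul.injective
      apply Units.ext
      exact (algebraMap k Ω).injective h1
    · rintro ⟨m, hm⟩
      have h1 : ∀ g : Ω ≃ₐ[k] Ω, g (m.toMul : Ω) = m.toMul := fun g => by
        have := hm g
        exact congrArg (fun z : Additive Ωˣ => ((z.toMul : Ωˣ) : Ω)) this
      obtain ⟨a, ha⟩ := (InfiniteGalois.mem_range_algebraMap_iff_fixed (m.toMul : Ω)).mpr h1
      have ha0 : a ≠ 0 := by
        rintro rfl
        rw [map_zero] at ha
        exact (m.toMul).ne_zero ha.symm
      refine ⟨Additive.ofMul (Units.mk0 a ha0), ?_⟩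
      apply Subtype.ext
      apply Additive.toMul.injective
      apply Units.ext
      exact ha)

lemma invGal_apply (x : kˣ) :
    (((invGal (Ω := Ω) (Additive.ofMul x)).1.toMul : Ωˣ) : Ω) = algebraMap k Ω x := rfl

variable (χ : (Ω ≃ₐ[k] Ω) →* Multiplicative (ZMod p)) (hχ : χ.ker ∈ galLevels k Ω)

include hχ

lemma fixingSubgroup_fixedField_ker : (IntermediateField.fixedField χ.ker).fixingSubgroup = χ.ker :=
  fixingSubgroup_fixedField_of_mem hχ

lemma isGalois_fixedField_ker : IsGalois k (IntermediateField.fixedField χ.ker) := by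
  rw [← InfiniteGalois.normal_iff_isGalois, fixingSubgroup_fixedField_ker χ hχ]
  infer_instance

lemma finrank_fixedField_ker {s : Ω ≃ₐ[k] Ω} (hs : χ s = Multiplicative.ofAdd 1) :
    Module.finrank k (IntermediateField.fixedField χ.ker) = p := by
  haveI := fixedField_finite_of_mem hχ
  rw [IntermediateField.finrank_eq_fixingSubgroup_index, fixingSubgroup_fixedField_ker χ hχ]
  have hsurj : Function.Surjective χ := by
    intro y
    refine ⟨s ^ (Multiplicative.toAdd y).val, ?_⟩
    rw [map_pow, hs, ← ofAdd_nsmul]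
    simp
  rw [Subgroup.index_ker, MonoidHom.range_eq_top.mpr hsurj, Subgroup.card_top,
    Nat.card_congr Multiplicative.toAdd, Nat.card_zmod]

lemma norm_eq_prod {s : Ω ≃ₐ[k] Ω} (hs : χ s = Multiplicative.ofAdd 1)
    (x : IntermediateField.fixedField χ.ker) :
    algebraMap k Ω (Algebra.norm k x) = ∏ i ∈ Finset.range p, (s ^ i) (x : Ω) := by
  classical
  haveI := fixedField_finite_of_mem hχ
  haveI := isGalois_fixedField_ker χ hχ
  let E := IntermediateField.fixedField χ.ker
  rw [Algebra.norm_eq_prod_embeddings k Ω x]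
  have hcard : Fintype.card (E →ₐ[k] Ω) = p := by
    rw [AlgHom.card k E Ω, finrank_fixedField_ker χ hχ hs]
  let F : Fin p → (E →ₐ[k] Ω) := fun i => ((s ^ (i : ℕ) : Ω ≃ₐ[k] Ω) : Ω →ₐ[k] Ω).comp E.val
  have hF : Function.Injective F := by
    intro i j hij
    have h1 : (s ^ (i : ℕ))⁻¹ * s ^ (j : ℕ) ∈ χ.ker := by
      rw [← fixingSubgroup_fixedField_ker χ hχ, IntermediateField.mem_fixingSubgroup_iff]
      intro y hy
      have h2 := DFunLike.congr_fun hij (⟨y, hy⟩ : E)
      have h3 : (s ^ (i : ℕ)) y = (s ^ (j : ℕ)) y := h2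
      change (s ^ (i : ℕ))⁻¹ ((s ^ (j : ℕ)) y) = y
      rw [← h3]
      exact AlgEquiv.symm_apply_apply (s ^ (i : ℕ)) y
    rw [MonoidHom.mem_ker, map_mul, map_inv, inv_mul_eq_one] at h1
    have h4 := cval_pow hs (i : ℕ)
    have h5 := cval_pow hs (j : ℕ)
    have h6 : cval χ (s ^ (i : ℕ)) = cval χ (s ^ (j : ℕ)) := by
      unfold cval
      rw [h1]
    rw [h4, h5, Nat.mod_eq_of_lt i.2, Nat.mod_eq_of_lt j.2] at h6
    exact Fin.ext h6
  have hbij : Function.Bijective F := by
    rw [Fintype.bijective_iff_injective_and_card]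
    exact ⟨hF, by rw [Fintype.card_fin, hcard]⟩
  rw [← Fin.prod_univ_eq_prod_range (fun i => (s ^ i) (x : Ω)) p]
  exact (Fintype.prod_bijective F hbij _ _ (fun i => rfl)).symm

/-- The norm subgroup of `χ` in terms of the field norm. -/
theorem index_nrm_gal {s : Ω ≃ₐ[k] Ω} (hs : χ s = Multiplicative.ofAdd 1) :
    (nrm (unitsRep (Ω ≃ₐ[k] Ω) Ω) χ s).index
      = (normUnits k (IntermediateField.fixedField χ.ker)).range.index := by
  have e : (normUnits k (IntermediateField.fixedField χ.ker)).range.toAddSubgroup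
      = (nrm (unitsRep (Ω ≃ₐ[k] Ω) Ω) χ s).comap (invGal (k := k) (Ω := Ω)).toAddMonoidHom := by
    have hps : ∀ y : Additive Ωˣ, (((pnorm (unitsRep (Ω ≃ₐ[k] Ω) Ω) s y p).toMul : Ωˣ) : Ω)
        = ∏ i ∈ Finset.range p, (s ^ i) ((y.toMul : Ωˣ) : Ω) := by
      intro y
      unfold pnorm
      rw [toMul_sum, Units.coe_prod]
      rfl
    ext a
    constructor
    · rintro ⟨y, hy⟩
      refine ⟨Additive.ofMul (Units.map (IntermediateField.fixedField χ.ker).val.toRingHom.toMonoidHom y),
        ?_, ?_⟩
      · intro u hu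
        apply Additive.toMul.injective
        apply Units.ext
        have h1 := (y : IntermediateField.fixedField χ.ker).2
        exact h1 ⟨u, hu⟩
      · apply Additive.toMul.injective
        apply Units.ext
        rw [hps]
        have h2 := norm_eq_prod χ hχ hs (y : IntermediateField.fixedField χ.ker)
        refine Eq.trans ?_ h2
        have h3 : a = Additive.ofMul (normUnits k _ y) := congrArg Additive.ofMul hy.symm
        rw [h3]
        rfl
    · rintro ⟨b, hb, hab⟩
      have hbmem : ((b.toMul : Ωˣ) : Ω) ∈ IntermediateField.fixedField χ.ker := by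
        rintro ⟨u, hu⟩
        have := hb u hu
        exact congrArg (fun z : Additive Ωˣ => ((z.toMul : Ωˣ) : Ω)) this
      have hb0 : (⟨_, hbmem⟩ : IntermediateField.fixedField χ.ker) ≠ 0 := by
        intro h0
        exact (b.toMul).ne_zero (congrArg Subtype.val h0)
      refine ⟨Units.mk0 ⟨_, hbmem⟩ hb0, ?_⟩
      apply Units.ext
      apply (algebraMap k Ω).injective
      have h2 := norm_eq_prod χ hχ hs ⟨_, hbmem⟩
      refine Eq.trans h2 ?_
      have h4 := congrArg (fun z : Additive Ωˣ => ((z.toMul : Ωˣ) : Ω)) hab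
      rw [hps] at h4
      rw [← h4]
      rfl
  rw [← Subgroup.index_toAddSubgroup, e]
  exact (AddSubgroup.index_comap_of_surjective _ (invGal (k := k) (Ω := Ω)).surjective).symm

end Gal

end Fermat.Agent.CFTLocal
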