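import Fermat.Agent.CFT.Local.Form
import Fermat.Agent.PT.Cyclic

/-!
# Kummer characters and the symbol pairing for an abstract Kummer formation
-/

set_option autoImplicit false
set_option linter.unusedSectionVars false

namespace Fermat.Agent.CFTLocal

open Fermat.Agent.PT

variable {p : ℕ} [Fact p.Prime]
variable {G : Type*} [Group G] {𝓛 : LevelSys G}
variable {M : Type*} [AddCommGroup M] {ρ : Representation ℤ G M}

instance neZero_p : NeZero p := ⟨(Fact.out : p.Prime).ne_zero⟩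

/-- Kummer formation: a discrete `G`-module `M`, `p`-divisible, whose `p`-torsion is generated by
the `G`-fixed vector `ζ ≠ 0`, and with vanishing `H¹(U, M)` for all level subgroups. -/
structure KummerData (p : ℕ) [Fact p.Prime] (𝓛 : LevelSys G) (ρ : Representation ℤ G M) (ζ : M) :
    Prop where
  disc : Discrete 𝓛 ρ
  div : ∀ m : M, ∃ m' : M, p • m' = m
  tors : ∀ m : M, p • m = 0 → ∃ i : ℕ, m = i • ζ
  zeta : p • ζ = 0
  zeta_ne : ζ ≠ 0
  fix : ∀ g, ρ g ζ = ζ
  hilb : ∀ U ∈ 𝓛, H1Van 𝓛 ρ U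

/-- The map `ZMod p → M`, `i ↦ i ζ`. -/
noncomputable def zt {ζ : M} (hζ : p • ζ = 0) : ZMod p →+ M :=
  ZMod.lift p ⟨zmultiplesHom M ζ, by simpa using hζ⟩

lemma zt_natCast {ζ : M} (hζ : p • ζ = 0) (i : ℕ) : zt hζ (i : ZMod p) = i • ζ := by
  have : ((i : ℤ) : ZMod p) = (i : ZMod p) := by simp
  rw [← this, zt, ZMod.lift_coe]
  simp

lemma zt_apply {ζ : M} (hζ : p • ζ = 0) (i : ZMod p) : zt hζ i = i.val • ζ := by
  rw [← zt_natCast hζ, ZMod.natCast_zmod_val]

lemma zt_injective {ζ : M} (hζ : p • ζ = 0) (h0 : ζ ≠ 0) : Function.Injective (zt hζ) := by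
  have ho : addOrderOf ζ = p := addOrderOf_eq_prime hζ h0
  rw [injective_iff_map_eq_zero]
  intro i hi
  rw [zt_apply] at hi
  have := addOrderOf_dvd_of_nsmul_eq_zero hi
  rw [ho] at this
  rw [← ZMod.natCast_zmod_val i]
  exact (ZMod.natCast_eq_zero_iff _ _).mpr this

namespace KummerData

variable {ζ : M} (h : KummerData p 𝓛 ρ ζ)

include h

lemma exists_zt (m : M) (hm : p • m = 0) : ∃ i : ZMod p, zt h.zeta i = m := by
  obtain ⟨i, rfl⟩ := h.tors m hm
  exact ⟨i, zt_natCast h.zeta i⟩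

lemma zt_inj {i j : ZMod p} (hij : zt h.zeta i = zt h.zeta j) : i = j :=
  zt_injective h.zeta h.zeta_ne hij

lemma map_zt (g : G) (i : ZMod p) : ρ g (zt h.zeta i) = zt h.zeta i := by
  rw [zt_apply, map_nsmul, h.fix]

/-- The logarithm `M[p] → ZMod p` (junk outside `M[p]`). -/
noncomputable def lg (m : M) : ZMod p :=
  open Classical in if hm : p • m = 0 then (h.exists_zt m hm).choose else 0

lemma zt_lg {m : M} (hm : p • m = 0) : zt h.zeta (h.lg m) = m := by
  rw [lg, dif_pos hm]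
  exact (h.exists_zt m hm).choose_spec

lemma lg_add {m m' : M} (hm : p • m = 0) (hm' : p • m' = 0) : h.lg (m + m') = h.lg m + h.lg m' := by
  apply h.zt_inj
  rw [map_add, h.zt_lg hm, h.zt_lg hm', h.zt_lg (by rw [smul_add, hm, hm', add_zero])]

lemma lg_zt (i : ZMod p) : h.lg (zt h.zeta i) = i := by
  apply h.zt_inj
  rw [h.zt_lg]
  rw [← map_nsmul]
  simp

omit h in
lemma smul_sub_eq_zero {β : M} (hβ : ∀ g, ρ g (p • β) = p • β) (g : G) : p • (ρ g β - β) = 0 := by
  rw [smul_sub, ← map_nsmul, hβ, sub_self]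

/-- The Kummer character attached to `β` with `pβ` fixed. -/
noncomputable def kch (β : M) (hβ : ∀ g, ρ g (p • β) = p • β) : G →* Multiplicative (ZMod p) where
  toFun g := Multiplicative.ofAdd (h.lg (ρ g β - β))
  map_one' := by
    rw [map_one, Module.End.one_apply, sub_self]
    have : h.lg 0 = 0 := by
      have := h.lg_zt 0
      rwa [map_zero] at this
    rw [this]
    rfl
  map_mul' g g' := by
    rw [← ofAdd_add, ← h.lg_add (smul_sub_eq_zero hβ g) (smul_sub_eq_zero hβ g')]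
    congr 2
    have h1 : ρ g (ρ g' β - β) = ρ g' β - β := by
      rw [← h.zt_lg (smul_sub_eq_zero hβ g'), h.map_zt]
    rw [map_mul, Module.End.mul_apply]
    have h2 : ρ g (ρ g' β) = ρ g β + (ρ g' β - β) := by
      rw [← h1, map_sub]
      abel
    rw [h2]
    abel

lemma zt_kch (β : M) (hβ : ∀ g, ρ g (p • β) = p • β) (g : G) :
    zt h.zeta (Multiplicative.toAdd (h.kch β hβ g)) = ρ g β - β :=
  h.zt_lg (smul_sub_eq_zero hβ g)

lemma map_eq_add (β : M) (hβ : ∀ g, ρ g (p • β) = p • β) (g : G) :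
    ρ g β = β + (cval (h.kch β hβ) g) • ζ := by
  have := h.zt_kch β hβ g
  rw [zt_apply] at this
  rw [cval, this]
  abel

lemma mem_ker_kch (β : M) (hβ : ∀ g, ρ g (p • β) = p • β) (g : G) :
    g ∈ (h.kch β hβ).ker ↔ ρ g β = β := by
  rw [MonoidHom.mem_ker]
  constructor
  · intro hg
    have := h.zt_kch β hβ g
    rw [hg, toAdd_one, map_zero] at this
    exact (sub_eq_zero.mp this.symm)
  · intro hg
    have := h.zt_kch β hβ g
    rw [hg, sub_self, ← map_zero (zt h.zeta)] at this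
    exact Multiplicative.toAdd.injective (h.zt_inj this)

lemma kch_ker_mem (β : M) (hβ : ∀ g, ρ g (p • β) = p • β) : (h.kch β hβ).ker ∈ 𝓛 := by
  obtain ⟨U, hU, hs⟩ := h.disc β
  exact LevelSys.mono hU fun u hu => (h.mem_ker_kch β hβ u).mpr (hs u hu)

lemma kch_congr (β β' : M) (hβ : ∀ g, ρ g (p • β) = p • β) (hβ' : ∀ g, ρ g (p • β') = p • β')
    (hp : ∀ g, ρ g (β - β') = β - β') : h.kch β hβ = h.kch β' hβ' := by
  ext g
  change h.lg _ = h.lg _
  congr 1
  have := hp g
  rw [map_sub] at this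
  have h2 : ρ g β - β - (ρ g β' - β') = (ρ g β - ρ g β') - (β - β') := by abel
  rw [← sub_eq_zero, h2, this, sub_self]

lemma kch_add (β β' : M) (hβ : ∀ g, ρ g (p • β) = p • β) (hβ' : ∀ g, ρ g (p • β') = p • β')
    (hs : ∀ g, ρ g (p • (β + β')) = p • (β + β')) :
    h.kch (β + β') hs = h.kch β hβ * h.kch β' hβ' := by
  ext g
  change h.lg _ = h.lg _ + h.lg _
  rw [← h.lg_add (smul_sub_eq_zero hβ g) (smul_sub_eq_zero hβ' g)]
  congr 1
  rw [map_add]
  abel

/-- `p`-th roots of fixed vectors. -/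
noncomputable def root (b : ↥ρ.invariants) : M := (h.div b.1).choose

lemma p_root (b : ↥ρ.invariants) : p • h.root b = b.1 := (h.div b.1).choose_spec

lemma root_fix (b : ↥ρ.invariants) : ∀ g, ρ g (p • h.root b) = p • h.root b := by
  intro g
  rw [h.p_root b]
  exact b.2 g

/-- difference of two `p`-th roots is fixed -/
lemma fix_of_p_eq {β β' : M} (hb : p • β = p • β') : ∀ g, ρ g (β - β') = β - β' := by
  intro g
  rw [← h.zt_lg (m := β - β') (by rw [smul_sub, hb, sub_self]), h.map_zt]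

/-- The Kummer character of a fixed vector. -/
noncomputable def kc (b : ↥ρ.invariants) : G →* Multiplicative (ZMod p) :=
  h.kch (h.root b) (h.root_fix b)

lemma kc_eq {b : ↥ρ.invariants} {β : M} (hb : p • β = b.1) :
    h.kc b = h.kch β (by intro g; rw [hb]; exact b.2 g) :=
  h.kch_congr _ _ _ _ (h.fix_of_p_eq (by rw [h.p_root, hb]))

lemma kc_ker_mem (b : ↥ρ.invariants) : (h.kc b).ker ∈ 𝓛 := h.kch_ker_mem _ _

lemma kc_add (b b' : ↥ρ.invariants) : h.kc (b + b') = h.kc b * h.kc b' := by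
  have hb : p • (h.root b + h.root b') = (b + b').1 := by
    rw [smul_add, h.p_root, h.p_root]
    rfl
  rw [h.kc_eq hb]
  exact h.kch_add _ _ _ _ _

lemma kc_eq_one_iff (b : ↥ρ.invariants) : h.kc b = 1 ↔ ∃ β : ↥ρ.invariants, p • β = b := by
  constructor
  · intro hb
    refine ⟨⟨h.root b, fun g => ?_⟩, Subtype.ext (h.p_root b)⟩
    apply (h.mem_ker_kch (h.root b) (h.root_fix b) g).mp
    rw [MonoidHom.mem_ker]
    change h.kc b g = 1
    rw [hb]
    rfl
  · rintro ⟨β, rfl⟩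
    rw [h.kc_eq (b := p • β) (β := β.1) rfl]
    ext g
    have : g ∈ (h.kch β.1 (by intro g; exact (p • β).2 g)).ker :=
      (h.mem_ker_kch _ _ g).mpr (β.2 g)
    rw [MonoidHom.mem_ker] at this
    exact congrArg Multiplicative.toAdd this

/-- Every level character is a Kummer character. -/
lemma exists_kc_eq (χ : G →* Multiplicative (ZMod p)) (hχ : χ.ker ∈ 𝓛) :
    ∃ b, h.kc b = χ := by
  obtain ⟨m, hm⟩ := h.hilb ⊤ 𝓛.top_mem (fun g => zt h.zeta (Multiplicative.toAdd (χ g))) (by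
    refine LC1.restrict (f := fun g : G => zt h.zeta (Multiplicative.toAdd (χ g)))
      ⟨χ.ker, hχ, fun g s hs => ?_⟩ ⊤
    rw [MonoidHom.mem_ker] at hs
    simp only [map_mul, hs, mul_one]) (by
    intro u v
    simp only [Subgroup.coe_mul, map_mul, toAdd_mul, map_add]
    rw [h.map_zt, add_comm])
  have hm' : ∀ g, zt h.zeta (Multiplicative.toAdd (χ g)) = ρ g m - m := fun g =>
    hm ⟨g, trivial⟩
  have hfix : ∀ g, ρ g (p • m) = p • m := by
    intro g
    rw [map_nsmul]
    have : p • (ρ g m - m) = 0 := by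
      rw [← hm' g, ← map_nsmul]
      simp
    rw [smul_sub] at this
    exact sub_eq_zero.mp this
  refine ⟨⟨p • m, hfix⟩, ?_⟩
  rw [h.kc_eq (b := ⟨p • m, hfix⟩) (β := m) rfl]
  ext g
  apply h.zt_inj
  rw [h.zt_kch, hm' g]

end KummerData

end Fermat.Agent.CFTLocal
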