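import Fermat.Agent.CFT.Local.Symbol

/-!
# The line spanned by the symbols
-/

set_option autoImplicit false
set_option linter.unusedSectionVars false

namespace Fermat.Agent.CFTLocal

open Fermat.Agent.PT

variable {p : ℕ} [Fact p.Prime]
variable {G : Type*} [Group G] {𝓛 : LevelSys G}
variable {M : Type*} [AddCommGroup M] {ρ : Representation ℤ G M}

/-- Norm index property: all norm subgroups of cyclic extensions of degree `p` have index `p`, and
`M^G / p` has more than `p` elements. -/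
structure NormData (p : ℕ) [Fact p.Prime] (𝓛 : LevelSys G) (ρ : Representation ℤ G M) : Prop where
  idx : ∀ χ : G →* Multiplicative (ZMod p), χ.ker ∈ 𝓛 → ∀ s, χ s = Multiplicative.ofAdd 1 →
    (nrm ρ χ s).index = p
  big : (nsmulAddMonoidHom p : ↥ρ.invariants →+ ↥ρ.invariants).range.index ≠ 0 ∧
    p < (nsmulAddMonoidHom p : ↥ρ.invariants →+ ↥ρ.invariants).range.index

namespace KummerData

variable {ζ : M} (h : KummerData p 𝓛 ρ ζ) (hN : NormData p 𝓛 ρ)

include h hN

lemma index_ker_pair {b : ↥ρ.invariants} (hb : h.kc b ≠ 1) : (h.pair b).ker.index = p := by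
  obtain ⟨s, hs⟩ := exists_eq_ofAdd_one hb
  have e : (h.pair b).ker = nrm ρ (h.kc b) s := by
    ext a
    rw [AddMonoidHom.mem_ker, h.pair_eq_zero_iff hs]
  rw [e]
  exact hN.idx (h.kc b) (h.kc_ker_mem b) s hs

lemma pair_ne_zero {b : ↥ρ.invariants} (hb : h.kc b ≠ 1) : h.pair b ≠ 0 := by
  intro h0
  have h1 := h.index_ker_pair hN hb
  have h2 : (h.pair b).ker = ⊤ := by
    rw [h0]
    ext x
    simp
  rw [h2, AddSubgroup.index_top] at h1
  exact (Fact.out : p.Prime).one_lt.ne h1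

lemma pair_eq_zero_iff_kc (b : ↥ρ.invariants) : h.pair b = 0 ↔ h.kc b = 1 :=
  ⟨fun h0 => by_contra fun hb => h.pair_ne_zero hN hb h0, h.pair_eq_zero_of_kc b⟩

/-- Nondegeneracy. -/
lemma pair_eq_zero_iff_pow (b : ↥ρ.invariants) :
    h.pair b = 0 ↔ ∃ β : ↥ρ.invariants, p • β = b := by
  rw [h.pair_eq_zero_iff_kc hN, h.kc_eq_one_iff]

lemma index_ker_pair' (b : ↥ρ.invariants) (hb : h.pair b ≠ 0) : (h.pair b).ker.index = p :=
  h.index_ker_pair hN (fun h1 => hb (h.pair_eq_zero_of_kc b h1))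

lemma exists_kc_ne_one : ∃ b, h.kc b ≠ 1 := by
  by_contra hcon
  push Not at hcon
  have : (nsmulAddMonoidHom p : ↥ρ.invariants →+ ↥ρ.invariants).range = ⊤ := by
    rw [eq_top_iff]
    intro b _
    obtain ⟨β, hβ⟩ := (h.kc_eq_one_iff b).mp (hcon b)
    exact ⟨β, hβ⟩
  have h2 := hN.big.2
  rw [this, AddSubgroup.index_top] at h2
  exact absurd h2 (not_lt.mpr (Fact.out : p.Prime).one_lt.le)

/-- Two nontrivial partial pairings have the same image. -/
lemma range_pair_eq (hp2 : p ≠ 2) {b b' : ↥ρ.invariants} (hb : h.pair b ≠ 0)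
    (hb' : h.pair b' ≠ 0) : (h.pair b).range = (h.pair b').range :=
  range_eq_range p h.pair (h.pair_skew hp2) (fun b hb => h.index_ker_pair' hN b hb) b b' hb hb'

omit hN in
/-- The line spanned by the symbols. -/
noncomputable def line : AddSubgroup (H2 𝓛 ρ) := ⨆ b, (h.pair b).range

omit hN in
lemma pair_mem_line (b a : ↥ρ.invariants) : h.pair b a ∈ h.line :=
  (le_iSup (fun b => (h.pair b).range) b) ⟨a, rfl⟩

lemma line_eq (hp2 : p ≠ 2) {b : ↥ρ.invariants} (hb : h.kc b ≠ 1) :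
    h.line = (h.pair b).range := by
  apply le_antisymm
  · refine iSup_le fun b' => ?_
    by_cases hb' : h.pair b' = 0
    · rintro _ ⟨a, rfl⟩
      rw [hb']
      exact (h.pair b).range.zero_mem
    · rw [h.range_pair_eq hN hp2 hb' (h.pair_ne_zero hN hb)]
  · exact le_iSup (fun b => (h.pair b).range) b

lemma card_line (hp2 : p ≠ 2) : Nat.card h.line = p := by
  obtain ⟨b, hb⟩ := h.exists_kc_ne_one hN
  rw [h.line_eq hN hp2 hb]
  exact card_range_of_index p _ (h.index_ker_pair hN hb)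

omit hN in
lemma nsmul_line {x : H2 𝓛 ρ} (hx : x ∈ h.line) : p • x = 0 := by
  have hle : h.line ≤ (nsmulAddMonoidHom p : H2 𝓛 ρ →+ H2 𝓛 ρ).ker := by
    refine iSup_le fun b => ?_
    rintro _ ⟨a, rfl⟩
    rw [AddMonoidHom.mem_ker]
    change p • h.pair b a = 0
    have e : p • h.pair b a = h.pair (p • b) a := by
      rw [map_nsmul]
      rfl
    have : h.kc (p • b) = 1 := (h.kc_eq_one_iff _).mpr ⟨b, rfl⟩
    rw [e, h.pair_eq_zero_of_kc _ this]
    rfl
  exact hle hx

/-- Elements killed by restriction to the kernel of a nontrivial character are symbols. -/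
lemma mem_line_of_res (hp2 : p ≠ 2) {χ : G →* Multiplicative (ZMod p)} (hχ : χ.ker ∈ 𝓛)
    (hχ1 : χ ≠ 1) (x : H2 𝓛 ρ)
    (hx : res2 (𝓛' := 𝓛.restrict χ.ker) χ.ker.subtype (LevelSys.compat_comap _) ρ x = 0) :
    x ∈ h.line := by
  obtain ⟨s, hs⟩ := exists_eq_ofAdd_one hχ1
  obtain ⟨a, rfl⟩ := exists_symb_of_res h.disc hχ (h.hilb _ hχ) hs x hx
  obtain ⟨b, rfl⟩ := h.exists_kc_eq χ hχ
  exact h.pair_mem_line b a

/-- The norm group of one cyclic extension is not contained in all the norm groups. -/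
lemma exists_norm_pair_ne_zero (hp2 : p ≠ 2) {χ : G →* Multiplicative (ZMod p)} (hχ : χ.ker ∈ 𝓛)
    {s : G} (hs : χ s = Multiplicative.ofAdd 1) :
    ∃ a ∈ nrm ρ χ s, ∃ b, h.pair b a ≠ 0 := by
  by_contra hcon
  push Not at hcon
  have hle : nrm ρ χ s ≤ (nsmulAddMonoidHom p : ↥ρ.invariants →+ ↥ρ.invariants).range := by
    intro a ha
    have h1 : h.pair a = 0 := by
      ext b
      rw [h.pair_skew hp2, hcon a ha b]
      simp
    obtain ⟨β, hβ⟩ := (h.pair_eq_zero_iff_pow hN a).mp h1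
    exact ⟨β, hβ⟩
  have h2 := AddSubgroup.index_dvd_of_le hle
  rw [hN.idx χ hχ s hs] at h2
  exact absurd (Nat.le_of_dvd (Fact.out : p.Prime).pos h2) (not_le.mpr hN.big.2)

end KummerData

end Fermat.Agent.CFTLocal
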