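import Fermat.Agent.CFT.Local.Final
import Fermat.Agent.CFT.Global.Hasse

/-!
# The local input `LocH2 p`
-/

set_option autoImplicit false

namespace Fermat.Agent.CFTLocal

open Fermat.Agent.PT Fermat.Agent.CFT.Kum Fermat.Agent.CFT.Bridge Fermat.Agent.CFT.Global

/-- `H²(G_l, ℤ/p)` is one-dimensional for all finite `l / ℚ_q` containing `ζ_p`. -/
theorem locH2 {p : ℕ} [Fact p.Prime] (hp2 : p ≠ 2) : LocH2 p := by
  intro q hq l hl ξ hξ
  exact finrank_H2_local hp2 l (hξ.map_of_injective (f := l.val) l.val.injective) ξ.2 _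
    (fun g x => rfl)

end Fermat.Agent.CFTLocal
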