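import Fermat.Agent.CFT.Local.Tower

/-!
# `H²(G, M)[p]` is the line of symbols
-/

set_option autoImplicit false
set_option linter.unusedSectionVars false

universe u v

namespace Fermat.Agent.CFTLocal

open Fermat.Agent.PT

section Sylow

variable {k : Type*} [CommRing k] {G : Type*} [Group G] {𝓛 : LevelSys G}
variable {M : Type*} [AddCommGroup M] [Module k M] {ρ : Representation k G M}

lemma stabilizer_quotient_mem {U : Subgroup G} (hU : U ∈ 𝓛) (x : G ⧸ U) :
    MulAction.stabilizer G x ∈ 𝓛 := by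
  obtain ⟨V, hV, hVU, hn⟩ := LevelSys.exists_normal hU
  refine LevelSys.mono hV fun v hv => ?_
  obtain ⟨g, rfl⟩ := QuotientGroup.mk_surjective x
  rw [MulAction.mem_stabilizer_iff, MulAction.Quotient.smul_mk, QuotientGroup.eq, smul_eq_mul]
  apply hVU
  have : (v * g)⁻¹ * g = g⁻¹ * v⁻¹ * g := by group
  rw [this]
  simpa using hn.conj_mem _ (V.inv_mem hv) g⁻¹

/-- If a class dies on `U`, it is killed by the index of `U`. -/
theorem index_smul_eq_zero {U : Subgroup G} (hU : U ∈ 𝓛) (α : H2 𝓛 ρ)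
    (hα : res2 (𝓛' := 𝓛.restrict U) U.subtype (LevelSys.compat_comap _) ρ α = 0) :
    U.index • α = 0 := by
  classical
  haveI := LevelSys.finiteIndex hU
  haveI : Finite (G ⧸ U) := inferInstance
  letI : Fintype (G ⧸ U) := Fintype.ofFinite _
  have hx : OrbitReps G (fun _ : Unit => ((1 : G) : G ⧸ U)) :=
    { surj := fun y => by
        obtain ⟨g, rfl⟩ := QuotientGroup.mk_surjective y
        exact ⟨(), g, by rw [MulAction.Quotient.smul_mk, smul_eq_mul, mul_one]⟩
      inj := fun _ _ _ _ => rfl }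
  have hst : U = MulAction.stabilizer G ((1 : G) : G ⧸ U) := by
    ext g
    rw [MulAction.mem_stabilizer_iff, MulAction.Quotient.smul_mk, QuotientGroup.eq, smul_eq_mul,
      mul_one, mul_one, inv_mem_iff]
  have key : H2coef 𝓛 (constHom k M (G ⧸ U)) constHom_equivar α = 0 := by
    refine sh2_injective hx (stabilizer_quotient_mem hU) _ fun _ => ?_
    have e1 : sh2 ρ ((1 : G) : G ⧸ U) (H2coef 𝓛 (constHom k M (G ⧸ U)) constHom_equivar α)
        = res2 (MulAction.stabilizer G ((1 : G) : G ⧸ U)).subtype (LevelSys.compat_comap _) ρ α := by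
      obtain ⟨c, rfl⟩ := H2mk_surjective α
      rfl
    have gen : ∀ W : Subgroup G, U = W →
        res2 (𝓛' := 𝓛.restrict W) W.subtype (LevelSys.compat_comap _) ρ α = 0 := by
      rintro _ rfl
      exact hα
    exact e1.trans (gen _ hst)
  have := trace_const (X := G ⧸ U) α
  rw [key, map_zero] at this
  rw [Subgroup.index_eq_card, Nat.card_eq_fintype_card, ← this]

end Sylow

variable {p : ℕ} [Fact p.Prime] {M : Type v} [AddCommGroup M] {ζ : M}

/-- Tower argument. -/
theorem mem_line_of_diesOn (hp2 : p ≠ 2) (n : ℕ) : ∀ {G : Type u} [Group G] {𝓛 : LevelSys G}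
    {ρ : Representation ℤ G M} (h : KummerData p 𝓛 ρ ζ) (_ : NormAll p 𝓛 ρ) (V : Subgroup G)
    (_ : V ∈ 𝓛) (_ : V.Normal) (_ : V.index = p ^ n) (c : ↥(Z2 𝓛 ρ))
    (_ : p • H2mk 𝓛 ρ c = 0) (_ : DiesOn 𝓛 ρ V c.1), H2mk 𝓛 ρ c ∈ h.line := by
  induction n with
  | zero =>
    intro G _ 𝓛 ρ h hN V hV hn hidx c hc hd
    rw [pow_zero, Subgroup.index_eq_one] at hidx
    rw [eq_zero_of_diesOn_top c hidx hd]
    exact h.line.zero_mem
  | succ n ih =>
    intro G _ 𝓛 ρ h hN V hV hn hidx c hc hd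
    obtain ⟨χ, hχ1, hVχ⟩ := exists_char_of_index (p := p) V hidx
    have hχ : χ.ker ∈ 𝓛 := LevelSys.mono hV hVχ
    refine h.mem_line_of_res_mem_line hN.self hp2 hχ hχ1 (hN χ.ker hχ) _ hc ?_
    rw [res2, H2map_mk]
    have hker : χ.ker.index = p := by
      have hsurj : Function.Surjective χ := by
        obtain ⟨s, hs⟩ := exists_eq_ofAdd_one hχ1
        intro y
        refine ⟨s ^ (Multiplicative.toAdd y).val, ?_⟩
        rw [map_pow, hs, ← ofAdd_nsmul]
        simp
      rw [Subgroup.index_ker, MonoidHom.range_eq_top.mpr hsurj, Subgroup.card_top,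
        Nat.card_congr Multiplicative.toAdd, Nat.card_zmod]
    have hidx' : (V.subgroupOf χ.ker).index = p ^ n := by
      have h1 := Subgroup.relIndex_mul_index hVχ
      rw [hidx, hker, pow_succ] at h1
      exact Nat.eq_of_mul_eq_mul_right (Fact.out : p.Prime).pos h1
    refine ih (h.restrict hχ) (hN.restrict hχ) (V.subgroupOf χ.ker) ⟨V, hV, le_rfl⟩
      inferInstance hidx' _ ?_ (diesOn_restrict hd)
    have := congrArg (res2 (𝓛' := 𝓛.restrict χ.ker) χ.ker.subtype (LevelSys.compat_comap _) ρ) hc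
    rw [map_nsmul, map_zero] at this
    exact this

namespace KummerData

variable {G : Type u} [Group G] {𝓛 : LevelSys G} {ρ : Representation ℤ G M}
  (h : KummerData p 𝓛 ρ ζ) (hN : NormAll p 𝓛 ρ)

include h hN

/-- **Main theorem**: the `p`-torsion of `H²(G, M)` is the line spanned by the symbols. -/
theorem torsion_iff (hp2 : p ≠ 2) (α : H2 𝓛 ρ) : p • α = 0 ↔ α ∈ h.line := by
  classical
  refine ⟨fun hα => ?_, fun hα => h.nsmul_line hα⟩
  have hp : p.Prime := Fact.out
  -- a generator of the line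
  have hcard := h.card_line hN.self hp2
  haveI : Finite h.line := Nat.finite_of_card_ne_zero (by rw [hcard]; exact hp.ne_zero)
  obtain ⟨β, hβ, hβ0⟩ : ∃ β ∈ h.line, β ≠ 0 := by
    by_contra hcon
    push Not at hcon
    have : h.line = ⊥ := (AddSubgroup.eq_bot_iff_forall _).mpr hcon
    rw [this, AddSubgroup.card_bot] at hcard
    exact hp.one_lt.ne hcard
  have hβp : p • β = 0 := h.nsmul_line hβ
  obtain ⟨c, rfl⟩ := H2mk_surjective α
  obtain ⟨d, rfl⟩ := H2mk_surjective β
  obtain ⟨V₁, hV₁, hn₁, hd₁⟩ := exists_diesOn h.disc c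
  obtain ⟨V₂, hV₂, hn₂, hd₂⟩ := exists_diesOn h.disc d
  set V := V₁ ⊓ V₂ with hVdef
  have hV : V ∈ 𝓛 := LevelSys.inf_mem hV₁ hV₂
  haveI hVn : V.Normal := by rw [hVdef]; infer_instance
  haveI := LevelSys.finiteIndex hV
  haveI : Finite (G ⧸ V) := inferInstance
  -- a Sylow subgroup of `G ⧸ V`
  obtain ⟨P⟩ : Nonempty (Sylow p (G ⧸ V)) := inferInstance
  set U : Subgroup G := (P : Subgroup (G ⧸ V)).comap (QuotientGroup.mk' V) with hUdef
  have hVU : V ≤ U := by
    intro v hv
    rw [hUdef, Subgroup.mem_comap]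
    have : (QuotientGroup.mk' V) v = 1 := (QuotientGroup.eq_one_iff (N := V) v).mpr hv
    rw [this]
    exact one_mem _
  have hU : U ∈ 𝓛 := LevelSys.mono hV hVU
  have hUidx : ¬ p ∣ U.index := by
    rw [hUdef, Subgroup.index_comap_of_surjective _ (QuotientGroup.mk'_surjective V)]
    exact P.not_dvd_index
  obtain ⟨n, hn⟩ : ∃ n, (V.subgroupOf U).index = p ^ n := by
    obtain ⟨n, hn⟩ := IsPGroup.iff_card.mp P.isPGroup'
    refine ⟨n, ?_⟩
    have h1 := Subgroup.relIndex_mul_index hVU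
    have h2 : V.index = Nat.card (G ⧸ V) := Subgroup.index_eq_card V
    have h3 := (P : Subgroup (G ⧸ V)).card_mul_index
    rw [hn] at h3
    have h4 : U.index = (P : Subgroup (G ⧸ V)).index := by
      rw [hUdef, Subgroup.index_comap_of_surjective _ (QuotientGroup.mk'_surjective V)]
    rw [h2, ← h3, h4] at h1
    exact Nat.eq_of_mul_eq_mul_right (Nat.pos_of_ne_zero P.index_ne_zero_of_finite) h1
  set r := res2 (𝓛' := 𝓛.restrict U) U.subtype (LevelSys.compat_comap _) ρ with hr
  have hUL := h.restrict hU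
  have key : ∀ e : ↥(Z2 𝓛 ρ), p • H2mk 𝓛 ρ e = 0 → DiesOn 𝓛 ρ V e.1 →
      r (H2mk 𝓛 ρ e) ∈ (h.restrict hU).line := by
    intro e he hde
    have h5 := congrArg r he
    rw [map_nsmul, map_zero] at h5
    rw [hr, res2, H2map_mk] at h5 ⊢
    exact mem_line_of_diesOn hp2 n (h.restrict hU) (hN.restrict hU) (V.subgroupOf U)
      ⟨V, hV, le_rfl⟩ inferInstance hn _ h5 (diesOn_restrict hde)
  have k1 := key c hα (hd₁.mono (inf_le_left))
  have k2 := key d hβp (hd₂.mono (inf_le_right))
  -- injectivity of the restriction on `p`-torsion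
  have hinj : ∀ γ : H2 𝓛 ρ, p • γ = 0 → r γ = 0 → γ = 0 := by
    intro γ hγ hrγ
    have h6 := index_smul_eq_zero hU γ hrγ
    have hcop : Nat.Coprime p U.index := (Nat.Prime.coprime_iff_not_dvd hp).mpr hUidx
    have h7 : (1 : ℤ) • γ = 0 := by
      have hb := Nat.gcd_eq_gcd_ab p U.index
      rw [hcop] at hb
      rw [Nat.cast_one] at hb
      rw [hb, add_smul, mul_comm (p : ℤ), mul_comm (U.index : ℤ), mul_smul, mul_smul,
        natCast_zsmul, natCast_zsmul, hγ, h6, smul_zero, smul_zero, add_zero]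
    rwa [one_smul] at h7
  have hrd : r (H2mk 𝓛 ρ d) ≠ 0 := fun h8 => hβ0 (hinj _ hβp h8)
  -- the line over `U` is generated by `r d`
  have hcardU := (h.restrict hU).card_line (hN.restrict hU).self hp2
  haveI : Finite (h.restrict hU).line :=
    Nat.finite_of_card_ne_zero (by rw [hcardU]; exact hp.ne_zero)
  have hz : Nat.card (AddSubgroup.zmultiples (r (H2mk 𝓛 ρ d))) = p := by
    have hle : AddSubgroup.zmultiples (r (H2mk 𝓛 ρ d)) ≤ (h.restrict hU).line := by
      rw [AddSubgroup.zmultiples_le]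
      exact k2
    have h3 := AddSubgroup.card_dvd_of_le hle
    rw [hcardU] at h3
    refine ((Nat.dvd_prime hp).mp h3).resolve_left fun hone => hrd ?_
    rw [AddSubgroup.card_eq_one, AddSubgroup.zmultiples_eq_bot] at hone
    exact hone
  have heq := range_eq_of_common p hcardU hz hrd k2 (AddSubgroup.mem_zmultiples _)
  rw [heq, AddSubgroup.mem_zmultiples_iff] at k1
  obtain ⟨m, hm⟩ := k1
  have h9 : H2mk 𝓛 ρ c - m • H2mk 𝓛 ρ d = 0 := by
    apply hinj
    · rw [smul_sub, hα, smul_comm, hβp, smul_zero, sub_zero]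
    · rw [map_sub, map_zsmul, hm, sub_self]
  rw [sub_eq_zero] at h9
  rw [h9]
  exact h.line.zsmul_mem hβ m

end KummerData

end Fermat.Agent.CFTLocal
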