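import Fermat.Agent.CFT.Local.Frozen
import Fermat.Agent.GW.LocalDuality

/-!
# Nondegeneracy of the cup product `H¹(W, μ_p) × H¹(W, ℤ/p) → H²(W, μ_p)`
-/

set_option autoImplicit false
set_option linter.unusedSectionVars false

namespace Fermat.Agent.CFTLocal

open Fermat.Agent.PT Fermat.Agent.GW

section Abstract

variable {p : ℕ} [Fact p.Prime] {M : Type*} [AddCommGroup M] {ζ : M}
variable {G : Type} [Group G] {𝓛 : LevelSys G} {ρ : Representation ℤ G M}
variable {ρ₁ ρ₂ : Representation (ZMod p) G (ZMod p)}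

lemma carry_eq_root (χ : G →* Multiplicative (ZMod p)) {a r : M} (hr : p • r = a) (g g' : G) :
    carry χ a (g, g') = (cval χ g' : ℕ) • r - (cval χ (g * g') : ℕ) • r + (cval χ g : ℕ) • r := by
  rw [carry_eq_smul, ← hr, ← natCast_zsmul r p, ← mul_smul, ← natCast_zsmul, ← natCast_zsmul,
    ← natCast_zsmul, ← sub_smul, ← add_smul]
  congr 1
  have := cval_add_add_int χ g g'
  rw [mul_comm] at this
  rw [← this]
  ring

namespace KummerData

variable (h : KummerData p 𝓛 ρ ζ) (h₁ : ∀ g x, ρ₁ g x = x) (h₂ : ∀ g x, ρ₂ g x = x)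

include h h₁ h₂

/-- The cup product of two Kummer classes is (minus) the symbol. -/
theorem ztZ2_cup (hd : Discrete 𝓛 ρ₂) (hB : Bilin ρ₁ ρ₂ ρ₁ (smulBil (ZMod p) (ZMod p)))
    (a b : ↥ρ.invariants) :
    H2mk 𝓛 ρ (h.ztZ2 h₁ (cupZ hd (smulBil (ZMod p) (ZMod p)) hB (h.kcZ1 h₁ a) (h.kcZ1 h₂ b)))
      = - h.pair b a := by
  rw [← sub_eq_zero, sub_neg_eq_add, pair_apply]
  unfold symb
  rw [← map_add, H2mk_eq_zero]
  refine ⟨fun g => (cval (h.kc b) g) • h.root a, ?_, fun g g' => ?_⟩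
  · refine ⟨(h.kc b).ker, h.kc_ker_mem b, fun g s hs => ?_⟩
    beta_reduce
    rw [cval_mul_of_mem hs]
  · have e1 : (h.ztZ2 h₁ (cupZ hd (smulBil (ZMod p) (ZMod p)) hB (h.kcZ1 h₁ a)
        (h.kcZ1 h₂ b)) : G × G → M) (g, g')
        = (cval (h.kc b) g' * cval (h.kc a) g) • ζ := by
      rw [ztZ2_apply, cupZ_apply, h₂, smulBil_apply, kcZ1_apply, kcZ1_apply, ← zt_natCast h.zeta]
      congr 1
      rw [smul_eq_mul]
      push_cast
      rw [cval, cval, ZMod.natCast_zmod_val, ZMod.natCast_zmod_val]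
    have e2 : (ρ g) (h.root a) = h.root a + (cval (h.kc a) g) • ζ :=
      h.map_eq_add (h.root a) (h.root_fix a) g
    change (h.ztZ2 h₁ (cupZ hd (smulBil (ZMod p) (ZMod p)) hB (h.kcZ1 h₁ a)
        (h.kcZ1 h₂ b)) : G × G → M) (g, g') + carry (h.kc b) a.1 (g, g') = _
    rw [e1, carry_eq_root (h.kc b) (h.p_root a), map_nsmul, e2, smul_add, mul_smul]
    abel

/-- Nondegeneracy of the cup product. -/
theorem cup_nondeg (hN : NormData p 𝓛 ρ) (hp2 : p ≠ 2) (hd : Discrete 𝓛 ρ₂)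
    (hB : Bilin ρ₁ ρ₂ ρ₁ (smulBil (ZMod p) (ZMod p))) (x : H1 𝓛 ρ₁)
    (hx : ∀ y : H1 𝓛 ρ₂, cup11 hd (smulBil (ZMod p) (ZMod p)) hB x y = 0) : x = 0 := by
  obtain ⟨a, rfl⟩ := h.kappa_surjective h₁ x
  have h0 : h.pair a = 0 := by
    ext b
    have h3 := hx (h.kappa h₂ b)
    rw [kappa_apply, kappa_apply, cup11_mk, ← h.ztZ2_eq_zero_iff h₁, h.ztZ2_cup h₁ h₂,
      ← h.pair_skew hp2] at h3
    exact h3
  have h4 : h.kc a = 1 := (h.pair_eq_zero_iff_kc hN a).mp h0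
  have h5 : a ∈ (h.kappa h₁).ker := by
    rw [h.kappa_ker h₁]
    obtain ⟨β, hβ⟩ := (h.kc_eq_one_iff a).mp h4
    exact ⟨β, hβ⟩
  exact h5

end KummerData

end Abstract

section Local

open Fermat.Agent.PT.Frozen Fermat.Agent.CFT.Kum Fermat.Agent.CFT.Bridge ExtCitation

variable {p : ℕ} [Fact p.Prime] {q : ℕ} [Fact q.Prime]

/-- **Nondegeneracy of the local symbol** over level subgroups fixing `ζ_p`. -/
theorem symbNondeg_local (hp2 : p ≠ 2) {ζ : PadicAlgCl q} (hζ : IsPrimitiveRoot ζ p)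
    {ω : (PadicAlgCl q ≃ₐ[ℚ_[q]] PadicAlgCl q) →* (ZMod p)ˣ}
    (hω : ∀ g : PadicAlgCl q ≃ₐ[ℚ_[q]] PadicAlgCl q, g ζ = ζ ^ (ω g : ZMod p).val)
    {W : Subgroup (PadicAlgCl q ≃ₐ[ℚ_[q]] PadicAlgCl q)} (hW : W ∈ locLevels q)
    (hWζ : ∀ g ∈ W, g ζ = ζ) : SymbNondeg (locLevels q) (chiRep ω) W := by
  obtain ⟨l, hl, rfl, hζl⟩ := exists_field_of_level' hW hWζ
  have hK := kummerData_fixingSubgroup l hζ hζl
  have hN := (normAll_fixingSubgroup l hζ hζl).self
  have hle : l.fixingSubgroup ≤ (cycField ζ).fixingSubgroup :=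
    IntermediateField.fixingSubgroup_antitone (by
      unfold cycField
      rw [IntermediateField.adjoin_le_iff]
      rintro _ rfl
      exact hζl)
  have h₁ : ∀ (g : ↥l.fixingSubgroup) (x : ZMod p),
      ((chiRep ω).comp l.fixingSubgroup.subtype) g x = x := by
    intro g x
    change chiRep ω g.1 x = x
    rw [chiRep_apply, omega_eq_one hζ hω (hle g.2), Units.val_one, one_mul]
  intro χ hχ
  exact hK.cup_nondeg h₁ (fun _ _ => rfl) hN hp2 _ _ χ hχ

/-- The version for the frozen local groups. -/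
theorem symbNondeg_rLevels (hp2 : p ≠ 2) (v : Nat.Primes)
    {W : Subgroup (primeLocalGaloisGroup v)} (hW : W ∈ rLevels (primeLocalToGlobal v))
    (hWω : ∀ g ∈ W, cycloChar p (primeLocalToGlobal v g) = 1) :
    SymbNondeg (rLevels (primeLocalToGlobal v))
      ((chiRep (cycloChar p)).comp (primeLocalToGlobal v)) W := by
  haveI : Fact (v : ℕ).Prime := ⟨v.2⟩
  obtain ⟨ζ, hζ⟩ := exists_primitive p
  have hWL : W ∈ locLevels (v : ℕ) := by
    rw [← rLevels_localGaloisToGlobal]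
    exact hW
  have h := symbNondeg_local (q := (v : ℕ)) hp2 (prim_padicEmbedding hζ) (omegaLoc_spec hζ)
    (W := W) hWL (fun g hg => by
      haveI : Fact (1 < p) := ⟨(Fact.out : p.Prime).one_lt⟩
      have h1 := omegaLoc_spec (q := (v : ℕ)) hζ g
      have h2 : omegaLoc p (v : ℕ) g = 1 := hWω g hg
      rw [h1, h2, Units.val_one, ZMod.val_one, pow_one])
  rw [← rLevels_localGaloisToGlobal] at h
  exact h

end Local

end Fermat.Agent.CFTLocal
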