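import Fermat.Agent.CFT.Local.RightExact
import Fermat.Agent.CFT.Kum.Unram
import Fermat.Agent.PT.CycloChar

/-!
# `H²(ℚ_q, μ_p)`
-/

set_option autoImplicit false
set_option linter.unusedSectionVars false

namespace Fermat.Agent.CFTLocal

open Fermat.Agent.PT

section Tw

variable {p : ℕ} [Fact p.Prime] {M : Type*} [AddCommGroup M] {ζ : M}
variable {G : Type*} [Group G] {𝓛 : LevelSys G} {ρ : Representation ℤ G M}
variable {ω : G →* (ZMod p)ˣ}

/-- Twisted version of `KummerData`: `G` acts on `ζ` through the character `ω`. -/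
structure TwData (p : ℕ) [Fact p.Prime] (𝓛 : LevelSys G) (ρ : Representation ℤ G M) (ζ : M)
    (ω : G →* (ZMod p)ˣ) : Prop where
  disc : Discrete 𝓛 ρ
  div : ∀ m : M, ∃ m' : M, p • m' = m
  tors : ∀ m : M, p • m = 0 → ∃ i : ℕ, m = i • ζ
  zeta : p • ζ = 0
  zeta_ne : ζ ≠ 0
  act : ∀ g, ρ g ζ = ((ω g : ZMod p).val) • ζ
  hilb : ∀ U ∈ 𝓛, H1Van 𝓛 ρ U

namespace TwData

variable (h : TwData p 𝓛 ρ ζ ω)

include h

lemma exists_zt (m : M) (hm : p • m = 0) : ∃ i : ZMod p, zt h.zeta i = m := by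
  obtain ⟨i, rfl⟩ := h.tors m hm
  exact ⟨i, zt_natCast h.zeta i⟩

lemma zt_inj {i j : ZMod p} (hij : zt h.zeta i = zt h.zeta j) : i = j :=
  zt_injective h.zeta h.zeta_ne hij

lemma map_zt (g : G) (i : ZMod p) : ρ g (zt h.zeta i) = zt h.zeta (chiRep ω g i) := by
  have h1 : zt h.zeta (chiRep ω g i) = (chiRep ω g i : ZMod p).val • ζ := zt_apply _ _
  rw [zt_apply, map_nsmul, h.act, chiRep_apply, ← mul_nsmul', ]
  have h2 : zt h.zeta ((ω g : ZMod p) * i) = (i.val * (ω g : ZMod p).val) • ζ := by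
    rw [← zt_natCast h.zeta]
    congr 1
    push_cast
    rw [ZMod.natCast_zmod_val, ZMod.natCast_zmod_val, mul_comm]
  exact h2.symm

/-- The logarithm `M[p] → ZMod p` (junk outside `M[p]`). -/
noncomputable def lg (m : M) : ZMod p :=
  open Classical in if hm : p • m = 0 then (h.exists_zt m hm).choose else 0

lemma zt_lg {m : M} (hm : p • m = 0) : zt h.zeta (h.lg m) = m := by
  rw [lg, dif_pos hm]
  exact (h.exists_zt m hm).choose_spec

/-- `ZMod p`-valued cocycles as `M[p]`-valued cocycles. -/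
noncomputable def ztZ2 : ↥(Z2 𝓛 (chiRep ω)) →+ ↥(Z2 𝓛 ρ) where
  toFun c := ⟨fun q => zt h.zeta (c.1 q), c.2.1.comp _, fun g g' j => by
    rw [← map_add, c.2.2 g g' j, map_add, h.map_zt]⟩
  map_zero' := by
    apply Subtype.ext
    funext q
    exact map_zero _
  map_add' c c' := by
    apply Subtype.ext
    funext q
    exact map_add _ _ _

@[simp] lemma ztZ2_apply (c : ↥(Z2 𝓛 (chiRep ω))) (q : G × G) :
    (h.ztZ2 c : G × G → M) q = zt h.zeta (c.1 q) := rfl

lemma ztZ2_eq_zero_iff (c : ↥(Z2 𝓛 (chiRep ω))) :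
    H2mk 𝓛 ρ (h.ztZ2 c) = 0 ↔ H2mk 𝓛 (chiRep ω) c = 0 := by
  rw [H2mk_eq_zero, H2mk_eq_zero]
  constructor
  · rintro ⟨f, hf, hc⟩
    obtain ⟨m, hm⟩ := h.hilb ⊤ 𝓛.top_mem (fun g => p • f g) ((hf.comp (p • ·)).restrict ⊤) (by
      intro u v
      have h1 := hc u v
      have h2 : p • (h.ztZ2 c : G × G → M) (u, v) = 0 := by
        rw [ztZ2_apply, ← map_nsmul]
        simp
      rw [h1, smul_add, smul_sub, ← map_nsmul] at h2
      change p • f (u * v) = ρ u (p • f v) + p • f u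
      have h3 : ρ u (p • f v) + p • f u - p • f (u * v) = 0 := by
        rw [← h2]; abel
      exact (sub_eq_zero.mp h3).symm)
    obtain ⟨m', rfl⟩ := h.div m
    have hpf : ∀ g, p • (f g - (ρ g m' - m')) = 0 := by
      intro g
      have h4 := hm ⟨g, trivial⟩
      simp only at h4
      rw [smul_sub, h4, smul_sub, map_nsmul, sub_self]
    refine ⟨fun g => h.lg (f g - (ρ g m' - m')), ?_, fun g g' => ?_⟩
    · exact (((hf.prodMk (LC1.d01 h.disc m')).comp (fun q => q.1 - q.2))).comp h.lg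
    · apply h.zt_inj
      rw [map_add, map_sub, ← h.map_zt, h.zt_lg (hpf _), h.zt_lg (hpf _), h.zt_lg (hpf _)]
      have h5 := hc g g'
      rw [ztZ2_apply] at h5
      rw [h5]
      simp only [map_sub, map_mul, Module.End.mul_apply]
      abel
  · rintro ⟨e, he, hc⟩
    refine ⟨fun g => zt h.zeta (e g), he.comp _, fun g g' => ?_⟩
    rw [ztZ2_apply, hc, map_add, map_sub, h.map_zt]

lemma exists_ztZ2 (α : H2 𝓛 ρ) (hα : p • α = 0) : ∃ c, H2mk 𝓛 ρ (h.ztZ2 c) = α := by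
  obtain ⟨c, rfl⟩ := H2mk_surjective α
  rw [← map_nsmul, H2mk_eq_zero] at hα
  obtain ⟨f, hf, hc⟩ := hα
  choose dv hdv using h.div
  set c' : ↥(Z2 𝓛 ρ) := c - ⟨d12 ρ (fun g => dv (f g)), d12_mem_Z2 h.disc (hf.comp dv)⟩ with hc'
  have hpc : ∀ q, p • c'.1 q = 0 := by
    rintro ⟨g, g'⟩
    have h1 : p • c.1 (g, g') = ρ g (f g') - f (g * g') + f g := hc g g'
    change p • (c.1 (g, g') - d12 ρ (fun g => dv (f g)) (g, g')) = 0
    rw [smul_sub, h1, d12_apply, smul_add, smul_sub, ← map_nsmul, hdv, hdv, hdv, sub_self]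
  have hmem : (fun q => h.lg (c'.1 q)) ∈ Z2 𝓛 (chiRep ω) := by
    refine ⟨c'.2.1.comp _, fun g g' j => ?_⟩
    apply h.zt_inj
    have h2 := c'.2.2 g g' j
    rw [map_add, map_add, ← h.map_zt, h.zt_lg (hpc _), h.zt_lg (hpc _), h.zt_lg (hpc _),
      h.zt_lg (hpc _), h2]
  refine ⟨⟨fun q => h.lg (c'.1 q), hmem⟩, ?_⟩
  have h3 : h.ztZ2 ⟨fun q => h.lg (c'.1 q), hmem⟩ = c' := by
    apply Subtype.ext
    funext q
    exact h.zt_lg (hpc q)
  rw [h3, hc', map_sub, sub_eq_self, H2mk_eq_zero]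
  exact ⟨_, hf.comp dv, fun g g' => rfl⟩

/-- Nonvanishing of `H²(G, ω)` from a symbol which is not a norm. -/
theorem exists_ne_zero {χ : G →* Multiplicative (ZMod p)} (hχ : χ.ker ∈ 𝓛) {s : G}
    (hs : χ s = Multiplicative.ofAdd 1) (hn : (nrm ρ χ s).index ≠ 1) :
    ∃ x : H2 𝓛 (chiRep ω), x ≠ 0 := by
  obtain ⟨a, ha⟩ : ∃ a, a ∉ nrm ρ χ s := by
    by_contra hcon
    push Not at hcon
    exact hn (AddSubgroup.index_eq_one.mpr (by rw [eq_top_iff]; exact fun a _ => hcon a))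
  have hv : H1Van 𝓛 ρ χ.ker := h.hilb _ hχ
  have h1 : symb ρ χ hχ a ≠ 0 := fun h0 => ha ((symb_eq_zero_iff hχ hv hs a).mp h0)
  have h2 : ∀ m : ℕ, symb ρ χ hχ (m • a) = m • symb ρ χ hχ a := by
    intro m
    induction m with
    | zero =>
      rw [zero_smul, zero_smul]
      have := symb_add (ρ := ρ) χ hχ 0 0
      rw [add_zero] at this
      exact left_eq_add.mp this
    | succ m ih => rw [succ_nsmul, symb_add, ih, succ_nsmul]
  have h3 : p • symb ρ χ hχ a = 0 := by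
    rw [← h2, symb_eq_zero_iff hχ hv hs]
    refine ⟨a.1, fun u _ => a.2 u, ?_⟩
    unfold pnorm
    rw [Finset.sum_congr rfl (fun i _ => a.2 (s ^ i)), Finset.sum_const, Finset.card_range]
    rfl
  obtain ⟨c, hc⟩ := h.exists_ztZ2 _ h3
  refine ⟨H2mk 𝓛 (chiRep ω) c, fun h0 => h1 ?_⟩
  rw [← hc]
  exact (h.ztZ2_eq_zero_iff c).mpr h0

end TwData

end Tw

section Char

variable {p : ℕ} [Fact p.Prime]

/-- A finite abelian quotient of order divisible by `p` has a quotient of order `p`. -/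
lemma exists_char_of_comm {G : Type*} [Group G] (V : Subgroup G) [V.Normal] (h0 : V.index ≠ 0)
    (hc : ∀ x y : G, (x * y)⁻¹ * (y * x) ∈ V) (hp : p ∣ V.index) :
    ∃ χ : G →* Multiplicative (ZMod p), χ ≠ 1 ∧ V ≤ χ.ker := by
  classical
  have hpp : p.Prime := Fact.out
  haveI : Finite (G ⧸ V) := Nat.finite_of_card_ne_zero (by rwa [← Subgroup.index_eq_card])
  letI : CommGroup (G ⧸ V) :=
    { (inferInstance : Group (G ⧸ V)) with
      mul_comm := by
        intro a b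
        obtain ⟨x, rfl⟩ := QuotientGroup.mk_surjective a
        obtain ⟨y, rfl⟩ := QuotientGroup.mk_surjective b
        rw [← QuotientGroup.mk_mul, ← QuotientGroup.mk_mul, QuotientGroup.eq]
        exact hc x y }
  set R : Subgroup (G ⧸ V) := (powMonoidHom p : (G ⧸ V) →* (G ⧸ V)).range with hR
  have hRtop : R ≠ ⊤ := by
    intro hcon
    have hs : Function.Surjective (powMonoidHom p : (G ⧸ V) →* (G ⧸ V)) :=
      MonoidHom.range_eq_top.mp hcon
    have hi := Finite.injective_iff_surjective.mpr hs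
    obtain ⟨x, hx⟩ := exists_prime_orderOf_dvd_card' (G := G ⧸ V) p
      (by rwa [← Subgroup.index_eq_card])
    have h1 : powMonoidHom p x = powMonoidHom p 1 := by
      rw [powMonoidHom_apply, powMonoidHom_apply, one_pow, ← hx, pow_orderOf_eq_one]
    have h2 := hi h1
    rw [h2, orderOf_one] at hx
    exact hpp.one_lt.ne hx
  have hpg : IsPGroup p ((G ⧸ V) ⧸ R) := by
    intro x
    obtain ⟨y, rfl⟩ := QuotientGroup.mk_surjective x
    refine ⟨1, ?_⟩
    rw [pow_one, ← QuotientGroup.mk_pow, QuotientGroup.eq_one_iff]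
    exact ⟨y, rfl⟩
  obtain ⟨n, hn⟩ := IsPGroup.iff_card.mp hpg
  rw [← Subgroup.index_eq_card] at hn
  have hn0 : n ≠ 0 := by
    rintro rfl
    rw [pow_zero, Subgroup.index_eq_one] at hn
    exact hRtop hn
  obtain ⟨m, rfl⟩ := Nat.exists_eq_succ_of_ne_zero hn0
  have hidx : (R.comap (QuotientGroup.mk' V)).index = p ^ (m + 1) := by
    rw [Subgroup.index_comap_of_surjective _ (QuotientGroup.mk'_surjective V), hn]
  obtain ⟨χ, hχ, hker⟩ := exists_char_of_index (p := p) (R.comap (QuotientGroup.mk' V)) hidx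
  refine ⟨χ, hχ, le_trans ?_ hker⟩
  intro v hv
  rw [Subgroup.mem_comap]
  have : QuotientGroup.mk' V v = 1 := (QuotientGroup.eq_one_iff (N := V) v).mpr hv
  rw [this]
  exact one_mem _

end Char

section Local

open Fermat.Agent.CFT.Kum Fermat.Agent.CFT.Bridge

variable {p : ℕ} [Fact p.Prime] {q : ℕ} [Fact q.Prime]

theorem twData_gal {k Ω : Type*} [Field k] [Field Ω] [Algebra k Ω] [IsGalois k Ω]
    [IsAlgClosed Ω] {ζ : Ωˣ} (hζ : IsPrimitiveRoot ζ p) (ω : (Ω ≃ₐ[k] Ω) →* (ZMod p)ˣ)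
    (hω : ∀ g : Ω ≃ₐ[k] Ω, g (ζ : Ω) = (ζ : Ω) ^ (ω g : ZMod p).val) :
    TwData p (galLevels k Ω) (unitsRep (Ω ≃ₐ[k] Ω) Ω) (Additive.ofMul ζ) ω where
  disc := (fieldLevel_galLevels k Ω).discrete
  div := fun m => by
    obtain ⟨y, hy⟩ := IsAlgClosed.exists_pow_nat_eq ((m.toMul : Ωˣ) : Ω)
      (Fact.out : p.Prime).pos
    have hy0 : y ≠ 0 := by
      rintro rfl
      rw [zero_pow (Fact.out : p.Prime).ne_zero] at hy
      exact m.toMul.ne_zero hy.symm
    exact ⟨Additive.ofMul (Units.mk0 y hy0), congrArg Additive.ofMul (Units.ext hy)⟩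
  tors := fun m hm => by
    haveI : NeZero p := ⟨(Fact.out : p.Prime).ne_zero⟩
    have h1 : m.toMul ^ p = 1 := hm
    have hζ' : IsPrimitiveRoot (ζ : Ω) p := IsPrimitiveRoot.coe_units_iff.mpr hζ
    obtain ⟨i, -, hi⟩ := hζ'.eq_pow_of_pow_eq_one (ξ := ((m.toMul : Ωˣ) : Ω))
      (by rw [← Units.val_pow_eq_pow_val, h1, Units.val_one])
    exact ⟨i, congrArg Additive.ofMul (Units.ext hi.symm)⟩
  zeta := congrArg Additive.ofMul hζ.pow_eq_one
  zeta_ne := by
    intro h0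
    have h1 : ζ = 1 := h0
    exact hζ.ne_one (Fact.out : p.Prime).one_lt h1
  act := fun g => by
    apply Additive.toMul.injective
    apply Units.ext
    exact hω g
  hilb := fun U _ => h1van_units (fieldLevel_galLevels k Ω) U

lemma rootsFix_comm (N : ℕ) (hN : N ≠ 0) (x y : GQb) : (x * y)⁻¹ * (y * x) ∈ rootsFix N := by
  haveI : NeZero (N : Qb) := ⟨Nat.cast_ne_zero.2 hN⟩
  haveI : NeZero N := ⟨hN⟩
  obtain ⟨ζ, hζ⟩ : ∃ ζ : Qb, IsPrimitiveRoot ζ N := HasEnoughRootsOfUnity.exists_primitiveRoot _ _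
  have key : ∀ g : GQb, ∃ i : ℕ, g ζ = ζ ^ i := by
    intro g
    have h1 : (g ζ) ^ N = 1 := by rw [← map_pow, hζ.pow_eq_one, map_one]
    obtain ⟨i, -, hi⟩ := hζ.eq_pow_of_pow_eq_one h1
    exact ⟨i, hi.symm⟩
  obtain ⟨a, ha⟩ := key x
  obtain ⟨b, hb⟩ := key y
  intro z hz
  obtain ⟨i, -, rfl⟩ := hζ.eq_pow_of_pow_eq_one hz
  have h1 : (y * x) ζ = (x * y) ζ := by
    change y (x ζ) = x (y ζ)
    rw [ha, hb, map_pow, map_pow, ha, hb, ← pow_mul, ← pow_mul, mul_comm]
  rw [map_pow]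
  congr 1
  change (x * y)⁻¹ ((y * x) ζ) = ζ
  rw [h1]
  exact (x * y).symm_apply_apply ζ

/-- There is a surjective (unramified) character `G_q → ℤ/p`. -/
theorem exists_char_local (p q : ℕ) [Fact p.Prime] [Fact q.Prime] :
    ∃ χ : (PadicAlgCl q ≃ₐ[ℚ_[q]] PadicAlgCl q) →* Multiplicative (ZMod p),
      χ.ker ∈ locLevels q ∧ ∃ s, χ s = Multiplicative.ofAdd 1 := by
  have hq : q.Prime := Fact.out
  have hp : p.Prime := Fact.out
  set N := q ^ p - 1 with hN
  have h1n : 1 < q ^ p := Nat.one_lt_pow hp.ne_zero hq.one_lt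
  have hN0 : N ≠ 0 := by omega
  set J := localGaloisToGlobal q with hJ
  set V := (rootsFix N).comap J with hV
  have hVl : V ∈ locLevels q := by
    have h1 : V ∈ (galLevels ℚ (AlgebraicClosure ℚ)).comap (localGaloisToGlobal q) :=
      ⟨rootsFix N, rootsFix_mem hN0, le_rfl⟩
    rwa [comap_localGaloisToGlobal_galLevels] at h1
  haveI : V.Normal := by rw [hV]; infer_instance
  have hidx : V.index ≠ 0 := (LevelSys.finiteIndex hVl).index_ne_zero
  have hdvd : p ∣ V.index := by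
    obtain ⟨φ, hφ⟩ := Fermat.Agent.Frob.exists_isFrobeniusAt hq (padicPlace_liesOverPrime q)
    have hφD := hφ.mem_decompositionSubgroup
    rw [← range_localGaloisToGlobal] at hφD
    obtain ⟨τ, hτ⟩ := hφD
    have h1 := dvd_orderOf hq hN hp.ne_zero (padicPlace_liesOverPrime q) hφ
    refine h1.trans ?_
    rw [Subgroup.index_eq_card]
    refine dvd_trans ?_ (orderOf_dvd_natCard (QuotientGroup.mk' V τ))
    rw [orderOf_dvd_iff_pow_eq_one, ← map_pow, QuotientGroup.mk'_apply, QuotientGroup.eq_one_iff]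
    have h2 : QuotientGroup.mk' V (τ ^ orderOf (QuotientGroup.mk' V τ)) = 1 := by
      rw [map_pow, pow_orderOf_eq_one]
    rw [QuotientGroup.mk'_apply, QuotientGroup.eq_one_iff] at h2
    have h3 : J (τ ^ orderOf (QuotientGroup.mk' V τ)) ∈ rootsFix N := h2
    rwa [map_pow, hJ, hτ] at h3
  obtain ⟨χ, hχ, hker⟩ := exists_char_of_comm (p := p) V hidx (fun x y => by
    rw [hV, Subgroup.mem_comap]
    simp only [map_mul, map_inv]
    have := rootsFix_comm N hN0 (J x) (J y)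
    simpa using this) hdvd
  exact ⟨χ, LevelSys.mono hVl hker, exists_eq_ofAdd_one hχ⟩

/-- Restriction to a level subgroup of index prime to `p` is injective on `H²`. -/
lemma res2_injective_of_coprime {G : Type*} [Group G] {𝓛 : LevelSys G} {M : Type*}
    [AddCommGroup M] [Module (ZMod p) M] (ρ : Representation (ZMod p) G M) {U : Subgroup G}
    (hU : U ∈ 𝓛) (hc : Nat.Coprime U.index p) :
    Function.Injective
      (res2 (𝓛' := 𝓛.restrict U) U.subtype (LevelSys.compat_comap _) ρ) := by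
  rw [injective_iff_map_eq_zero]
  intro x hx
  have h1 := index_smul_eq_zero hU x hx
  rw [← Nat.cast_smul_eq_nsmul (ZMod p)] at h1
  have h2 : (U.index : ZMod p) ≠ 0 := by
    intro h0
    have h3 := (ZMod.natCast_eq_zero_iff _ _).mp h0
    exact ((Nat.Prime.coprime_iff_not_dvd (Fact.out : p.Prime)).mp hc.symm) h3
  exact (smul_eq_zero.mp h1).resolve_left h2

section Omega

variable {ζ : PadicAlgCl q} (hζ : IsPrimitiveRoot ζ p)
  {ω : (PadicAlgCl q ≃ₐ[ℚ_[q]] PadicAlgCl q) →* (ZMod p)ˣ}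
  (hω : ∀ g : PadicAlgCl q ≃ₐ[ℚ_[q]] PadicAlgCl q, g ζ = ζ ^ (ω g : ZMod p).val)

include hζ hω

lemma omega_eq_one {g : PadicAlgCl q ≃ₐ[ℚ_[q]] PadicAlgCl q}
    (hg : g ∈ (cycField ζ).fixingSubgroup) : ω g = 1 := by
  have hp : p.Prime := Fact.out
  haveI : Fact (1 < p) := ⟨hp.one_lt⟩
  have h1 : g ζ = ζ := (IntermediateField.mem_fixingSubgroup_iff _ g).mp hg ζ (mem_cycField ζ)
  have h2 := hω g
  rw [h1] at h2
  have h3 : ((ω g : (ZMod p)ˣ) : ZMod p).val = 1 :=
    hζ.pow_inj (ZMod.val_lt _) hp.one_lt (by rw [← h2, pow_one])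
  apply Units.ext
  rw [Units.val_one]
  apply ZMod.val_injective
  rw [h3, ZMod.val_one]

/-- `H²(ℚ_q, μ_p) ≠ 0`. -/
theorem exists_H2_omega_ne_zero : ∃ x : H2 (locLevels q) (chiRep ω), x ≠ 0 := by
  obtain ⟨χ, hχ, s, hs⟩ := exists_char_local p q
  have hp0 : ζ ≠ 0 := hζ.ne_zero (Fact.out : p.Prime).ne_zero
  have hprim : IsPrimitiveRoot (Units.mk0 ζ hp0) p := IsPrimitiveRoot.coe_units_iff.mp hζ
  refine (twData_gal hprim ω hω).exists_ne_zero hχ hs ?_
  rw [index_nrm_gal χ hχ hs]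
  haveI := fixedField_finite_of_mem hχ
  haveI := isGalois_fixedField_ker χ hχ
  rw [norm_index_local q ℚ_[q] (IntermediateField.fixedField χ.ker) p Fact.out
    (finrank_fixedField_ker χ hχ hs)]
  exact (Fact.out : p.Prime).one_lt.ne'

/-- restriction of `H²(G_q, μ_p)` to `ℚ_q(ζ_p)` -/
lemma comp_subtype_omega (g : ↥(cycField ζ).fixingSubgroup) (x : ZMod p) :
    ((chiRep ω).comp (cycField ζ).fixingSubgroup.subtype) g x = x := by
  change chiRep ω g.1 x = x
  rw [chiRep_apply, omega_eq_one hζ hω g.2, Units.val_one, one_mul]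

omit hω in
theorem res2_omega_injective (ω : (PadicAlgCl q ≃ₐ[ℚ_[q]] PadicAlgCl q) →* (ZMod p)ˣ) :
    Function.Injective
    (res2 (𝓛' := (locLevels q).restrict (cycField ζ).fixingSubgroup)
      (cycField ζ).fixingSubgroup.subtype (LevelSys.compat_comap _) (chiRep ω)) :=
  res2_injective_of_coprime (chiRep ω) (fixingSubgroup_mem_galLevels _)
    (coprime_index_cycField hζ)

lemma finrank_H2_res_omega (hp2 : p ≠ 2) : Module.finrank (ZMod p)
    (H2 ((locLevels q).restrict (cycField ζ).fixingSubgroup)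
      ((chiRep ω).comp (cycField ζ).fixingSubgroup.subtype)) = 1 :=
  finrank_H2_level hζ (fixingSubgroup_mem_galLevels _)
    (fun g hg => (IntermediateField.mem_fixingSubgroup_iff _ g).mp hg ζ (mem_cycField ζ)) hp2 _
    (comp_subtype_omega hζ hω)

/-- **`H²(ℚ_q, μ_p)` is one-dimensional.** -/
theorem finrank_H2_omega (hp2 : p ≠ 2) :
    Module.finrank (ZMod p) (H2 (locLevels q) (chiRep ω)) = 1 := by
  haveI : Module.Finite (ZMod p) (H2 ((locLevels q).restrict (cycField ζ).fixingSubgroup)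
      ((chiRep ω).comp (cycField ζ).fixingSubgroup.subtype)) :=
    Module.finite_of_finrank_pos (by rw [finrank_H2_res_omega hζ hω hp2]; exact one_pos)
  haveI : Module.Finite (ZMod p) (H2 (locLevels q) (chiRep ω)) :=
    Module.Finite.of_injective _ (res2_omega_injective hζ ω)
  have h1 := LinearMap.finrank_le_finrank_of_injective (res2_omega_injective hζ ω)
  rw [finrank_H2_res_omega hζ hω hp2] at h1
  obtain ⟨x, hx⟩ := exists_H2_omega_ne_zero hζ hω
  have h2 : 0 < Module.finrank (ZMod p) (H2 (locLevels q) (chiRep ω)) :=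
    Module.finrank_pos_iff_exists_ne_zero.mpr ⟨x, hx⟩
  omega

theorem finite_H2_omega (hp2 : p ≠ 2) :
    Module.Finite (ZMod p) (H2 (locLevels q) (chiRep ω)) :=
  Module.finite_of_finrank_pos (by rw [finrank_H2_omega hζ hω hp2]; exact one_pos)

/-- The restriction `H²(ℚ_q, μ_p) → H²(ℚ_q(ζ_p), μ_p)` is an isomorphism. -/
theorem res2_omega_bijective (hp2 : p ≠ 2) :
    Function.Bijective
    (res2 (𝓛' := (locLevels q).restrict (cycField ζ).fixingSubgroup)
      (cycField ζ).fixingSubgroup.subtype (LevelSys.compat_comap _) (chiRep ω)) := by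
  refine ⟨res2_omega_injective hζ ω, ?_⟩
  haveI : Module.Finite (ZMod p) (H2 ((locLevels q).restrict (cycField ζ).fixingSubgroup)
      ((chiRep ω).comp (cycField ζ).fixingSubgroup.subtype)) :=
    Module.finite_of_finrank_pos (by rw [finrank_H2_res_omega hζ hω hp2]; exact one_pos)
  haveI := finite_H2_omega hζ hω hp2
  rw [← LinearMap.range_eq_top]
  apply Submodule.eq_top_of_finrank_eq
  rw [LinearMap.finrank_range_of_inj (res2_omega_injective hζ ω), finrank_H2_omega hζ hω hp2,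
    finrank_H2_res_omega hζ hω hp2]

end Omega

end Local

end Fermat.Agent.CFTLocal
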