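import Mathlib

/-!
# Indices of `p`-th powers and finite index subgroups
-/

namespace Fermat.Agent.CFTLocal

open Subgroup

/-- For a finite index subgroup `B` of a commutative group `A`, the "Herbrand quotient" of the
`n`-th power map is the same for `A` and `B`:
`[A : A^n] * |B[n]| = |A[n]| * [B : B^n]`. -/
theorem index_pow_mul_card_ker {A : Type*} [CommGroup A] (n : ℕ) (B : Subgroup A)
    (hB : B.index ≠ 0) [Finite (powMonoidHom n : A →* A).ker] :
    (powMonoidHom n : A →* A).range.index * Nat.card ((powMonoidHom n : B →* B).ker) =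
      Nat.card ((powMonoidHom n : A →* A).ker) * (powMonoidHom n : B →* B).range.index := by
  set f : A →* A := powMonoidHom n with hf
  have h1 : (B.map f).index = (B ⊔ f.ker).index * f.range.index := Subgroup.index_map B f
  have hle : B.map f ≤ B := by
    rintro _ ⟨b, hb, rfl⟩
    exact B.pow_mem hb n
  have h2 : (B.map f).relIndex B * B.index = (B.map f).index := Subgroup.relIndex_mul_index hle
  have h3 : B.relIndex (B ⊔ f.ker) * (B ⊔ f.ker).index = B.index :=
    Subgroup.relIndex_mul_index le_sup_left
  have h4 : B.relIndex (B ⊔ f.ker) = B.relIndex f.ker := by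
    exact (Subgroup.relIndex_sup_left f.ker B)
  -- `|ker f| = [ker f : B ⊓ ker f] * |B ⊓ ker f|`
  have h5 : Nat.card (B ⊓ f.ker : Subgroup A) * B.relIndex f.ker = Nat.card f.ker := by
    have := Subgroup.card_mul_index (B.subgroupOf f.ker)
    rw [← this]
    congr 1
    rw [← Subgroup.inf_subgroupOf_right]
    exact Nat.card_congr (Subgroup.subgroupOfEquivOfLe inf_le_right).toEquiv.symm
  have h6 : Nat.card ((powMonoidHom n : B →* B).ker) = Nat.card (B ⊓ f.ker : Subgroup A) := by
    refine Nat.card_congr
      { toFun := fun x => ⟨x.1.1, x.1.2, ?_⟩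
        invFun := fun x => ⟨⟨x.1, x.2.1⟩, ?_⟩
        left_inv := fun x => rfl
        right_inv := fun x => rfl }
    · have := x.2
      rw [MonoidHom.mem_ker] at this
      exact congrArg Subtype.val this
    · exact Subtype.ext x.2.2
  have h7 : (powMonoidHom n : B →* B).range.index = (B.map f).relIndex B := by
    rw [Subgroup.relIndex]
    congr 1
    ext x
    constructor
    · rintro ⟨y, rfl⟩
      rw [Subgroup.mem_subgroupOf]
      exact ⟨y.1, y.2, rfl⟩
    · intro hx
      rw [Subgroup.mem_subgroupOf] at hx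
      obtain ⟨y, hy, hyx⟩ := hx
      exact ⟨⟨y, hy⟩, Subtype.ext hyx⟩
  have hH : (B ⊔ f.ker).index ≠ 0 := by
    intro h; rw [h, mul_zero] at h3; exact hB h3.symm
  have hK : Nat.card f.ker ≠ 0 := Nat.card_pos.ne'
  have hKB : Nat.card (B ⊓ f.ker : Subgroup A) ≠ 0 := by
    intro h; rw [h, zero_mul] at h5; exact hK h5.symm
  rw [h6, h7]
  -- `(B ⊔ K).index * range.index = relIndex * B.index`
  have e1 : (B ⊔ f.ker).index * f.range.index = (B.map f).relIndex B * B.index := by
    rw [← h1, h2]
  rw [← h3, h4] at e1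
  have e2 : f.range.index = (B.map f).relIndex B * B.relIndex f.ker := by
    apply Nat.eq_of_mul_eq_mul_left (Nat.pos_of_ne_zero hH)
    rw [e1]; ring
  rw [e2, ← h5]; ring

end Fermat.Agent.CFTLocal
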