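import Fermat.Agent.CFT.Local.Final
import Fermat.Agent.PT.RightExact
import Fermat.Agent.PT.Setting

/-!
# Right exactness of `H²` for the absolute Galois group of `ℚ_q`
-/

set_option autoImplicit false

namespace Fermat.Agent.CFTLocal

open Fermat.Agent.PT Fermat.Agent.CFT.Kum Fermat.Agent.CFT.Bridge

variable {p : ℕ} [Fact p.Prime] {q : ℕ} [Fact q.Prime]

/-- shorthand for the level system of the absolute Galois group of `ℚ_q` -/
noncomputable abbrev locLevels (q : ℕ) [Fact q.Prime] : LevelSys (PadicAlgCl q ≃ₐ[ℚ_[q]] PadicAlgCl q) :=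
  galLevels ℚ_[q] (PadicAlgCl q)

/-- The local "degree" entering the Euler characteristic. -/
noncomputable def locDeg (p q : ℕ) [Fact q.Prime]
    (U : Subgroup (PadicAlgCl q ≃ₐ[ℚ_[q]] PadicAlgCl q)) : ℕ :=
  if p = q then U.index else 0

lemma exists_field_of_level {U : Subgroup (PadicAlgCl q ≃ₐ[ℚ_[q]] PadicAlgCl q)}
    (hU : U ∈ locLevels q) : ∃ l : IntermediateField ℚ_[q] (PadicAlgCl q),
      FiniteDimensional ℚ_[q] l ∧ l.fixingSubgroup = U :=
  ⟨IntermediateField.fixedField U, fixedField_finite_of_mem hU, fixingSubgroup_fixedField_of_mem hU⟩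

section Level

variable {ζ : PadicAlgCl q} (hζ : IsPrimitiveRoot ζ p)
  {U : Subgroup (PadicAlgCl q ≃ₐ[ℚ_[q]] PadicAlgCl q)} (hU : U ∈ locLevels q)
  (hUζ : ∀ g ∈ U, g ζ = ζ)

include hU hUζ in
omit [Fact p.Prime] in
lemma exists_field_of_level' : ∃ l : IntermediateField ℚ_[q] (PadicAlgCl q),
      FiniteDimensional ℚ_[q] l ∧ l.fixingSubgroup = U ∧ ζ ∈ l := by
  refine ⟨IntermediateField.fixedField U, fixedField_finite_of_mem hU,
    fixingSubgroup_fixedField_of_mem hU, fun g => hUζ g g.2⟩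

include hζ hU hUζ

theorem finrank_H2_level (hp2 : p ≠ 2) (ρ₀ : Representation (ZMod p) U (ZMod p))
    (h₀ : ∀ g x, ρ₀ g x = x) :
    Module.finrank (ZMod p) (H2 ((locLevels q).restrict U) ρ₀) = 1 := by
  obtain ⟨l, hl, rfl, hζl⟩ := exists_field_of_level' hU hUζ
  exact finrank_H2_local hp2 l hζ hζl ρ₀ h₀

theorem finrank_H1_level (ρ₀ : Representation (ZMod p) U (ZMod p)) (h₀ : ∀ g x, ρ₀ g x = x) :
    Module.finrank (ZMod p) (H1 ((locLevels q).restrict U) ρ₀) = 2 + locDeg p q U := by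
  obtain ⟨l, hl, rfl, hζl⟩ := exists_field_of_level' hU hUζ
  rw [finrank_H1_local l hζ hζl ρ₀ h₀, locDeg, IntermediateField.finrank_eq_fixingSubgroup_index]

theorem finite_H1_level (ρ₀ : Representation (ZMod p) U (ZMod p)) (h₀ : ∀ g x, ρ₀ g x = x) :
    Module.Finite (ZMod p) (H1 ((locLevels q).restrict U) ρ₀) := by
  refine Module.finite_of_finrank_pos ?_
  rw [finrank_H1_level hζ hU hUζ ρ₀ h₀]
  omega

theorem finite_H2_level (hp2 : p ≠ 2) (ρ₀ : Representation (ZMod p) U (ZMod p))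
    (h₀ : ∀ g x, ρ₀ g x = x) : Module.Finite (ZMod p) (H2 ((locLevels q).restrict U) ρ₀) := by
  refine Module.finite_of_finrank_pos ?_
  rw [finrank_H2_level hζ hU hUζ hp2 ρ₀ h₀]
  exact one_pos

theorem hfin_level (hp2 : p ≠ 2) (ρ₀ : Representation (ZMod p) U (ZMod p))
    (h₀ : ∀ g x, ρ₀ g x = x) : HFin ((locLevels q).restrict U) ρ₀ where
  h0 := inferInstance
  h1 := finite_H1_level hζ hU hUζ ρ₀ h₀
  h2 := finite_H2_level hζ hU hUζ hp2 ρ₀ h₀

theorem chi_level (hp2 : p ≠ 2) (ρ₀ : Representation (ZMod p) U (ZMod p))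
    (h₀ : ∀ g x, ρ₀ g x = x) : chi ((locLevels q).restrict U) ρ₀ = - (locDeg p q U : ℤ) := by
  have h0 : Module.finrank (ZMod p) ρ₀.invariants = 1 := by
    have : ρ₀.invariants = ⊤ := by
      rw [eq_top_iff]
      intro x _ g
      exact h₀ g x
    rw [this, finrank_top, Module.finrank_self]
  rw [chi, h0, finrank_H1_level hζ hU hUζ ρ₀ h₀, finrank_H2_level hζ hU hUζ hp2 ρ₀ h₀]
  push_cast
  ring

end Level

omit [Fact p.Prime] in
lemma locDeg_relIndex {U V : Subgroup (PadicAlgCl q ≃ₐ[ℚ_[q]] PadicAlgCl q)} (hVU : V ≤ U) :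
    locDeg p q V = V.relIndex U * locDeg p q U := by
  unfold locDeg
  split_ifs
  · exact (Subgroup.relIndex_mul_index hVU).symm
  · rw [mul_zero]

/-- the field `ℚ_q(ζ_p)` -/
noncomputable def cycField (ζ : PadicAlgCl q) : IntermediateField ℚ_[q] (PadicAlgCl q) :=
  IntermediateField.adjoin ℚ_[q] {ζ}

section Cyc

variable {ζ : PadicAlgCl q} (hζ : IsPrimitiveRoot ζ p)

instance finite_cycField (ζ : PadicAlgCl q) : FiniteDimensional ℚ_[q] (cycField ζ) :=
  IntermediateField.adjoin.finiteDimensional (Algebra.IsIntegral.isIntegral ζ)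

lemma mem_cycField (ζ : PadicAlgCl q) : ζ ∈ cycField ζ :=
  IntermediateField.mem_adjoin_simple_self _ ζ

include hζ

lemma isCyclotomic_cycField : IsCyclotomicExtension {p} ℚ_[q] (cycField ζ) :=
  hζ.intermediateField_adjoin_isCyclotomicExtension ℚ_[q]

lemma normal_fixingSubgroup_cycField : (cycField ζ).fixingSubgroup.Normal := by
  haveI := isCyclotomic_cycField hζ
  haveI : IsGalois ℚ_[q] (cycField ζ) := IsCyclotomicExtension.isGalois {p} ℚ_[q] (cycField ζ)
  infer_instance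

lemma coprime_index_cycField : Nat.Coprime (cycField ζ).fixingSubgroup.index p := by
  haveI := isCyclotomic_cycField hζ
  haveI : IsGalois ℚ_[q] (cycField ζ) := IsCyclotomicExtension.isGalois {p} ℚ_[q] (cycField ζ)
  have hp : p.Prime := Fact.out
  haveI : NeZero p := ⟨hp.ne_zero⟩
  rw [← IntermediateField.finrank_eq_fixingSubgroup_index]
  -- the degree divides `p - 1`
  have hz : IsPrimitiveRoot (⟨ζ, mem_cycField ζ⟩ : cycField ζ) p :=
    IsPrimitiveRoot.of_map_of_injective (f := (cycField ζ).val) hζ (cycField ζ).val.injective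
  have hinj := hz.autToPow_injective ℚ_[q]
  have hcard : Nat.card (cycField ζ ≃ₐ[ℚ_[q]] cycField ζ) ∣ Nat.card (ZMod p)ˣ :=
    Subgroup.card_dvd_of_injective _ hinj
  rw [IsGalois.card_aut_eq_finrank, Nat.card_eq_fintype_card, ZMod.card_units] at hcard
  have hlt : Module.finrank ℚ_[q] (cycField ζ) < p := by
    have h1 := Nat.le_of_dvd (by have := hp.two_le; omega) hcard
    have := hp.two_le
    omega
  exact ((Nat.Prime.coprime_iff_not_dvd hp).mpr (fun h => absurd (Nat.le_of_dvd Module.finrank_pos h) (not_le.mpr hlt))).symm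

end Cyc

lemma exists_primitiveRoot (p q : ℕ) [Fact p.Prime] [Fact q.Prime] :
    ∃ ζ : PadicAlgCl q, IsPrimitiveRoot ζ p := by
  haveI : NeZero ((p : ℕ) : PadicAlgCl q) :=
    ⟨by exact_mod_cast (Fact.out : p.Prime).ne_zero⟩
  exact HasEnoughRootsOfUnity.exists_primitiveRoot (PadicAlgCl q) p

/-- **Right exactness of `H²`** for the absolute Galois group of `ℚ_q`. -/
theorem rightExact_local (hp2 : p ≠ 2) : PlaceData.RightExact (ZMod p) (locLevels q) := by
  intro M N _ _ _ _ _ ρ σ f hf hd hfs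
  obtain ⟨ζ, hζ⟩ := exists_primitiveRoot p q
  haveI := normal_fixingSubgroup_cycField hζ
  have hfix : ∀ g ∈ (cycField ζ).fixingSubgroup, g ζ = ζ := fun g hg =>
    (IntermediateField.mem_fixingSubgroup_iff _ g).mp hg ζ (mem_cycField ζ)
  refine rightExact (cycField ζ).fixingSubgroup (fixingSubgroup_mem_galLevels _)
    (coprime_index_cycField hζ) (trivRep (ZMod p) _) (fun _ _ _ => rfl) ?_ ?_ ρ hd σ f hf hfs
  · intro U hU hUG
    exact hfin_level hζ hU (fun g hg => hfix g (hUG hg)) hp2 _ (fun _ _ => rfl)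
  · intro U hU V hV hVU hUG
    rw [chi_level hζ hV (fun g hg => hfix g (hUG (hVU hg))) hp2 _ (fun _ _ => rfl),
      chi_level hζ hU (fun g hg => hfix g (hUG hg)) hp2 _ (fun _ _ => rfl),
      locDeg_relIndex hVU]
    push_cast
    ring

/-- `loc_dim`: `H²` of small level subgroups is (at most) one-dimensional. -/
theorem loc_dim_local (hp2 : p ≠ 2) : ∃ W₀ ∈ locLevels q, ∀ W ∈ locLevels q, W ≤ W₀ →
    FiniteDimensional (ZMod p) (H2 ((locLevels q).restrict W) (trivRep (ZMod p) ↥W)) ∧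
    Module.finrank (ZMod p) (H2 ((locLevels q).restrict W) (trivRep (ZMod p) ↥W)) ≤ 1 := by
  obtain ⟨ζ, hζ⟩ := exists_primitiveRoot p q
  have hfix : ∀ g ∈ (cycField ζ).fixingSubgroup, g ζ = ζ := fun g hg =>
    (IntermediateField.mem_fixingSubgroup_iff _ g).mp hg ζ (mem_cycField ζ)
  refine ⟨(cycField ζ).fixingSubgroup, fixingSubgroup_mem_galLevels _, fun W hW hWG => ⟨?_, ?_⟩⟩
  · exact finite_H2_level hζ hW (fun g hg => hfix g (hWG hg)) hp2 _ (fun _ _ => rfl)
  · exact (finrank_H2_level hζ hW (fun g hg => hfix g (hWG hg)) hp2 _ (fun _ _ => rfl)).le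

end Fermat.Agent.CFTLocal
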