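import Fermat.Agent.CFT.Local.Transfer

/-!
# Restriction of Kummer data to level subgroups, and the tower step
-/

set_option autoImplicit false
set_option linter.unusedSectionVars false

namespace Fermat.Agent.CFTLocal

open Fermat.Agent.PT

section Restrict

variable {k : Type*} [CommRing k] {G : Type*} [Group G] {𝓛 : LevelSys G}
variable {M : Type*} [AddCommGroup M] [Module k M] {ρ : Representation k G M}

lemma map_mem_of_mem_restrict {U : Subgroup G} (hU : U ∈ 𝓛) {V : Subgroup U}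
    (hV : V ∈ 𝓛.restrict U) : V.map U.subtype ∈ 𝓛 := by
  obtain ⟨W, hW, hWV⟩ := hV
  refine LevelSys.mono (LevelSys.inf_mem hW hU) ?_
  rintro g ⟨hgW, hgU⟩
  exact ⟨⟨g, hgU⟩, hWV hgW, rfl⟩

/-- `H¹`-vanishing for a subgroup of a subgroup. -/
lemma H1Van_restrict {U : Subgroup G} {V : Subgroup U} (h : H1Van 𝓛 ρ (V.map U.subtype)) :
    H1Van (𝓛.restrict U) (resRep ρ U) V := by
  intro f hf hc
  let e : V ≃* V.map U.subtype := V.equivMapOfInjective U.subtype U.subtype_injective
  have he : ∀ v : V, ((e v : V.map U.subtype) : G) = ((v : U) : G) := fun v => rfl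
  obtain ⟨m, hm⟩ := h (fun w => f (e.symm w)) (by
    obtain ⟨W, ⟨W', ⟨W'', hW'', h2⟩, h1⟩, hW⟩ := hf
    refine ⟨W''.comap (V.map U.subtype).subtype, ⟨W'', hW'', le_rfl⟩, fun g s hs => ?_⟩
    simp only
    rw [map_mul]
    apply hW
    apply h1
    rw [Subgroup.mem_comap]
    apply h2
    rw [Subgroup.mem_comap]
    have : ((e.symm s : V) : U) = ⟨(s : G), by
        obtain ⟨v, _, hv⟩ := s.2
        rw [← hv]
        exact v.2⟩ := by
      apply Subtype.ext
      rw [← he, MulEquiv.apply_symm_apply]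
    change (((e.symm s : V) : U) : G) ∈ W''
    rw [this]
    exact hs) (by
    intro u v
    rw [map_mul, hc]
    congr 1
    change ρ (((e.symm u : V) : U) : G) _ = _
    rw [← he, MulEquiv.apply_symm_apply])
  refine ⟨m, fun v => ?_⟩
  have := hm (e v)
  simp only [MulEquiv.symm_apply_apply] at this
  rw [this, he]
  rfl

end Restrict

variable {p : ℕ} [Fact p.Prime]
variable {G : Type*} [Group G] {𝓛 : LevelSys G}
variable {M : Type*} [AddCommGroup M] {ρ : Representation ℤ G M}

namespace KummerData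

variable {ζ : M} (h : KummerData p 𝓛 ρ ζ)

include h

/-- Kummer data restrict to level subgroups. -/
theorem restrict {U : Subgroup G} (hU : U ∈ 𝓛) : KummerData p (𝓛.restrict U) (resRep ρ U) ζ where
  disc := fun m => by
    obtain ⟨V, hV, hs⟩ := h.disc m
    exact ⟨V.comap U.subtype, ⟨V, hV, le_rfl⟩, fun s hs' => hs s hs'⟩
  div := h.div
  tors := h.tors
  zeta := h.zeta
  zeta_ne := h.zeta_ne
  fix := fun g => h.fix g
  hilb := fun V hV => H1Van_restrict (h.hilb _ (map_mem_of_mem_restrict hU hV))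

/-- inclusion of invariants -/
def invIncl (ρ : Representation ℤ G M) (U : Subgroup G) (b : ↥ρ.invariants) :
    ↥(resRep ρ U).invariants := ⟨b.1, fun u => b.2 u⟩

lemma kc_restrict {U : Subgroup G} (hU : U ∈ 𝓛) (b : ↥ρ.invariants) :
    (h.restrict hU).kc (invIncl ρ U b) = (h.kc b).comp U.subtype := by
  rw [(h.restrict hU).kc_eq (b := invIncl ρ U b) (β := h.root b) (h.p_root b)]
  ext u
  apply h.zt_inj
  rw [(h.restrict hU).zt_kch]
  exact (h.zt_kch (h.root b) (h.root_fix b) u).symm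

/-- **The tower step.** -/
theorem mem_line_of_res_mem_line (hN : NormData p 𝓛 ρ) (hp2 : p ≠ 2)
    {χ : G →* Multiplicative (ZMod p)} (hχ : χ.ker ∈ 𝓛) (hχ1 : χ ≠ 1)
    (hN1 : NormData p (𝓛.restrict χ.ker) (resRep ρ χ.ker)) (α : H2 𝓛 ρ) (hα : p • α = 0)
    (hres : res2 χ.ker.subtype (LevelSys.compat_comap _) ρ α ∈ (h.restrict hχ).line) :
    α ∈ h.line := by
  by_cases h0 : res2 (𝓛' := 𝓛.restrict χ.ker) χ.ker.subtype (LevelSys.compat_comap _) ρ α = 0
  · exact h.mem_line_of_res hN hp2 hχ hχ1 α h0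
  exfalso
  obtain ⟨s, hs⟩ := exists_eq_ofAdd_one hχ1
  obtain ⟨a, ⟨a₁, ha₁, haa⟩, b, hab⟩ := h.exists_norm_pair_ne_zero hN hp2 hχ hs
  set h1 := h.restrict hχ with hh1
  set ψ := h.kc b with hψ
  have hψ' : (ψ.comp χ.ker.subtype).ker ∈ 𝓛.restrict χ.ker := by
    rw [hψ, ← h.kc_restrict hχ]
    exact h1.kc_ker_mem _
  have hmem : symb (resRep ρ χ.ker) (ψ.comp χ.ker.subtype) hψ' ⟨a₁, fun u => ha₁ u u.2⟩
      ∈ h1.line := by
    have := h1.pair_mem_line (invIncl ρ χ.ker b) ⟨a₁, fun u => ha₁ u u.2⟩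
    rw [h1.pair_apply, symb_congr (h.kc_restrict hχ b) (h1.kc_ker_mem _) hψ'] at this
    exact this
  -- every element of the line is a multiple of `res α`
  have hcard := h1.card_line hN1 hp2
  obtain ⟨m, hm⟩ : ∃ m : ℤ, m • (res2 (𝓛' := 𝓛.restrict χ.ker) χ.ker.subtype
      (LevelSys.compat_comap _) ρ α)
      = symb (resRep ρ χ.ker) (ψ.comp χ.ker.subtype) hψ' ⟨a₁, fun u => ha₁ u u.2⟩ := by
    set x := res2 (𝓛' := 𝓛.restrict χ.ker) χ.ker.subtype (LevelSys.compat_comap _) ρ α with hx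
    have hz : Nat.card (AddSubgroup.zmultiples x) = p := by
      haveI : Finite h1.line :=
        Nat.finite_of_card_ne_zero (by rw [hcard]; exact (Fact.out : p.Prime).ne_zero)
      have hle : AddSubgroup.zmultiples x ≤ h1.line := by
        rw [AddSubgroup.zmultiples_le]
        exact hres
      have hdvd : Nat.card (AddSubgroup.zmultiples x) ∣ p := by
        have h3 := AddSubgroup.card_dvd_of_le hle
        rw [hcard] at h3
        exact h3
      refine ((Nat.dvd_prime Fact.out).mp hdvd).resolve_left fun hone => h0 ?_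
      rw [AddSubgroup.card_eq_one, AddSubgroup.zmultiples_eq_bot] at hone
      exact hone
    have := range_eq_of_common p hcard hz h0 hres (AddSubgroup.mem_zmultiples x)
    rw [this] at hmem
    exact AddSubgroup.mem_zmultiples_iff.mp hmem
  have key := smul_eq_symb_of_res_ker hχ hs ψ (h.kc_ker_mem b)
    (⟨a₁, fun u => ha₁ u u.2⟩ : ↥(resRep ρ χ.ker).invariants) a haa (m • α) hψ' (by
      rw [map_zsmul]
      exact hm)
  apply hab
  rw [h.pair_apply, ← key, smul_comm, hα, smul_zero]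

end KummerData

end Fermat.Agent.CFTLocal
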