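import Fermat.Agent.CFT.Local.Kummer

/-!
# The symbol pairing `M^G × M^G → H²(G, M)`
-/

set_option autoImplicit false
set_option linter.unusedSectionVars false

namespace Fermat.Agent.CFTLocal

open Fermat.Agent.PT

section Symb

variable {k : Type*} [CommRing k] {G : Type*} [Group G] {𝓛 : LevelSys G}
variable {M : Type*} [AddCommGroup M] [Module k M] {ρ : Representation k G M}
variable {n : ℕ} [NeZero n]

/-- The symbol class `[carry χ a]`. -/
noncomputable def symb (ρ : Representation k G M) (χ : G →* Multiplicative (ZMod n))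
    (hχ : χ.ker ∈ 𝓛) (a : ↥ρ.invariants) : H2 𝓛 ρ :=
  H2mk 𝓛 ρ ⟨carry χ a.1, carry_mem_Z2 hχ a.2⟩

lemma symb_add (χ : G →* Multiplicative (ZMod n)) (hχ : χ.ker ∈ 𝓛) (a a' : ↥ρ.invariants) :
    symb ρ χ hχ (a + a') = symb ρ χ hχ a + symb ρ χ hχ a' := by
  unfold symb
  rw [← map_add]
  congr 1
  apply Subtype.ext
  ext ⟨g, g'⟩
  change (if _ then (a.1 + a'.1) else 0) = (if _ then a.1 else 0) + (if _ then a'.1 else 0)
  split_ifs
  · rfl
  · rw [add_zero]

lemma carry_eq_smul (χ : G →* Multiplicative (ZMod n)) (a : M) (g h : G) :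
    carry χ a (g, h) = (if n ≤ cval χ g + cval χ h then 1 else 0 : ℤ) • a := by
  rw [carry_apply]
  split_ifs
  · rw [one_smul]
  · rw [zero_smul]

lemma cval_add_add_int (χ : G →* Multiplicative (ZMod n)) (g h : G) :
    (cval χ g : ℤ) + cval χ h - cval χ (g * h)
      = n * (if n ≤ cval χ g + cval χ h then 1 else 0 : ℤ) := by
  have := cval_add_add χ g h
  split_ifs at this ⊢ <;> push_cast <;> omega

lemma symb_mul (χ χ' : G →* Multiplicative (ZMod n)) (hχ : χ.ker ∈ 𝓛) (hχ' : χ'.ker ∈ 𝓛)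
    (hχχ' : (χ * χ').ker ∈ 𝓛) (a : ↥ρ.invariants) :
    symb ρ (χ * χ') hχχ' a = symb ρ χ hχ a + symb ρ χ' hχ' a := by
  rw [eq_comm, ← sub_eq_zero]
  unfold symb
  rw [← map_add, ← map_sub, H2mk_eq_zero]
  -- the integer valued function
  set e : G → ℤ := fun g => if n ≤ cval χ g + cval χ' g then 1 else 0 with he
  have hen : ∀ g, (cval χ g : ℤ) + cval χ' g - cval (χ * χ') g = n * e g := by
    intro g
    have h1 : cval (χ * χ') g = (cval χ g + cval χ' g) % n := by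
      unfold cval
      rw [MonoidHom.mul_apply, toAdd_mul, ZMod.val_add]
    have l1 := cval_lt χ g
    have l2 := cval_lt χ' g
    rw [h1, he]
    simp only
    split_ifs with h3
    · rw [Nat.mod_eq_sub_mod h3, Nat.mod_eq_of_lt (by omega)]
      push_cast [Nat.cast_sub h3]
      ring
    · rw [Nat.mod_eq_of_lt (by omega)]
      push_cast
      ring
  have hn : (n : ℤ) ≠ 0 := by exact_mod_cast NeZero.ne n
  refine ⟨fun g => e g • a.1, ?_, fun g h => ?_⟩
  · refine ⟨χ.ker ⊓ χ'.ker, LevelSys.inf_mem hχ hχ', fun g s hs => ?_⟩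
    simp only [he, cval_mul_of_mem hs.1, cval_mul_of_mem hs.2]
  · change carry χ a.1 (g, h) + carry χ' a.1 (g, h) - carry (χ * χ') a.1 (g, h) = _
    rw [carry_eq_smul, carry_eq_smul, carry_eq_smul, map_zsmul, a.2 g, ← add_smul, ← sub_smul,
      ← sub_smul, ← add_smul]
    congr 1
    apply mul_left_cancel₀ hn
    have c1 := cval_add_add_int χ g h
    have c2 := cval_add_add_int χ' g h
    have c3 := cval_add_add_int (χ * χ') g h
    have e1 := hen g
    have e2 := hen h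
    have e3 := hen (g * h)
    linear_combination -c1 - c2 + c3 + e2 + e1 - e3

lemma symb_one (h1 : (1 : G →* Multiplicative (ZMod n)).ker ∈ 𝓛) (a : ↥ρ.invariants) :
    symb ρ (1 : G →* Multiplicative (ZMod n)) h1 a = 0 := by
  have h2 : ((1 : G →* Multiplicative (ZMod n)) * 1).ker ∈ 𝓛 := by rwa [mul_one]
  have := symb_mul (ρ := ρ) 1 1 h1 h1 h2 a
  have h3 : symb ρ ((1 : G →* Multiplicative (ZMod n)) * 1) h2 a = symb ρ 1 h1 a := by
    have : ∀ (χ : G →* Multiplicative (ZMod n)) (hχ : χ.ker ∈ 𝓛), χ = 1 →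
        symb ρ χ hχ a = symb ρ 1 h1 a := by
      rintro _ _ rfl
      rfl
    exact this _ _ (mul_one _)
  rw [h3] at this
  exact left_eq_add.mp this

lemma symb_congr {χ χ' : G →* Multiplicative (ZMod n)} (h : χ = χ') (hχ : χ.ker ∈ 𝓛)
    (hχ' : χ'.ker ∈ 𝓛) (a : ↥ρ.invariants) : symb ρ χ hχ a = symb ρ χ' hχ' a := by
  subst h
  rfl

/-- The subgroup of norms `∑_{i<n} ρ(s^i) b` from `ker χ`. -/
def nrm (ρ : Representation k G M) (χ : G →* Multiplicative (ZMod n)) (s : G) :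
    AddSubgroup ↥ρ.invariants where
  carrier := {a | ∃ b : M, (∀ u ∈ χ.ker, ρ u b = b) ∧ a.1 = pnorm ρ s b n}
  add_mem' := by
    rintro a a' ⟨b, hb, h⟩ ⟨b', hb', h'⟩
    refine ⟨b + b', fun u hu => by rw [map_add, hb u hu, hb' u hu], ?_⟩
    change a.1 + a'.1 = _
    rw [h, h', pnorm, pnorm, pnorm, ← Finset.sum_add_distrib]
    simp only [map_add]
  zero_mem' := ⟨0, fun u _ => map_zero _, by simp [pnorm]⟩
  neg_mem' := by
    rintro a ⟨b, hb, h⟩
    refine ⟨-b, fun u hu => by rw [map_neg, hb u hu], ?_⟩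
    change -a.1 = _
    rw [h, pnorm, pnorm]
    simp only [map_neg, Finset.sum_neg_distrib]

lemma symb_eq_zero_iff {χ : G →* Multiplicative (ZMod n)} (hχ : χ.ker ∈ 𝓛)
    (hv : H1Van 𝓛 ρ χ.ker) {s : G} (hs : χ s = Multiplicative.ofAdd 1) (a : ↥ρ.invariants) :
    symb ρ χ hχ a = 0 ↔ a ∈ nrm ρ χ s := by
  change _ ↔ ∃ b : M, (∀ u ∈ χ.ker, ρ u b = b) ∧ a.1 = pnorm ρ s b n
  unfold symb
  rw [H2mk_eq_zero]
  constructor
  · rintro ⟨c, hc, h⟩
    exact norm_of_carry_coboundary hs hv a.2 hc h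
  · rintro ⟨b, hb, h⟩
    have := carry_coboundary_of_norm hs hχ (ρ := ρ) hb
    refine ⟨_, this.1, ?_⟩
    intro g g'
    change carry χ a.1 (g, g') = _
    rw [h]
    exact this.2 g g'

/-- The kernel of the restriction to `ker χ` consists of symbols. -/
lemma exists_symb_of_res (hρ : Discrete 𝓛 ρ) {χ : G →* Multiplicative (ZMod n)} (hχ : χ.ker ∈ 𝓛)
    (hv : H1Van 𝓛 ρ χ.ker) {s : G} (hs : χ s = Multiplicative.ofAdd 1) (x : H2 𝓛 ρ)
    (hx : res2 (𝓛' := 𝓛.restrict χ.ker) χ.ker.subtype (LevelSys.compat_comap _) ρ x = 0) :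
    ∃ a, symb ρ χ hχ a = x := by
  obtain ⟨c, rfl⟩ := H2mk_surjective x
  rw [res2, H2map_mk, H2mk_eq_zero] at hx
  obtain ⟨e, he, hce⟩ := hx
  obtain ⟨a, ha, f, hf, hfa⟩ := exists_carry_of_res hs hχ hρ hv c.2 he hce
  refine ⟨⟨a, ha⟩, ?_⟩
  rw [eq_comm, ← sub_eq_zero]
  unfold symb
  rw [← map_sub, H2mk_eq_zero]
  exact ⟨f, hf, hfa⟩

end Symb

section Pair

variable {p : ℕ} [Fact p.Prime]
variable {G : Type*} [Group G] {𝓛 : LevelSys G}
variable {M : Type*} [AddCommGroup M] {ρ : Representation ℤ G M}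

lemma exists_eq_ofAdd_one {χ : G →* Multiplicative (ZMod p)} (hχ : χ ≠ 1) :
    ∃ s, χ s = Multiplicative.ofAdd 1 := by
  obtain ⟨g, hg⟩ : ∃ g, χ g ≠ 1 := by
    by_contra h
    push Not at h
    exact hχ (MonoidHom.ext h)
  have hg0 : Multiplicative.toAdd (χ g) ≠ 0 := fun h => hg (Multiplicative.toAdd.injective h)
  refine ⟨g ^ ((Multiplicative.toAdd (χ g))⁻¹).val, ?_⟩
  rw [map_pow]
  apply Multiplicative.toAdd.injective
  rw [toAdd_pow, nsmul_eq_mul, ZMod.natCast_zmod_val, toAdd_ofAdd, inv_mul_cancel₀ hg0]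

namespace KummerData

variable {ζ : M} (h : KummerData p 𝓛 ρ ζ)

include h

/-- The symbol pairing; the first variable gives the character. -/
noncomputable def pair : ↥ρ.invariants →+ ↥ρ.invariants →+ H2 𝓛 ρ where
  toFun b :=
    { toFun := fun a => symb ρ (h.kc b) (h.kc_ker_mem b) a
      map_zero' := by
        have := symb_add (ρ := ρ) (h.kc b) (h.kc_ker_mem b) 0 0
        rw [add_zero] at this
        exact left_eq_add.mp this
      map_add' := fun a a' => symb_add _ _ a a' }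
  map_zero' := by
    ext a
    change symb ρ (h.kc 0) (h.kc_ker_mem 0) a = 0
    have h0 : h.kc 0 = 1 := (h.kc_eq_one_iff 0).mpr ⟨0, by simp⟩
    have h1 : (1 : G →* Multiplicative (ZMod p)).ker ∈ 𝓛 := h0 ▸ h.kc_ker_mem 0
    rw [symb_congr h0 (h.kc_ker_mem 0) h1 a]
    exact symb_one h1 a
  map_add' b b' := by
    ext a
    change symb ρ (h.kc (b + b')) (h.kc_ker_mem _) a
      = symb ρ (h.kc b) (h.kc_ker_mem _) a + symb ρ (h.kc b') (h.kc_ker_mem _) a
    have h1 : (h.kc b * h.kc b').ker ∈ 𝓛 := h.kc_add b b' ▸ h.kc_ker_mem (b + b')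
    rw [symb_congr (h.kc_add b b') (h.kc_ker_mem _) h1 a]
    exact symb_mul _ _ _ _ _ a

lemma pair_apply (b a : ↥ρ.invariants) : h.pair b a = symb ρ (h.kc b) (h.kc_ker_mem b) a := rfl

lemma pair_congr {b b' : ↥ρ.invariants} (hb : h.kc b = h.kc b') (a : ↥ρ.invariants) :
    h.pair b a = h.pair b' a := symb_congr hb (h.kc_ker_mem _) (h.kc_ker_mem _) a

lemma pair_eq_zero_of_kc (b : ↥ρ.invariants) (hb : h.kc b = 1) : h.pair b = 0 := by
  have h0 : h.kc 0 = 1 := (h.kc_eq_one_iff 0).mpr ⟨0, by simp⟩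
  ext a
  rw [h.pair_congr (hb.trans h0.symm) a, map_zero]

lemma pair_eq_zero_iff {b : ↥ρ.invariants} {s : G} (hs : h.kc b s = Multiplicative.ofAdd 1)
    (a : ↥ρ.invariants) :
    h.pair b a = 0 ↔ a ∈ nrm ρ (h.kc b) s :=
  symb_eq_zero_iff (h.kc_ker_mem b) (h.hilb _ (h.kc_ker_mem b)) hs a

/-- The symbol is alternating (`p` odd). -/
lemma pair_self (hp2 : p ≠ 2) (b : ↥ρ.invariants) : h.pair b b = 0 := by
  by_cases hb : h.kc b = 1
  · rw [h.pair_eq_zero_of_kc b hb]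
    rfl
  obtain ⟨s, hs⟩ := exists_eq_ofAdd_one hb
  rw [h.pair_eq_zero_iff hs]
  refine ⟨h.root b, fun u hu => (h.mem_ker_kch _ (h.root_fix b) u).mp hu, ?_⟩
  -- `∑ (β + i ζ) = p β`
  have hpow : ∀ i : ℕ, ρ (s ^ i) (h.root b) = h.root b + i • ζ := by
    intro i
    rw [h.map_eq_add (h.root b) (h.root_fix b) (s ^ i)]
    congr 1
    have h1 : cval (h.kch (h.root b) (h.root_fix b)) (s ^ i) = i % p := cval_pow hs i
    rw [h1]
    conv_rhs => rw [← Nat.mod_add_div i p]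
    rw [add_smul, mul_smul, smul_comm, h.zeta, smul_zero, add_zero]
  unfold pnorm
  rw [Finset.sum_congr rfl (fun i _ => hpow i), Finset.sum_add_distrib, Finset.sum_const,
    Finset.card_range, ← Finset.sum_smul, h.p_root b, Finset.sum_range_id]
  have hodd : Odd p := (Fact.out : p.Prime).odd_of_ne_two hp2
  obtain ⟨r, hr⟩ := hodd
  have : p * (p - 1) / 2 = r * p := by
    have h1 : p - 1 = 2 * r := by omega
    rw [h1, ← mul_assoc, mul_comm p 2, mul_assoc, Nat.mul_div_cancel_left _ (by norm_num), mul_comm]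
  rw [this, mul_smul, h.zeta, smul_zero, add_zero]

lemma pair_skew (hp2 : p ≠ 2) (a b : ↥ρ.invariants) : h.pair a b = - h.pair b a := by
  have := h.pair_self hp2 (a + b)
  rw [map_add, map_add, AddMonoidHom.add_apply, AddMonoidHom.add_apply, h.pair_self hp2,
    h.pair_self hp2, zero_add, add_zero, add_comm] at this
  exact eq_neg_of_add_eq_zero_left this

end KummerData

end Pair

end Fermat.Agent.CFTLocal
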