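import Fermat.Agent.CFT.Local.Step

/-!
# The tower argument and the Sylow argument: `H²(G, M)[p]` is the line of symbols
-/

set_option autoImplicit false
set_option linter.unusedSectionVars false

namespace Fermat.Agent.CFTLocal

open Fermat.Agent.PT

section Dies

variable {k : Type*} [CommRing k] {G : Type*} [Group G] {𝓛 : LevelSys G}
variable {M : Type*} [AddCommGroup M] [Module k M] {ρ : Representation k G M}

/-- The cochain `c` is a coboundary on `V`. -/
def DiesOn (𝓛 : LevelSys G) (ρ : Representation k G M) (V : Subgroup G) (c : G × G → M) : Prop :=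
  ∃ e : G → M, LC1 𝓛 e ∧ ∀ u ∈ V, ∀ v ∈ V, c (u, v) = ρ u (e v) - e (u * v) + e u

lemma DiesOn.mono {V W : Subgroup G} (hVW : V ≤ W) {c : G × G → M} (h : DiesOn 𝓛 ρ W c) :
    DiesOn 𝓛 ρ V c := by
  obtain ⟨e, he, h⟩ := h
  exact ⟨e, he, fun u hu v hv => h u (hVW hu) v (hVW hv)⟩

lemma res2_eq_zero_iff {V : Subgroup G} (hV : V ∈ 𝓛) (c : ↥(Z2 𝓛 ρ)) :
    res2 (𝓛' := 𝓛.restrict V) V.subtype (LevelSys.compat_comap _) ρ (H2mk 𝓛 ρ c) = 0 ↔
      DiesOn 𝓛 ρ V c.1 := by
  classical
  rw [res2, H2map_mk, H2mk_eq_zero]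
  constructor
  · rintro ⟨e, ⟨W, ⟨W', hW', hWW⟩, he⟩, hc⟩
    refine ⟨fun g => if hg : g ∈ V then e ⟨g, hg⟩ else 0, ⟨W' ⊓ V, LevelSys.inf_mem hW' hV, ?_⟩, ?_⟩
    · intro g s hs
      beta_reduce
      by_cases hg : g ∈ V
      · have hgs : g * s ∈ V := V.mul_mem hg hs.2
        rw [dif_pos hg, dif_pos hgs]
        exact he ⟨g, hg⟩ ⟨s, hs.2⟩ (hWW hs.1)
      · have hgs : g * s ∉ V := fun h => hg (by
          have := V.mul_mem h (V.inv_mem hs.2)
          simpa using this)
        rw [dif_neg hg, dif_neg hgs]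
    · intro u hu v hv
      beta_reduce
      rw [dif_pos hv, dif_pos hu, dif_pos (V.mul_mem hu hv)]
      exact hc ⟨u, hu⟩ ⟨v, hv⟩
  · rintro ⟨e, he, hc⟩
    exact ⟨fun v => e v, he.restrict V, fun u v => hc u u.2 v v.2⟩

/-- Every class dies on a small normal level subgroup. -/
lemma exists_diesOn (hρ : Discrete 𝓛 ρ) (c : ↥(Z2 𝓛 ρ)) :
    ∃ V ∈ 𝓛, V.Normal ∧ DiesOn 𝓛 ρ V c.1 := by
  obtain ⟨W, hW, hc⟩ := c.2.1
  obtain ⟨W', hW', hs⟩ := hρ (c.1 (1, 1))
  obtain ⟨V, hV, hVW, hn⟩ := LevelSys.exists_normal (LevelSys.inf_mem hW hW')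
  refine ⟨V, hV, hn, fun _ => c.1 (1, 1), LC1.const _, fun u hu v hv => ?_⟩
  have h1 := hc 1 1 u v (hVW hu).1 (hVW hv).1
  rw [one_mul, one_mul] at h1
  rw [h1, hs u (hVW hu).2]
  abel

lemma diesOn_restrict {U : Subgroup G} {V : Subgroup G} {c : G × G → M}
    (h : DiesOn 𝓛 ρ V c) : DiesOn (𝓛.restrict U) (resRep ρ U) (V.subgroupOf U)
      (fun q : U × U => c (q.1, q.2)) := by
  obtain ⟨e, he, h⟩ := h
  exact ⟨fun u => e u, he.restrict U, fun u hu v hv => h u hu v hv⟩

/-- A class dying on the whole group is zero. -/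
lemma eq_zero_of_diesOn_top (c : ↥(Z2 𝓛 ρ)) {V : Subgroup G} (hV : V = ⊤)
    (h : DiesOn 𝓛 ρ V c.1) : H2mk 𝓛 ρ c = 0 := by
  subst hV
  obtain ⟨e, he, h⟩ := h
  rw [H2mk_eq_zero]
  exact ⟨e, he, fun u v => h u trivial v trivial⟩

end Dies

section PGroup

variable {p : ℕ} [Fact p.Prime] {G : Type*} [Group G]

/-- A nontrivial finite `p`-quotient has a quotient of order `p`. -/
lemma exists_char_of_index (V : Subgroup G) [V.Normal] {n : ℕ} (hV : V.index = p ^ (n + 1)) :
    ∃ χ : G →* Multiplicative (ZMod p), χ ≠ 1 ∧ V ≤ χ.ker := by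
  classical
  have hp : p.Prime := Fact.out
  haveI : Finite (G ⧸ V) := Nat.finite_of_card_ne_zero (by
    rw [← Subgroup.index_eq_card, hV]; exact pow_ne_zero _ hp.ne_zero)
  have hcard : Nat.card (G ⧸ V) = p ^ (n + 1) := by rw [← Subgroup.index_eq_card, hV]
  obtain ⟨K, hK⟩ := Sylow.exists_subgroup_card_pow_prime (G := G ⧸ V) p (n := n)
    (by rw [hcard]; exact pow_dvd_pow _ (Nat.le_succ n))
  have hKi : K.index = p := by
    have := K.card_mul_index
    rw [hK, hcard, pow_succ] at this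
    exact Nat.eq_of_mul_eq_mul_left (pow_pos hp.pos n) this
  have hKn : K.Normal := by
    apply Subgroup.normal_of_index_eq_minFac_card
    rw [hKi, hcard, Nat.Prime.pow_minFac hp (Nat.succ_ne_zero n)]
  have hcard' : Nat.card ((G ⧸ V) ⧸ K) = p := by rw [← Subgroup.index_eq_card, hKi]
  have hcardZ : Nat.card (Multiplicative (ZMod p)) = p := by
    rw [Nat.card_congr Multiplicative.toAdd, Nat.card_zmod]
  let e : ((G ⧸ V) ⧸ K) ≃* Multiplicative (ZMod p) := mulEquivOfPrimeCardEq hcard' hcardZ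
  refine ⟨e.toMonoidHom.comp ((QuotientGroup.mk' K).comp (QuotientGroup.mk' V)), ?_, ?_⟩
  · intro h
    have hsurj : Function.Surjective
        (e.toMonoidHom.comp ((QuotientGroup.mk' K).comp (QuotientGroup.mk' V))) :=
      e.surjective.comp ((QuotientGroup.mk'_surjective K).comp (QuotientGroup.mk'_surjective V))
    obtain ⟨g, hg⟩ := hsurj (Multiplicative.ofAdd 1)
    rw [h] at hg
    have : (0 : ZMod p) = 1 := congrArg Multiplicative.toAdd hg
    exact zero_ne_one this
  · intro v hv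
    rw [MonoidHom.mem_ker]
    change e (QuotientGroup.mk' K (QuotientGroup.mk' V v)) = 1
    rw [(QuotientGroup.eq_one_iff (N := V) v).mpr hv |> fun h => (h : QuotientGroup.mk' V v = 1)]
    simp

end PGroup

section Equiv

variable {p : ℕ} [Fact p.Prime] {M : Type*} [AddCommGroup M]

/-- identification of invariants along an isomorphism -/
def invEquiv {G G' : Type*} [Group G] [Group G'] (e : G' ≃* G) {ρ : Representation ℤ G M}
    {ρ' : Representation ℤ G' M} (hρ : ∀ g m, ρ' g m = ρ (e g) m) :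
    ↥ρ'.invariants ≃+ ↥ρ.invariants where
  toFun b := ⟨b.1, fun g => by
    have := b.2 (e.symm g)
    rwa [hρ, e.apply_symm_apply] at this⟩
  invFun b := ⟨b.1, fun g => by rw [hρ]; exact b.2 (e g)⟩
  left_inv _ := rfl
  right_inv _ := rfl
  map_add' _ _ := rfl

/-- Transport of norm data. -/
theorem NormData.of_equiv {G G' : Type*} [Group G] [Group G'] (e : G' ≃* G) {𝓛 : LevelSys G}
    {𝓛' : LevelSys G'} (hl : ∀ V : Subgroup G', V ∈ 𝓛' → V.map e.toMonoidHom ∈ 𝓛)
    {ρ : Representation ℤ G M} {ρ' : Representation ℤ G' M} (hρ : ∀ g m, ρ' g m = ρ (e g) m)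
    (h : NormData p 𝓛 ρ) : NormData p 𝓛' ρ' where
  idx := by
    intro χ' hχ' s' hs'
    set χ : G →* Multiplicative (ZMod p) := χ'.comp e.symm.toMonoidHom with hχdef
    have hχe : ∀ g', χ (e g') = χ' g' := fun g' => by simp [hχdef]
    have hker : χ.ker = χ'.ker.map e.toMonoidHom := by
      ext g
      constructor
      · intro hg
        refine ⟨e.symm g, ?_, by simp⟩
        exact hg
      · rintro ⟨g', hg', rfl⟩
        rw [MonoidHom.mem_ker]
        change χ (e g') = 1
        rw [hχe]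
        exact hg'
    have hχ : χ.ker ∈ 𝓛 := by
      rw [hker]
      exact hl _ hχ'
    have hs : χ (e s') = Multiplicative.ofAdd 1 := by rw [hχe, hs']
    refine Eq.trans ?_ (h.idx χ hχ (e s') hs)
    have : nrm ρ' χ' s' = (nrm ρ χ (e s')).comap (invEquiv e hρ).toAddMonoidHom := by
      ext a
      constructor
      · rintro ⟨b, hb, hab⟩
        refine ⟨b, fun u hu => ?_, ?_⟩
        · rw [hker] at hu
          obtain ⟨u', hu', rfl⟩ := hu
          have := hb u' hu'
          rw [hρ] at this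
          exact this
        · change a.1 = _
          rw [hab, pnorm, pnorm]
          refine Finset.sum_congr rfl fun i _ => ?_
          rw [hρ, map_pow]
      · rintro ⟨b, hb, hab⟩
        refine ⟨b, fun u hu => ?_, ?_⟩
        · rw [hρ]
          apply hb
          rw [hker]
          exact ⟨u, hu, rfl⟩
        · change a.1 = _ at hab
          rw [hab, pnorm, pnorm]
          refine Finset.sum_congr rfl fun i _ => ?_
          rw [hρ, map_pow e]
    rw [this]
    exact AddSubgroup.index_comap_of_surjective _ (invEquiv e hρ).surjective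
  big := by
    have : (nsmulAddMonoidHom p : ↥ρ'.invariants →+ ↥ρ'.invariants).range
        = ((nsmulAddMonoidHom p : ↥ρ.invariants →+ ↥ρ.invariants).range).comap
          (invEquiv e hρ).toAddMonoidHom := by
      ext a
      constructor
      · rintro ⟨b, rfl⟩
        exact ⟨invEquiv e hρ b, (map_nsmul (invEquiv e hρ) p b).symm⟩
      · rintro ⟨b, hb⟩
        refine ⟨(invEquiv e hρ).symm b, ?_⟩
        apply (invEquiv e hρ).injective
        refine (map_nsmul (invEquiv e hρ) p _).trans ?_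
        rw [(invEquiv e hρ).apply_symm_apply]
        exact hb
    rw [this, AddSubgroup.index_comap_of_surjective _ (invEquiv e hρ).surjective]
    exact h.big

/-- Norm data for all level subgroups. -/
def NormAll (p : ℕ) [Fact p.Prime] {G : Type*} [Group G] (𝓛 : LevelSys G)
    (ρ : Representation ℤ G M) : Prop :=
  ∀ U : Subgroup G, U ∈ 𝓛 → NormData p (𝓛.restrict U) (resRep ρ U)

variable {G : Type*} [Group G] {𝓛 : LevelSys G} {ρ : Representation ℤ G M}

lemma NormAll.self (h : NormAll p 𝓛 ρ) : NormData p 𝓛 ρ := by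
  refine NormData.of_equiv (Subgroup.topEquiv (G := G)).symm ?_ ?_ (h ⊤ 𝓛.top_mem)
  · intro V hV
    refine ⟨V, hV, ?_⟩
    intro g hg
    exact ⟨g.1, hg, rfl⟩
  · intro g m
    rfl

lemma NormAll.restrict (h : NormAll p 𝓛 ρ) {U : Subgroup G} (hU : U ∈ 𝓛) :
    NormAll p (𝓛.restrict U) (resRep ρ U) := by
  intro V hV
  refine NormData.of_equiv (V.equivMapOfInjective U.subtype U.subtype_injective) ?_ ?_
    (h _ (map_mem_of_mem_restrict hU hV))
  · rintro W ⟨W', ⟨W'', hW'', h2⟩, h1⟩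
    refine ⟨W'', hW'', ?_⟩
    intro g hg
    obtain ⟨v, hv⟩ := (V.equivMapOfInjective U.subtype U.subtype_injective).surjective g
    refine ⟨v, h1 (h2 ?_), hv⟩
    rw [← hv] at hg
    exact hg
  · intro g m
    rfl

end Equiv

end Fermat.Agent.CFTLocal
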