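import Fermat.Agent.PT.Perm
import Fermat.Agent.CFT.Local.Line

/-!
# The projection formula for symbols (through Shapiro's lemma) and the tower step
-/

set_option autoImplicit false
set_option linter.unusedSectionVars false

namespace Fermat.Agent.CFTLocal

open Fermat.Agent.PT

section Formal

variable {k : Type*} [CommRing k] {G : Type*} [Group G] {𝓛 : LevelSys G}
variable {M : Type*} [AddCommGroup M] [Module k M] {ρ : Representation k G M}
variable {X : Type*} [MulAction G X] [Fintype X]

/-- restriction of a representation to a subgroup -/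
abbrev resRep (ρ : Representation k G M) (U : Subgroup G) : Representation k U M :=
  ρ.comp U.subtype

/-- constant functions -/
def constHom (k M X : Type*) [CommRing k] [AddCommGroup M] [Module k M] : M →ₗ[k] (X → M) :=
  LinearMap.pi fun _ => LinearMap.id

/-- the trace `(X → M) → M` -/
def traceHom (k M X : Type*) [CommRing k] [AddCommGroup M] [Module k M] [Fintype X] :
    (X → M) →ₗ[k] M :=
  ∑ x : X, LinearMap.proj x

omit [Fintype X] in
lemma constHom_equivar : Equivar ρ (funRep X ρ) (constHom k M X) := by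
  intro g m
  rfl

lemma traceHom_apply (f : X → M) : traceHom k M X f = ∑ x, f x := by
  simp [traceHom]

lemma traceHom_equivar : Equivar (funRep X ρ) ρ (traceHom k M X) := by
  intro g f
  rw [traceHom_apply, traceHom_apply, map_sum]
  simp only [funRep_apply]
  exact Fintype.sum_equiv (MulAction.toPerm g⁻¹) _ _ (fun x => rfl)

lemma trace_const (α : H2 𝓛 ρ) :
    H2coef 𝓛 (traceHom k M X) traceHom_equivar (H2coef 𝓛 (constHom k M X) constHom_equivar α)
      = Fintype.card X • α := by
  obtain ⟨c, rfl⟩ := H2mk_surjective α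
  rw [← map_nsmul, H2map_mk, H2map_mk]
  congr 1
  apply Subtype.ext
  funext q
  change traceHom k M X (fun _ => c.1 q) = Fintype.card X • c.1 q
  rw [traceHom_apply]
  simp

variable {n : ℕ} [NeZero n]

/-- **Projection formula** for symbols: if the restriction of `α` to the stabilizer `U` of `x₀` is
the symbol of `f x₀`, where `f : X → M` is a `G`-invariant function, then `|X| α` is the symbol of
`∑ f x`. -/
theorem card_smul_eq_symb (hX : ∀ x : X, MulAction.stabilizer G x ∈ 𝓛) (x₀ : X)
    (htr : ∀ y : X, ∃ g : G, g • x₀ = y) (U : Subgroup G) (hU : U = MulAction.stabilizer G x₀)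
    (ψ : G →* Multiplicative (ZMod n)) (hψ : ψ.ker ∈ 𝓛)
    (f : ↥(funRep X ρ).invariants) (a₀ : ↥(resRep ρ U).invariants)
    (ha₀ : a₀.1 = f.1 x₀) (tf : ↥ρ.invariants) (htf : tf.1 = ∑ x, f.1 x) (α : H2 𝓛 ρ)
    (hψ' : (ψ.comp U.subtype).ker ∈ 𝓛.restrict U)
    (hα : res2 U.subtype (LevelSys.compat_comap _) ρ α =
      symb (resRep ρ U) (ψ.comp U.subtype) hψ' a₀) :
    Fintype.card X • α = symb ρ ψ hψ tf := by
  classical
  subst hU
  have hx : OrbitReps G (fun _ : Unit => x₀) :=
    { surj := fun y => ⟨(), htr y⟩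
      inj := fun _ _ _ _ => rfl }
  have key : H2coef 𝓛 (constHom k M X) constHom_equivar α = symb (funRep X ρ) ψ hψ f := by
    rw [← sub_eq_zero]
    refine sh2_injective hx hX _ fun _ => ?_
    rw [map_sub, sub_eq_zero]
    have e1 : sh2 ρ x₀ (H2coef 𝓛 (constHom k M X) constHom_equivar α)
        = res2 (MulAction.stabilizer G x₀).subtype (LevelSys.compat_comap _) ρ α := by
      obtain ⟨c, rfl⟩ := H2mk_surjective α
      rfl
    have e2 : sh2 ρ x₀ (symb (funRep X ρ) ψ hψ f)
        = symb (resRep ρ (MulAction.stabilizer G x₀))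
          (ψ.comp (MulAction.stabilizer G x₀).subtype) hψ' a₀ := by
      unfold symb sh2
      rw [H2map_mk]
      congr 1
      apply Subtype.ext
      funext q
      change (carry ψ f.1 (q.1, q.2)) x₀ = carry _ a₀.1 q
      rw [ha₀]
      unfold carry cval
      simp only [MonoidHom.comp_apply, Subgroup.coe_subtype]
      split_ifs
      · rfl
      · rfl
    change sh2 ρ x₀ _ = sh2 ρ x₀ _
    rw [e1, e2, hα]
  rw [← trace_const (X := X) α, key]
  unfold symb
  rw [H2map_mk]
  congr 1
  apply Subtype.ext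
  funext q
  change traceHom k M X (carry ψ f.1 q) = carry ψ tf.1 q
  rw [htf]
  unfold carry
  split_ifs
  · rw [traceHom_apply]
  · rw [map_zero]

lemma sum_multiplicative_zmod {A : Type*} [AddCommMonoid A] (F : ℕ → A) :
    ∑ x : Multiplicative (ZMod n), F (Multiplicative.toAdd x).val = ∑ i ∈ Finset.range n, F i := by
  refine Finset.sum_bij' (fun x _ => (Multiplicative.toAdd x).val)
    (fun i _ => Multiplicative.ofAdd (i : ZMod n)) ?_ ?_ ?_ ?_ ?_
  · intro x _
    exact Finset.mem_range.mpr (ZMod.val_lt _)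
  · intro i _
    exact Finset.mem_univ _
  · intro x _
    simp
  · intro i hi
    simp [ZMod.val_natCast, Nat.mod_eq_of_lt (Finset.mem_range.mp hi)]
  · intro x _
    rfl

/-- The projection formula for the kernel of a surjective character `χ : G → ℤ/n`. -/
theorem smul_eq_symb_of_res_ker {χ : G →* Multiplicative (ZMod n)} (hχ : χ.ker ∈ 𝓛) {s : G}
    (hs : χ s = Multiplicative.ofAdd 1) (ψ : G →* Multiplicative (ZMod n)) (hψ : ψ.ker ∈ 𝓛)
    (a₀ : ↥(resRep ρ χ.ker).invariants) (tf : ↥ρ.invariants) (htf : tf.1 = pnorm ρ s a₀.1 n)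
    (α : H2 𝓛 ρ) (hψ' : (ψ.comp χ.ker.subtype).ker ∈ 𝓛.restrict χ.ker)
    (hα : res2 χ.ker.subtype (LevelSys.compat_comap _) ρ α =
      symb (resRep ρ χ.ker) (ψ.comp χ.ker.subtype) hψ' a₀) :
    n • α = symb ρ ψ hψ tf := by
  classical
  letI : MulAction G (Multiplicative (ZMod n)) := MulAction.compHom _ χ
  have hact : ∀ (g : G) (x : Multiplicative (ZMod n)), g • x = χ g * x := fun _ _ => rfl
  have hst : ∀ x : Multiplicative (ZMod n), MulAction.stabilizer G x = χ.ker := by
    intro x
    ext g
    rw [MulAction.mem_stabilizer_iff, hact, MonoidHom.mem_ker, mul_eq_right]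
  have hfix : ∀ u ∈ χ.ker, ρ u a₀.1 = a₀.1 := fun u hu => a₀.2 ⟨u, hu⟩
  have hcardX : Fintype.card (Multiplicative (ZMod n)) = n := by
    rw [Fintype.card_multiplicative, ZMod.card]
  have key : Fintype.card (Multiplicative (ZMod n)) • α = symb ρ ψ hψ tf := ?_
  · rw [hcardX] at key
    exact key
  refine card_smul_eq_symb (X := Multiplicative (ZMod n)) (fun x => by rw [hst]; exact hχ)
    (Multiplicative.ofAdd 0) ?_ χ.ker (hst _).symm ψ hψ
    ⟨fun x => ρ (s ^ (Multiplicative.toAdd x).val) a₀.1, ?_⟩ a₀ ?_ tf ?_ α hψ' hα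
  · intro y
    refine ⟨s ^ (Multiplicative.toAdd y).val, ?_⟩
    rw [hact, map_pow, hs, ← ofAdd_nsmul, ← ofAdd_add]
    simp
  · intro g
    funext x
    rw [funRep_apply]
    change ρ g (ρ (s ^ (Multiplicative.toAdd (χ g⁻¹ * x)).val) a₀.1) = _
    rw [← Module.End.mul_apply, ← map_mul, act_eq_pow hs hfix, act_eq_pow hs hfix (s ^ _)]
    congr 3
    unfold cval
    congr 2
    rw [map_mul, map_pow, map_pow, hs, ← ofAdd_nsmul, ← ofAdd_nsmul, map_inv]
    simp
  · simp
  · rw [htf, pnorm]
    exact (sum_multiplicative_zmod (fun i => ρ (s ^ i) a₀.1)).symm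

end Formal

end Fermat.Agent.CFTLocal
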