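import Mathlib
import Fermat.Agent.CFT.Local.FixedPoint
import Fermat.Agent.CFT.Local.PowIndex

/-!
# `[O^× : O^{×p}] = |O/p| * |μ_p(O)|` for a complete DVR `O` with finite residue field, `p ≠ 0` in `O`
-/

open IsLocalRing Polynomial

namespace Fermat.Agent.CFTLocal

/-- `(1+y)^n = 1 + n y + y^2 R(y)`. -/
theorem exists_poly_one_add_pow (n : ℕ) :
    ∃ R : ℤ[X], (1 + X : ℤ[X]) ^ n = 1 + (n : ℤ[X]) * X + X ^ 2 * R := by
  induction n with
  | zero => exact ⟨0, by simp⟩
  | succ n ih =>
    obtain ⟨R, hR⟩ := ih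
    refine ⟨(n : ℤ[X]) + R + X * R, ?_⟩
    rw [pow_succ, hR]; push_cast; ring

theorem exists_poly_one_add_pow' (n : ℕ) (O : Type*) [CommRing O] :
    ∃ R : O[X], ∀ y : O, (1 + y) ^ n = 1 + (n : O) * y + y ^ 2 * R.eval y := by
  obtain ⟨R, hR⟩ := exists_poly_one_add_pow n
  refine ⟨R.map (Int.castRingHom O), fun y => ?_⟩
  have := congrArg (fun P : ℤ[X] => (P.map (Int.castRingHom O)).eval y) hR
  simpa using this

section

variable {O : Type*} [CommRing O] [IsDomain O]

/-- The subgroup of units congruent to `1` modulo `s`. -/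
def congUnits (s : O) : Subgroup Oˣ where
  carrier := {u | s ∣ (u : O) - 1}
  one_mem' := by simp
  mul_mem' {a b} ha hb := by
    simp only [Set.mem_setOf_eq, Units.val_mul] at *
    have : (a : O) * b - 1 = a * (b - 1) + (a - 1) := by ring
    rw [this]
    exact dvd_add (Dvd.dvd.mul_left hb _) ha
  inv_mem' {a} ha := by
    simp only [Set.mem_setOf_eq] at *
    have : ((a⁻¹ : Oˣ) : O) - 1 = - (((a⁻¹ : Oˣ) : O) * (a - 1)) := by
      have := a.inv_mul
      linear_combination this
    rw [this]
    exact (Dvd.dvd.mul_left ha _).neg_right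

theorem mem_congUnits {s : O} {u : Oˣ} : u ∈ congUnits s ↔ s ∣ (u : O) - 1 := Iff.rfl

theorem exists_eq_one_add_mul {s : O} (u : congUnits s) :
    ∃ a : O, ((u : Oˣ) : O) = 1 + s * a := by
  obtain ⟨a, ha⟩ := u.2
  exact ⟨a, by linear_combination ha⟩

/-- The coefficient `a` of `u = 1 + s a`. -/
noncomputable def coeffOf {s : O} (u : congUnits s) : O := (exists_eq_one_add_mul u).choose

theorem coeffOf_spec {s : O} (u : congUnits s) : ((u : Oˣ) : O) = 1 + s * coeffOf u :=
  (exists_eq_one_add_mul u).choose_spec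

theorem coeffOf_mul {s : O} (hs : s ≠ 0) (u v : congUnits s) :
    coeffOf (u * v) = coeffOf u + coeffOf v + s * (coeffOf u * coeffOf v) := by
  have h1 := coeffOf_spec (u * v)
  have h2 := coeffOf_spec u
  have h3 := coeffOf_spec v
  have h4 : (((u * v : congUnits s) : Oˣ) : O) = ((u : Oˣ) : O) * ((v : Oˣ) : O) := rfl
  rw [h4, h2, h3] at h1
  apply mul_left_cancel₀ hs
  linear_combination - h1

end

section

variable {O : Type*} [CommRing O] [IsDomain O] [IsDiscreteValuationRing O]

/-- A unit of the form `1 + s a` for `s` in the maximal ideal. -/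
theorem exists_congUnit {s : O} (hs : s ∈ maximalIdeal O) (a : O) :
    ∃ u : congUnits s, ((u : Oˣ) : O) = 1 + s * a := by
  have h : IsUnit (1 + s * a) := by
    by_contra h
    have h2 : (1 : O) + s * a ∈ maximalIdeal O := h
    have h3 : (1 : O) ∈ maximalIdeal O := by
      have := (maximalIdeal O).sub_mem h2 ((maximalIdeal O).mul_mem_right a hs)
      simpa using this
    exact (Ideal.ne_top_iff_one _).1 (maximalIdeal.isMaximal O).ne_top h3
  refine ⟨⟨h.unit, ?_⟩, rfl⟩
  rw [mem_congUnits]
  exact ⟨a, by simp⟩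

variable (O) in
/-- Finiteness of `O/(s)`. -/
theorem finite_quot_span [Finite (ResidueField O)] (s : O) (hs : s ≠ 0) :
    Finite (O ⧸ Ideal.span {s}) := by
  obtain ⟨n, hn⟩ := IsDiscreteValuationRing.ideal_eq_span_pow_irreducible
    (s := Ideal.span {s}) (by simpa using hs) (IsDiscreteValuationRing.exists_irreducible O).choose_spec
  have hm : maximalIdeal O = Ideal.span {(IsDiscreteValuationRing.exists_irreducible O).choose} :=
    (IsDiscreteValuationRing.irreducible_iff_uniformizer _).1
      (IsDiscreteValuationRing.exists_irreducible O).choose_spec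
  rw [hn, ← Ideal.span_singleton_pow, ← hm]
  haveI : Finite (O ⧸ maximalIdeal O) := inferInstanceAs (Finite (ResidueField O))
  exact Ideal.finite_quotient_pow (IsNoetherian.noetherian _) n

/-- `congUnits s` has finite index. -/
theorem index_congUnits_ne_zero [Finite (ResidueField O)] (s : O) (hs : s ≠ 0) :
    (congUnits s).index ≠ 0 := by
  haveI := finite_quot_span O s hs
  let f : Oˣ →* (O ⧸ Ideal.span {s})ˣ := Units.map (Ideal.Quotient.mk (Ideal.span {s})).toMonoidHom
  have hf : congUnits s = f.ker := by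
    ext u
    rw [mem_congUnits, MonoidHom.mem_ker, Units.ext_iff]
    simp only [f, Units.coe_map, RingHom.toMonoidHom_eq_coe, MonoidHom.coe_coe, Units.val_one]
    rw [← map_one (Ideal.Quotient.mk (Ideal.span {s})), Ideal.Quotient.eq,
      Ideal.mem_span_singleton]
  rw [hf, Subgroup.index_ker]
  exact Nat.card_pos.ne'

variable [IsAdicComplete (maximalIdeal O) O]

/-- Main computation: for `s = ϖ p`, the `p`-th power map on `1 + s O` is injective with cokernel
of order `|O/p|`. -/
theorem powCongUnits (p : ℕ) (ϖ : O) (hϖ : Irreducible ϖ) (hp : (p : O) ≠ 0) :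
    (powMonoidHom p : congUnits (ϖ * p) →* congUnits (ϖ * p)).ker = ⊥ ∧
    (powMonoidHom p : congUnits (ϖ * p) →* congUnits (ϖ * p)).range.index =
      Nat.card (O ⧸ Ideal.span {(p : O)}) := by
  obtain ⟨R, hR⟩ := exists_poly_one_add_pow' p O
  set s : O := ϖ * p with hs
  have hϖm : ϖ ∈ maximalIdeal O := by
    rw [(IsDiscreteValuationRing.irreducible_iff_uniformizer _).1 hϖ]
    exact Ideal.mem_span_singleton_self _
  have hsm : s ∈ maximalIdeal O := (maximalIdeal O).mul_mem_right _ hϖm
  have hs0 : s ≠ 0 := mul_ne_zero hϖ.ne_zero hp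
  -- the polynomial `Q(X) = X^2 R(sX)`
  set Q : O[X] := X ^ 2 * R.comp (C s * X) with hQ
  have hQe : ∀ a, Q.eval a = a ^ 2 * R.eval (s * a) := by
    intro a; simp [hQ]
  have hpow : ∀ a : O, (1 + s * a) ^ p = 1 + s * (p * (a + ϖ * Q.eval a)) := by
    intro a
    rw [hR, hQe, hs]; ring
  have hcoeff : ∀ u : congUnits s, coeffOf (u ^ p) = p * (coeffOf u + ϖ * Q.eval (coeffOf u)) := by
    intro u
    have h1 := coeffOf_spec (u ^ p)
    have h2 : (((u ^ p : congUnits s) : Oˣ) : O) = ((u : Oˣ) : O) ^ p := by simp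
    rw [h2, coeffOf_spec u, hpow] at h1
    apply mul_left_cancel₀ hs0
    linear_combination - h1
  constructor
  · rw [eq_bot_iff]
    intro u hu
    rw [MonoidHom.mem_ker, powMonoidHom_apply] at hu
    have h1 : coeffOf (u ^ p) = 0 := by
      have := coeffOf_spec (u ^ p)
      rw [hu] at this ⊢
      simp only [OneMemClass.coe_one, Units.val_one, left_eq_add, mul_eq_zero] at this
      exact this.resolve_left hs0
    rw [hcoeff] at h1
    have h2 : coeffOf u + ϖ * Q.eval (coeffOf u) = 0 := (mul_eq_zero.1 h1).resolve_left hp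
    rw [hQe] at h2
    have h3 : coeffOf u * (1 + ϖ * (coeffOf u * R.eval (s * coeffOf u))) = 0 := by
      linear_combination h2
    have h4 : (1 + ϖ * (coeffOf u * R.eval (s * coeffOf u))) ≠ 0 := by
      intro h
      obtain ⟨v, hv⟩ := exists_congUnit hϖm (coeffOf u * R.eval (s * coeffOf u))
      rw [h] at hv
      exact (v : Oˣ).ne_zero hv
    have h5 : coeffOf u = 0 := (mul_eq_zero.1 h3).resolve_right h4
    rw [Subgroup.mem_bot]
    apply Subtype.ext
    apply Units.ext
    rw [coeffOf_spec u, h5]; simp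
  · -- the homomorphism `u ↦ coeffOf u mod p`
    let φ : congUnits s →* Multiplicative (O ⧸ Ideal.span {(p : O)}) :=
      { toFun := fun u => Multiplicative.ofAdd (Ideal.Quotient.mk _ (coeffOf u))
        map_one' := by
          have : coeffOf (1 : congUnits s) = 0 := by
            have := coeffOf_spec (1 : congUnits s)
            simp only [OneMemClass.coe_one, Units.val_one, left_eq_add, mul_eq_zero] at this
            exact this.resolve_left hs0
          rw [this, map_zero]; rfl
        map_mul' := by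
          intro u v
          rw [coeffOf_mul hs0, ← ofAdd_add, ← map_add]
          congr 1
          rw [Ideal.Quotient.eq, Ideal.mem_span_singleton]
          refine ⟨ϖ * (coeffOf u * coeffOf v), ?_⟩
          linear_combination (coeffOf u * coeffOf v) * hs }
    have hφs : Function.Surjective φ := by
      intro x
      obtain ⟨a, ha⟩ := Ideal.Quotient.mk_surjective (Multiplicative.toAdd x)
      obtain ⟨u, hu⟩ := exists_congUnit hsm a
      refine ⟨u, ?_⟩
      have : coeffOf u = a := by
        apply mul_left_cancel₀ hs0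
        have := coeffOf_spec u
        rw [hu] at this
        linear_combination - this
      change Multiplicative.ofAdd (Ideal.Quotient.mk _ (coeffOf u)) = x
      rw [this, ha]; rfl
    have hφk : φ.ker = (powMonoidHom p : congUnits s →* congUnits s).range := by
      ext u
      rw [MonoidHom.mem_ker]
      have hφu : φ u = 1 ↔ (p : O) ∣ coeffOf u := by
        change Multiplicative.ofAdd (Ideal.Quotient.mk _ (coeffOf u)) = 1 ↔ _
        rw [← ofAdd_zero, Multiplicative.ofAdd.injective.eq_iff, Ideal.Quotient.eq_zero_iff_mem,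
          Ideal.mem_span_singleton]
      rw [hφu]
      constructor
      · rintro ⟨c, hc⟩
        obtain ⟨a, ha⟩ := exists_root_add_mul_eval (maximalIdeal O) ϖ hϖm Q c
        obtain ⟨v, hv⟩ := exists_congUnit hsm a
        refine ⟨v, ?_⟩
        apply Subtype.ext
        apply Units.ext
        simp only [powMonoidHom_apply, SubmonoidClass.coe_pow, Units.val_pow_eq_pow_val]
        rw [hv, hpow, ha, coeffOf_spec u, hc]
      · rintro ⟨v, rfl⟩
        rw [powMonoidHom_apply, hcoeff]
        exact Dvd.intro _ rfl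
    rw [← hφk, Subgroup.index_ker, MonoidHom.range_eq_top.2 hφs]
    rw [Nat.card_congr (Subgroup.topEquiv.toEquiv)]
    rfl

/-- `[O^× : O^{×p}] = |O/p| * |μ_p(O)|`. -/
theorem index_pow_units [Finite (ResidueField O)] (p : ℕ) (hp : (p : O) ≠ 0) (hp' : p ≠ 0) :
    (powMonoidHom p : Oˣ →* Oˣ).range.index =
      Nat.card (O ⧸ Ideal.span {(p : O)}) * Nat.card (powMonoidHom p : Oˣ →* Oˣ).ker := by
  obtain ⟨ϖ, hϖ⟩ := IsDiscreteValuationRing.exists_irreducible O
  obtain ⟨h1, h2⟩ := powCongUnits p ϖ hϖ hp
  haveI : Finite (powMonoidHom p : Oˣ →* Oˣ).ker := by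
    haveI : NeZero p := ⟨hp'⟩
    have : Finite (rootsOfUnity p O) := inferInstance
    exact this
  have h3 := index_pow_mul_card_ker p (congUnits (ϖ * p : O))
    (index_congUnits_ne_zero _ (mul_ne_zero hϖ.ne_zero hp))
  rw [h1, h2] at h3
  simp only [Subgroup.card_bot, mul_one] at h3
  rw [h3]; ring

end

end Fermat.Agent.CFTLocal
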